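/-
S55 / CFT (PT7, Prelude bridge) — helper6.
The archimedean place contributes nothing: for coefficients in which `2` is invertible the
(abstract) `H¹` and the Prelude's `continuousH2` of the decomposition group `⟨c⟩` at infinity
vanish.
-/
import Mathlib
import Fermat.Prelude.Def_GroupCohomology_ContinuousUnramified
import Fermat.Prelude.Def_ExtEndgame_ProductionDatum
import Fermat.Agent.CFT.Coh.Torsion_helper9

set_option autoImplicit false

open CategoryTheory groupCohomology ExtCitation

namespace Fermat.Agent.CFT.Bridge

/-- `Ω = AlgebraicClosure ℚ`. -/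
local notation "Ω" => AlgebraicClosure ℚ
/-- `Γ = Gal(Ω/ℚ)`. -/
local notation "Γ" => (AlgebraicClosure ℚ ≃ₐ[ℚ] AlgebraicClosure ℚ)

/-- the elements of the archimedean decomposition group -/
theorem archimedean_eq_one_or (s : ↥archimedeanDecomposition) :
    s = 1 ∨ s = archimedeanGen := by
  obtain ⟨n, hn⟩ := Subgroup.mem_zpowers_iff.mp s.2
  rcases Int.even_or_odd' n with ⟨m, rfl | rfl⟩
  · left
    apply Subtype.ext
    rw [← hn, zpow_mul, zpow_two, complexConjugation_mul_self, one_zpow]
    rfl
  · right
    apply Subtype.ext
    rw [← hn, zpow_add, zpow_mul, zpow_two, complexConjugation_mul_self, one_zpow, one_mul,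
      zpow_one]
    rfl

instance finite_archimedeanDecomposition : Finite ↥archimedeanDecomposition := by
  apply Finite.of_injective (fun s : ↥archimedeanDecomposition => (s = 1 : Prop))
  intro s t hst
  simp only at hst
  rcases archimedean_eq_one_or s with hs | hs <;> rcases archimedean_eq_one_or t with ht | ht
  · rw [hs, ht]
  · by_cases h1 : (archimedeanGen : ↥archimedeanDecomposition) = 1
    · rw [hs, ht, h1]
    · exfalso
      rw [hs, ht] at hst
      exact h1 (hst.mp rfl)
  · by_cases h1 : (archimedeanGen : ↥archimedeanDecomposition) = 1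
    · rw [hs, ht, h1]
    · exfalso
      rw [hs, ht] at hst
      exact h1 (hst.mpr rfl)
  · rw [hs, ht]

theorem card_archimedeanDecomposition_dvd_two : Nat.card ↥archimedeanDecomposition ∣ 2 := by
  have h1 : Nat.card ↥archimedeanDecomposition = orderOf complexConjugation :=
    Nat.card_zpowers complexConjugation
  rw [h1]
  exact orderOf_dvd_of_pow_eq_one complexConjugation_sq

variable {k : Type} [CommRing k]

theorem bijective_card_archimedean_smul (h2 : IsUnit (2 : k))
    (N : Rep.{0} k ↥archimedeanDecomposition) :
    Function.Bijective fun a : N.V => Nat.card ↥archimedeanDecomposition • a := by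
  have hd := card_archimedeanDecomposition_dvd_two
  rcases (Nat.dvd_prime Nat.prime_two).mp hd with h | h
  · rw [h]
    simp only [one_smul]
    exact Function.bijective_id
  · rw [h]
    obtain ⟨u, hu⟩ := h2
    have h3 : ∀ a : N.V, (2 : ℕ) • a = (u : k) • a := by
      intro a
      have h4 : ((2 : ℕ) : k) = 2 := by norm_num
      rw [hu, ← h4, Nat.cast_smul_eq_nsmul]
    constructor
    · intro a b hab
      simp only [h3] at hab
      have := congrArg (fun t => ((u⁻¹ : kˣ) : k) • t) hab
      simpa [smul_smul] using this
    · intro b
      refine ⟨((u⁻¹ : kˣ) : k) • b, ?_⟩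
      simp only [h3, smul_smul, Units.mul_inv, one_smul]

/-- the cohomology of the archimedean decomposition group vanishes in positive degrees on
modules on which `2` is invertible. -/
theorem isZero_groupCohomology_archimedean (h2 : IsUnit (2 : k))
    (N : Rep.{0} k ↥archimedeanDecomposition) (n : ℕ) :
    Limits.IsZero (groupCohomology N (n + 1)) :=
  Coh.isZero_groupCohomology_of_bijective_card_smul N n (bijective_card_archimedean_smul h2 N)

theorem H1_archimedean_eq_zero (h2 : IsUnit (2 : k))
    (N : Rep.{0} k ↥archimedeanDecomposition) (x : H1 N) : x = 0 := by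
  have := (ModuleCat.isZero_iff_subsingleton.mp (isZero_groupCohomology_archimedean h2 N 0))
  exact Subsingleton.elim _ _

theorem H2_archimedean_eq_zero (h2 : IsUnit (2 : k))
    (N : Rep.{0} k ↥archimedeanDecomposition) (x : H2 N) : x = 0 := by
  have := (ModuleCat.isZero_iff_subsingleton.mp (isZero_groupCohomology_archimedean h2 N 1))
  exact Subsingleton.elim _ _

/-- there is a finite level seeing the whole archimedean decomposition group -/
theorem exists_archimedean_level : ∃ F : IntermediateField ℚ Ω, FiniteDimensional ℚ F ∧
    ∀ s : ↥archimedeanDecomposition, archimedeanLoc s ∈ F.fixingSubgroup → s = 1 := by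
  by_cases h1 : (archimedeanGen : ↥archimedeanDecomposition) = 1
  · refine ⟨⊥, inferInstance, fun s _ => ?_⟩
    rcases archimedean_eq_one_or s with hs | hs
    · exact hs
    · rw [hs, h1]
  · have hc : complexConjugation ≠ 1 := by
      intro h
      apply h1
      apply Subtype.ext
      exact h
    obtain ⟨x, hx⟩ : ∃ x : Ω, complexConjugation x ≠ x := by
      by_contra hcon
      apply hc
      apply AlgEquiv.ext
      intro y
      by_contra hy
      exact hcon ⟨y, hy⟩
    have hint : IsIntegral ℚ x :=
      ((AlgebraicClosure.isAlgebraic ℚ).isAlgebraic x).isIntegral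
    refine ⟨IntermediateField.adjoin ℚ {x}, IntermediateField.adjoin.finiteDimensional hint,
      fun s hs => ?_⟩
    rcases archimedean_eq_one_or s with hs1 | hs1
    · exact hs1
    · exfalso
      rw [hs1] at hs
      apply hx
      exact (IntermediateField.mem_fixingSubgroup_iff _ _).mp hs x
        (IntermediateField.mem_adjoin_simple_self ℚ x)

/-- every function on the archimedean decomposition group is level-constant -/
theorem isLevelConstant₁_archimedean {X : Type*} (f : ↥archimedeanDecomposition → X) :
    IsLevelConstant₁ archimedeanLoc f := by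
  obtain ⟨F, hF, h⟩ := exists_archimedean_level
  refine ⟨F, hF, fun g s hs => ?_⟩
  rw [h s hs, mul_one]

theorem isLevelConstant₂_archimedean {X : Type*}
    (f : ↥archimedeanDecomposition × ↥archimedeanDecomposition → X) :
    IsLevelConstant₂ archimedeanLoc f := by
  obtain ⟨F, hF, h⟩ := exists_archimedean_level
  refine ⟨F, hF, fun g g' s s' hs hs' => ?_⟩
  rw [h s hs, h s' hs', mul_one, mul_one]

/-- the Prelude's continuous `H²` of the archimedean decomposition group vanishes on modules on
which `2` is invertible. -/
theorem continuousH2_archimedean_eq_zero (h2 : IsUnit (2 : k))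
    (N : Rep.{0} k ↥archimedeanDecomposition) (x : continuousH2 archimedeanLoc N) : x = 0 := by
  obtain ⟨f, rfl⟩ := Submodule.Quotient.mk_surjective _ x
  change continuousH2π archimedeanLoc N f = 0
  rw [continuousH2π_eq_zero_iff, mem_levelCoboundaries₂_iff]
  have hf : (f : ↥archimedeanDecomposition × ↥archimedeanDecomposition → N.V) ∈ cocycles₂ N :=
    f.2.1
  have h0 : (H2π N).hom ⟨_, hf⟩ = 0 := H2_archimedean_eq_zero h2 N _
  rw [H2π_eq_zero_iff] at h0
  obtain ⟨y, hy⟩ := h0
  exact ⟨y, isLevelConstant₁_archimedean y, hy⟩

end Fermat.Agent.CFT.Bridge
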