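/-
S55 / CFT (PT7, Prelude bridge) — helper6.
Smooth cohomology in degrees 1 and 2 in terms of functions `Γ → A`, `Γ × Γ → A`.
-/
import Mathlib
import Fermat.Agent.CFT.Sm.Cohomology_helper9

set_option autoImplicit false

open CategoryTheory groupCohomology

namespace Fermat.Agent.CFT.Bridge

open Fermat.Agent.CFT.Sm

variable {k Γ : Type} [CommRing k] [Group Γ]

/-! ### Level-constant functions of one and two variables -/

/-- A function of one group variable is level-constant if it is right-invariant under an open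
subgroup. -/
def IsLC₁ (𝒰 : OpenBasis Γ) {X : Type*} (f : Γ → X) : Prop :=
  ∃ H : Subgroup Γ, 𝒰.IsOpen H ∧ ∀ g s, s ∈ H → f (g * s) = f g

/-- A function of two group variables is level-constant if it is right-invariant under an open
subgroup in both variables. -/
def IsLC₂ (𝒰 : OpenBasis Γ) {X : Type*} (f : Γ × Γ → X) : Prop :=
  ∃ H : Subgroup Γ, 𝒰.IsOpen H ∧ ∀ g g' s s', s ∈ H → s' ∈ H → f (g * s, g' * s') = f (g, g')

variable {𝒰 : OpenBasis Γ}

theorem isLevelConstant_fin1_iff {X : Type*} (f : Γ → X) :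
    IsLevelConstant 𝒰 (fun g : Fin 1 → Γ => f (g 0)) ↔ IsLC₁ 𝒰 f := by
  constructor
  · rintro ⟨U, hU, h⟩
    refine ⟨U, 𝒰.isOpen_of_mem hU, fun g s hs => ?_⟩
    refine h (fun _ => g * s) (fun _ => g) (fun _ => ?_)
    simpa using U.inv_mem hs
  · rintro ⟨H, ⟨U, hU, hUH⟩, h⟩
    refine ⟨U, hU, fun g g' hgg' => ?_⟩
    have e : g' 0 = g 0 * ((g 0)⁻¹ * g' 0) := by group
    show f (g 0) = f (g' 0)
    rw [e, h _ _ (hUH (hgg' 0))]

theorem isLevelConstant_fin2_iff {X : Type*} (f : Γ × Γ → X) :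
    IsLevelConstant 𝒰 (fun g : Fin 2 → Γ => f (g 0, g 1)) ↔ IsLC₂ 𝒰 f := by
  constructor
  · rintro ⟨U, hU, h⟩
    refine ⟨U, 𝒰.isOpen_of_mem hU, fun g g' s s' hs hs' => ?_⟩
    refine h ![g * s, g' * s'] ![g, g'] (fun i => ?_)
    fin_cases i
    · simpa using U.inv_mem hs
    · simpa using U.inv_mem hs'
  · rintro ⟨H, ⟨U, hU, hUH⟩, h⟩
    refine ⟨U, hU, fun g g' hgg' => ?_⟩
    have e0 : g' 0 = g 0 * ((g 0)⁻¹ * g' 0) := by group
    have e1 : g' 1 = g 1 * ((g 1)⁻¹ * g' 1) := by group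
    show f (g 0, g 1) = f (g' 0, g' 1)
    rw [e0, e1, h _ _ _ _ (hUH (hgg' 0)) (hUH (hgg' 1))]

/-! ### The cochain isomorphisms on elements -/

variable (A : Rep.{0} k Γ)

/-- a function of one variable as a `1`-cochain -/
noncomputable def fin₁ : (Γ → A.V) ≃ₗ[k] ((Fin 1 → Γ) → A.V) :=
  LinearEquiv.funCongrLeft k A.V (Equiv.funUnique (Fin 1) Γ)

/-- a function of two variables as a `2`-cochain -/
noncomputable def fin₂ : (Γ × Γ → A.V) ≃ₗ[k] ((Fin 2 → Γ) → A.V) :=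
  LinearEquiv.funCongrLeft k A.V (piFinTwoEquiv fun _ => Γ)

@[simp] theorem fin₁_apply (f : Γ → A.V) (g : Fin 1 → Γ) : fin₁ A f g = f (g 0) := rfl

@[simp] theorem fin₂_apply (f : Γ × Γ → A.V) (g : Fin 2 → Γ) : fin₂ A f g = f (g 0, g 1) := rfl

theorem fin₁_eq (f : Γ → A.V) : fin₁ A f = (cochainsIso₁ A).inv.hom f := rfl

theorem fin₂_eq (f : Γ × Γ → A.V) : fin₂ A f = (cochainsIso₂ A).inv.hom f := rfl

/-- `d ∘ fin₁ = fin₂ ∘ d₁₂` -/
theorem d_fin₁ (x : Γ → A.V) :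
    (inhomogeneousCochains.d A 1).hom (fin₁ A x) = fin₂ A ((d₁₂ A).hom x) := by
  rw [fin₁_eq, fin₂_eq, ← LinearMap.comp_apply, ← ModuleCat.hom_comp,
    ← inhomogeneousCochains.d_def, eq_d₁₂_comp_inv]
  rfl

/-- `d (fin₂ f) = 0 ↔ f` is a `2`-cocycle -/
theorem d_fin₂_eq_zero_iff (f : Γ × Γ → A.V) :
    (inhomogeneousCochains.d A 2).hom (fin₂ A f) = 0 ↔ f ∈ cocycles₂ A := by
  have h' : (inhomogeneousCochains.d A 2).hom (fin₂ A f) =
      (cochainsIso₃ A).inv.hom ((d₂₃ A).hom f) := by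
    rw [fin₂_eq, ← LinearMap.comp_apply, ← ModuleCat.hom_comp,
      ← inhomogeneousCochains.d_def, eq_d₂₃_comp_inv]
    rfl
  rw [h']
  show _ ↔ (d₂₃ A).hom f = 0
  constructor
  · intro h0
    have hinj : Function.Injective (cochainsIso₃ A).inv.hom :=
      (ModuleCat.mono_iff_injective _).1 inferInstance
    exact hinj (h0.trans (map_zero _).symm)
  · intro h0
    rw [h0, map_zero]

/-- `d (fin₁ c) = 0 ↔ c` is a `1`-cocycle -/
theorem d_fin₁_eq_zero_iff (c : Γ → A.V) :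
    (inhomogeneousCochains.d A 1).hom (fin₁ A c) = 0 ↔ c ∈ cocycles₁ A := by
  rw [d_fin₁]
  show _ ↔ (d₁₂ A).hom c = 0
  constructor
  · intro h0
    exact (fin₂ A).injective (h0.trans (map_zero _).symm)
  · intro h0
    rw [h0, map_zero]

/-! ### `H²` -/

section H2

variable (A : SmRep k 𝒰) (Z B : Submodule k (Γ × Γ → A.obj.V))
  (hZ : ∀ f, f ∈ Z ↔ f ∈ cocycles₂ A.obj ∧ IsLC₂ 𝒰 f)
  (hB : ∀ f, f ∈ B ↔ ∃ x : Γ → A.obj.V, IsLC₁ 𝒰 x ∧ (d₁₂ A.obj).hom x = f)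

/-- a level-constant `2`-cocycle, given as a function on `Γ × Γ`, as an element of `lcCocycles` -/
noncomputable def toLcCocycles₂ : Z →ₗ[k] lcCocycles 𝒰 A 2 :=
  LinearMap.codRestrict (lcCocycles 𝒰 A 2)
    (LinearMap.codRestrict (lcCochains 𝒰 A.obj 2) ((fin₂ A.obj).toLinearMap ∘ₗ Z.subtype)
      (fun f => (isLevelConstant_fin2_iff _).2 ((hZ f.1).1 f.2).2))
    (fun f => (mem_lcCocycles_iff _).2 ((d_fin₂_eq_zero_iff A.obj f.1).2 ((hZ f.1).1 f.2).1))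

@[simp] theorem toLcCocycles₂_apply (f : Z) (g : Fin 2 → Γ) :
    ((toLcCocycles₂ A Z hZ f).1 : (Fin 2 → Γ) → A.obj.V) g = f.1 (g 0, g 1) := rfl

/-- the class of a level-constant `2`-cocycle in smooth cohomology -/
noncomputable def h2Map : Z →ₗ[k] smH 𝒰 A 2 := (smHmk A 2) ∘ₗ toLcCocycles₂ A Z hZ

theorem h2Map_surjective : Function.Surjective (h2Map A Z hZ) := by
  intro x
  obtain ⟨F, rfl⟩ := exists_smHmk_eq x
  set f : Γ × Γ → A.obj.V := (fin₂ A.obj).symm (F.1 : (Fin 2 → Γ) → A.obj.V) with hf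
  have hfF : fin₂ A.obj f = (F.1 : (Fin 2 → Γ) → A.obj.V) := (fin₂ A.obj).apply_symm_apply _
  have hfZ : f ∈ Z := by
    rw [hZ]
    refine ⟨?_, ?_⟩
    · rw [← d_fin₂_eq_zero_iff, hfF]
      exact (mem_lcCocycles_iff _).1 F.2
    · rw [← isLevelConstant_fin2_iff]
      have : IsLevelConstant 𝒰 (fin₂ A.obj f) := by
        rw [hfF]; exact F.1.2
      exact this
  refine ⟨⟨f, hfZ⟩, ?_⟩
  unfold h2Map
  rw [LinearMap.comp_apply]
  congr 1
  apply Subtype.ext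
  apply Subtype.ext
  exact hfF

include hB in
theorem ker_h2Map : LinearMap.ker (h2Map A Z hZ) = B.comap Z.subtype := by
  ext f
  rw [LinearMap.mem_ker, Submodule.mem_comap, Submodule.subtype_apply, hB]
  unfold h2Map
  rw [LinearMap.comp_apply, smHmk_succ_eq_zero_iff]
  constructor
  · rintro ⟨y, hy⟩
    refine ⟨(fin₁ A.obj).symm (y : (Fin 1 → Γ) → A.obj.V), ?_, ?_⟩
    · rw [← isLevelConstant_fin1_iff]
      have : IsLevelConstant 𝒰 (fin₁ A.obj ((fin₁ A.obj).symm (y : (Fin 1 → Γ) → A.obj.V))) := by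
        rw [LinearEquiv.apply_symm_apply]; exact y.2
      exact this
    · apply (fin₂ A.obj).injective
      rw [← d_fin₁, LinearEquiv.apply_symm_apply]
      have := congrArg Subtype.val hy
      exact this
  · rintro ⟨x, hx, hxf⟩
    refine ⟨⟨fin₁ A.obj x, (isLevelConstant_fin1_iff _).2 hx⟩, ?_⟩
    apply Subtype.ext
    show (inhomogeneousCochains.d A.obj 1).hom (fin₁ A.obj x) = fin₂ A.obj f.1
    rw [d_fin₁, hxf]

/-- **`H²` in terms of functions of two variables.** -/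
noncomputable def h2Equiv : (Z ⧸ B.comap Z.subtype) ≃ₗ[k] smH 𝒰 A 2 :=
  (Submodule.quotEquivOfEq _ _ (ker_h2Map A Z B hZ hB).symm).trans
    ((h2Map A Z hZ).quotKerEquivOfSurjective (h2Map_surjective A Z hZ))

theorem h2Equiv_mk (f : Z) :
    h2Equiv A Z B hZ hB (Submodule.Quotient.mk f) = smHmk A 2 (toLcCocycles₂ A Z hZ f) := rfl

/-- naturality of `h2Map` on representatives -/
theorem smHMap_h2Map {Γ' : Type} [Group Γ'] {𝒰' : OpenBasis Γ'} (ψ : Γ' →* Γ)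
    (hψ : 𝒰'.Finer (𝒰.comap ψ)) (A' : SmRep k 𝒰') (φ : Rep.res ψ A.obj ⟶ A'.obj)
    (Z' : Submodule k (Γ' × Γ' → A'.obj.V))
    (hZ' : ∀ f, f ∈ Z' ↔ f ∈ cocycles₂ A'.obj ∧ IsLC₂ 𝒰' f) (f : Z) (f' : Z')
    (hff' : ∀ a b, f'.1 (a, b) = φ.hom (f.1 (ψ a, ψ b))) :
    (smHMap ψ hψ φ 2).hom (h2Map A Z hZ f) = h2Map A' Z' hZ' f' := by
  unfold h2Map
  rw [LinearMap.comp_apply, LinearMap.comp_apply, smHMap_smHmk]
  congr 1
  apply Subtype.ext
  apply Subtype.ext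
  funext g
  rw [lcCocyclesMap_apply]
  exact (hff' (g 0) (g 1)).symm

end H2

/-! ### Comparison with abstract group cohomology -/

section Compare

/-- every `0`-cochain is level-constant -/
theorem isLevelConstant_zero (𝒰 : OpenBasis Γ) {X : Type*} (y : (Fin 0 → Γ) → X) :
    IsLevelConstant 𝒰 y := by
  obtain ⟨U, hU⟩ := 𝒰.nonempty
  exact ⟨U, hU, fun g g' _ => congrArg y (Subsingleton.elim g g')⟩

variable (A : SmRep k 𝒰)

/-- the comparison map from smooth cohomology to abstract group cohomology -/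
noncomputable def smHToH (n : ℕ) : smH 𝒰 A n →ₗ[k] groupCohomology A.obj n :=
  (HomologicalComplex.homologyMap (lcι 𝒰 A) n).hom

theorem smHToH_smHmk (n : ℕ) (F : lcCocycles 𝒰 A n) :
    smHToH A n (smHmk A n F) =
      CC.mk (inhomogeneousCochains A.obj) n (CC.mapZ (lcι 𝒰 A) n F) :=
  CC.homologyMap_mk (lcι 𝒰 A) n F

/-- the comparison map is injective in degree `1` -/
theorem smHToH_one_injective : Function.Injective (smHToH A 1) := by
  rw [← LinearMap.ker_eq_bot, LinearMap.ker_eq_bot']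
  intro x hx
  obtain ⟨F, rfl⟩ := exists_smHmk_eq x
  rw [smHToH_smHmk] at hx
  obtain ⟨y, hy⟩ := (CC.mk_succ_eq_zero_iff (inhomogeneousCochains A.obj) 0
    (CC.mapZ (lcι 𝒰 A) 1 F)).1 hx
  rw [smHmk_succ_eq_zero_iff]
  refine ⟨⟨y, isLevelConstant_zero 𝒰 y⟩, ?_⟩
  apply Subtype.ext
  rw [lcD_apply_coe]
  have h1 : (inhomogeneousCochains A.obj).d 0 1 = inhomogeneousCochains.d A.obj 0 :=
    inhomogeneousCochains.d_def A.obj 0
  rw [h1] at hy
  exact hy

/-- naturality of the comparison map -/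
theorem smHToH_natural {Γ' : Type} [Group Γ'] {𝒰' : OpenBasis Γ'} (ψ : Γ' →* Γ)
    (hψ : 𝒰'.Finer (𝒰.comap ψ)) (A' : SmRep k 𝒰') (φ : Rep.res ψ A.obj ⟶ A'.obj) (n : ℕ)
    (x : smH 𝒰 A n) :
    smHToH A' n ((smHMap ψ hψ φ n).hom x) = (groupCohomology.map ψ φ n).hom (smHToH A n x) := by
  have hcomm : lcMap ψ hψ φ ≫ lcι 𝒰' A' = lcι 𝒰 A ≫ cochainsMap ψ φ := by
    ext i : 1
    rfl
  have h := congrArg (fun t : lcComplex 𝒰 A ⟶ inhomogeneousCochains A'.obj =>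
    (HomologicalComplex.homologyMap t n).hom x) hcomm
  simp only [HomologicalComplex.homologyMap_comp, ModuleCat.hom_comp] at h
  exact h

end Compare

/-! ### Mathlib's `H1π`, `H2π` in terms of `CC.mk` -/

section Pi

variable (A : Rep.{0} k Γ)

theorem CC_mk_one_eq_H1π (c : cocycles₁ A)
    (h : fin₁ A (c : Γ → A.V) ∈ CC.Z (inhomogeneousCochains A) 1) :
    CC.mk (inhomogeneousCochains A) 1 ⟨fin₁ A (c : Γ → A.V), h⟩ = (H1π A).hom c := by
  unfold H1π CC.mk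
  rw [ModuleCat.hom_comp, LinearMap.comp_apply, LinearMap.comp_apply]
  congr 1
  apply CC.iCycles_injective (inhomogeneousCochains A) 1
  rw [CC.iCycles_cyclesIso_inv_apply]
  have := isoCocycles₁_inv_comp_iCocycles_apply A c
  exact this.symm

theorem CC_mk_two_eq_H2π (f : cocycles₂ A)
    (h : fin₂ A (f : Γ × Γ → A.V) ∈ CC.Z (inhomogeneousCochains A) 2) :
    CC.mk (inhomogeneousCochains A) 2 ⟨fin₂ A (f : Γ × Γ → A.V), h⟩ = (H2π A).hom f := by
  unfold H2π CC.mk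
  rw [ModuleCat.hom_comp, LinearMap.comp_apply, LinearMap.comp_apply]
  congr 1
  apply CC.iCycles_injective (inhomogeneousCochains A) 2
  rw [CC.iCycles_cyclesIso_inv_apply]
  have := isoCocycles₂_inv_comp_iCocycles_apply A f
  exact this.symm

end Pi

/-! ### `H¹` -/

section H1

variable (A : SmRep k 𝒰)

/-- a level-constant `1`-cocycle, given as a function on `Γ`, as an element of `lcCocycles` -/
noncomputable def mkLcCocycle₁ (c : cocycles₁ A.obj) (hc : IsLC₁ 𝒰 (c : Γ → A.obj.V)) :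
    lcCocycles 𝒰 A 1 :=
  ⟨⟨fin₁ A.obj (c : Γ → A.obj.V), (isLevelConstant_fin1_iff _).2 hc⟩,
    (mem_lcCocycles_iff _).2 ((d_fin₁_eq_zero_iff A.obj _).2 c.2)⟩

theorem smHToH_one_mk (c : cocycles₁ A.obj) (hc : IsLC₁ 𝒰 (c : Γ → A.obj.V)) :
    smHToH A 1 (smHmk A 1 (mkLcCocycle₁ A c hc)) = (H1π A.obj).hom c := by
  rw [smHToH_smHmk]
  exact CC_mk_one_eq_H1π A.obj c _

/-- the image of smooth `H¹` in abstract `H¹`: classes of level-constant cocycles -/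
theorem mem_range_smHToH_one_iff (x : H1 A.obj) :
    x ∈ LinearMap.range (smHToH A 1) ↔
      ∃ c : cocycles₁ A.obj, IsLC₁ 𝒰 (c : Γ → A.obj.V) ∧ (H1π A.obj).hom c = x := by
  constructor
  · rintro ⟨y, rfl⟩
    obtain ⟨F, rfl⟩ := exists_smHmk_eq y
    set c : Γ → A.obj.V := (fin₁ A.obj).symm (F.1 : (Fin 1 → Γ) → A.obj.V) with hc
    have hcF : fin₁ A.obj c = (F.1 : (Fin 1 → Γ) → A.obj.V) := (fin₁ A.obj).apply_symm_apply _
    have hc1 : c ∈ cocycles₁ A.obj := by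
      rw [← d_fin₁_eq_zero_iff, hcF]
      exact (mem_lcCocycles_iff _).1 F.2
    have hc2 : IsLC₁ 𝒰 c := by
      rw [← isLevelConstant_fin1_iff]
      have : IsLevelConstant 𝒰 (fin₁ A.obj c) := by
        rw [hcF]; exact F.1.2
      exact this
    refine ⟨⟨c, hc1⟩, hc2, ?_⟩
    rw [← smHToH_one_mk A ⟨c, hc1⟩ hc2]
    congr 2
    apply Subtype.ext
    apply Subtype.ext
    exact hcF
  · rintro ⟨c, hc, rfl⟩
    exact ⟨_, smHToH_one_mk A c hc⟩

/-- **`H¹` as a submodule of abstract `H¹`.** -/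
noncomputable def h1Equiv (C : Submodule k (H1 A.obj))
    (hC : ∀ x, x ∈ C ↔ ∃ c : cocycles₁ A.obj, IsLC₁ 𝒰 (c : Γ → A.obj.V) ∧
      (H1π A.obj).hom c = x) : smH 𝒰 A 1 ≃ₗ[k] C :=
  LinearEquiv.ofBijective
    (LinearMap.codRestrict C (smHToH A 1) (fun y =>
      (hC _).2 ((mem_range_smHToH_one_iff A _).1 ⟨y, rfl⟩)))
    ⟨fun y y' h => smHToH_one_injective A (congrArg Subtype.val h), fun x => by
      obtain ⟨y, hy⟩ := (mem_range_smHToH_one_iff A x.1).2 ((hC _).1 x.2)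
      exact ⟨y, Subtype.ext hy⟩⟩

@[simp] theorem h1Equiv_apply_coe (C : Submodule k (H1 A.obj))
    (hC : ∀ x, x ∈ C ↔ ∃ c : cocycles₁ A.obj, IsLC₁ 𝒰 (c : Γ → A.obj.V) ∧
      (H1π A.obj).hom c = x) (y : smH 𝒰 A 1) :
    ((h1Equiv A C hC y : C) : H1 A.obj) = smHToH A 1 y := rfl

end H1

end Fermat.Agent.CFT.Bridge
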