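/-
S55 / CFT (PT7, Prelude bridge) — helper6.
The open bases on `Γ = Gal(ℚ̄/ℚ)` and on the local groups underlying the Prelude's level-constancy
predicates.
-/
import Mathlib
import Fermat.Prelude.Def_GroupCohomology_ContinuousUnramified
import Fermat.Agent.CFT.Bridge.LowDeg_helper6
import Fermat.Agent.CFT.Arith.Basis_helper7

set_option autoImplicit false

open CategoryTheory groupCohomology

namespace Fermat.Agent.CFT.Bridge

open Fermat.Agent.CFT.Sm Fermat.Agent.CFT.Arith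

/-- `Ω = AlgebraicClosure ℚ`. -/
local notation "Ω" => AlgebraicClosure ℚ
/-- `Γ = Gal(Ω/ℚ)`. -/
local notation "Γ" => (AlgebraicClosure ℚ ≃ₐ[ℚ] AlgebraicClosure ℚ)

/-! ### The basis of all finite Galois levels -/

/-- a finite Galois extension of `ℚ` inside `Ω` (Galois expressed as stability under `Γ`) -/
def IsFullLevel (F : IntermediateField ℚ Ω) : Prop :=
  FiniteDimensional ℚ F ∧ ∀ σ : Γ, ∀ x ∈ F, σ x ∈ F

theorem isFullLevel_bot : IsFullLevel (⊥ : IntermediateField ℚ Ω) := by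
  refine ⟨inferInstance, fun σ x hx => ?_⟩
  obtain ⟨r, rfl⟩ := IntermediateField.mem_bot.1 hx
  rw [σ.commutes]
  exact algebraMap_mem _ r

theorem IsFullLevel.sup {F F' : IntermediateField ℚ Ω} (hF : IsFullLevel F)
    (hF' : IsFullLevel F') : IsFullLevel (F ⊔ F') := by
  have := hF.1
  have := hF'.1
  refine ⟨IntermediateField.finiteDimensional_sup F F', fun σ x hx => ?_⟩
  have h1 : (F ⊔ F').map (σ : Ω →ₐ[ℚ] Ω) ≤ F ⊔ F' := by
    rw [IntermediateField.map_sup]
    refine sup_le_sup ?_ ?_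
    · rintro _ ⟨y, hy, rfl⟩
      exact hF.2 σ y hy
    · rintro _ ⟨y, hy, rfl⟩
      exact hF'.2 σ y hy
  exact h1 ⟨x, hx, rfl⟩

theorem IsFullLevel.normal_fixingSubgroup {F : IntermediateField ℚ Ω} (hF : IsFullLevel F) :
    (F.fixingSubgroup).Normal := by
  constructor
  intro τ hτ σ
  rw [IntermediateField.mem_fixingSubgroup_iff] at hτ ⊢
  intro x hx
  have h1 := hτ (σ⁻¹ x) (hF.2 σ⁻¹ x hx)
  change σ (τ (σ⁻¹ x)) = x
  rw [h1, ← AlgEquiv.mul_apply, mul_inv_cancel]
  rfl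

theorem isFullLevel_of_isLevel {S : Finset Nat.Primes} {F : IntermediateField ℚ Ω}
    (hF : IsLevel S F) : IsFullLevel F := ⟨hF.finiteDimensional, hF.2⟩

/-- every finite extension lies in a finite Galois one -/
theorem exists_isFullLevel_ge (F : IntermediateField ℚ Ω) [FiniteDimensional ℚ F] :
    ∃ F' : IntermediateField ℚ Ω, IsFullLevel F' ∧ F ≤ F' := by
  obtain ⟨α, hα⟩ := Field.exists_primitive_element ℚ F
  have h1 : F = IntermediateField.adjoin ℚ {(α : Ω)} := by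
    have h := congrArg IntermediateField.lift hα
    exact ((IntermediateField.lift_adjoin_simple ℚ F α).symm.trans
      (h.trans (IntermediateField.lift_top ℚ F))).symm
  have hint : IsIntegral ℚ (α : Ω) := (Algebra.IsAlgebraic.isAlgebraic (α : Ω)).isIntegral
  set R : Set Ω := (minpoly ℚ (α : Ω)).rootSet Ω with hR
  have hαR : (α : Ω) ∈ R := by
    rw [hR, Polynomial.mem_rootSet]
    exact ⟨minpoly.ne_zero hint, minpoly.aeval ℚ _⟩
  have hstab : ∀ σ : Γ, ∀ β ∈ R, σ β ∈ R := by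
    intro σ β hβ
    rw [hR, Polynomial.mem_rootSet] at hβ ⊢
    refine ⟨hβ.1, ?_⟩
    rw [Polynomial.aeval_algEquiv, AlgHom.coe_comp, Function.comp_apply, hβ.2]
    exact map_zero _
  have : Finite R := (Polynomial.rootSet_finite _ Ω)
  have hRint : ∀ x ∈ R, IsIntegral ℚ x :=
    fun x _ => (Algebra.IsAlgebraic.isAlgebraic x).isIntegral
  have hfd : FiniteDimensional ℚ (IntermediateField.adjoin ℚ R) :=
    IntermediateField.finiteDimensional_adjoin hRint
  refine ⟨IntermediateField.adjoin ℚ R, ⟨hfd, ?_⟩, ?_⟩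
  · intro σ x hx
    have h2 : (IntermediateField.adjoin ℚ R).map (σ : Ω →ₐ[ℚ] Ω) ≤
        IntermediateField.adjoin ℚ R := by
      rw [IntermediateField.adjoin_map, IntermediateField.adjoin_le_iff]
      rintro _ ⟨β, hβ, rfl⟩
      exact IntermediateField.subset_adjoin ℚ R (hstab σ β hβ)
    exact h2 ⟨x, hx, rfl⟩
  · rw [h1, IntermediateField.adjoin_le_iff]
    rintro _ rfl
    exact IntermediateField.subset_adjoin ℚ R hαR

/-- The open basis of `Γ` given by all finite Galois extensions of `ℚ`. -/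
def fullBasis : OpenBasis Γ where
  sets := {U | ∃ F : IntermediateField ℚ Ω, IsFullLevel F ∧ U = F.fixingSubgroup}
  nonempty := ⟨_, ⊥, isFullLevel_bot, rfl⟩
  normal := by
    rintro _ ⟨F, hF, rfl⟩
    exact hF.normal_fixingSubgroup
  finiteIndex := by
    rintro _ ⟨F, hF, rfl⟩
    have := hF.1
    exact finiteIndex_fixingSubgroup F
  directed := by
    rintro _ ⟨F, hF, rfl⟩ _ ⟨F', hF', rfl⟩
    exact ⟨_, ⟨F ⊔ F', hF.sup hF', rfl⟩, (IntermediateField.fixingSubgroup_sup).le⟩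

theorem mem_fullBasis_sets {U : Subgroup Γ} : U ∈ fullBasis.sets ↔
    ∃ F : IntermediateField ℚ Ω, IsFullLevel F ∧ U = F.fixingSubgroup := Iff.rfl

/-- the fixing subgroup of any finite extension is open for the full basis -/
theorem isOpen_fullBasis_fixingSubgroup (F : IntermediateField ℚ Ω) [FiniteDimensional ℚ F] :
    fullBasis.IsOpen F.fixingSubgroup := by
  obtain ⟨F', hF', hle⟩ := exists_isFullLevel_ge F
  exact ⟨_, ⟨F', hF', rfl⟩, IntermediateField.fixingSubgroup_antitone hle⟩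

/-- the full basis is finer than every `𝒰_S` -/
theorem fullBasis_finer_levelBasis (S : Finset Nat.Primes) : fullBasis.Finer (levelBasis S) := by
  rintro _ ⟨F, hF, rfl⟩
  exact fullBasis.isOpen_of_mem ⟨F, isFullLevel_of_isLevel hF, rfl⟩

/-- pulling back preserves `Finer` -/
theorem comap_finer {G : Type} [Group G] {𝒱 𝒰 : OpenBasis Γ} (h : 𝒱.Finer 𝒰) (ψ : G →* Γ) :
    (𝒱.comap ψ).Finer (𝒰.comap ψ) := by
  rintro _ ⟨U, hU, rfl⟩
  exact 𝒱.isOpen_comap ψ (h U hU)

/-! ### The Prelude's level-constancy predicates -/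

theorem isLevelConstantS₁_iff (S : Finset Nat.Primes) {X : Type*} (f : Γ → X) :
    IsLevelConstantS₁ S f ↔ IsLC₁ (levelBasis S) f := by
  constructor
  · rintro ⟨F, hF, h⟩
    exact ⟨F.fixingSubgroup, isOpen_fixingSubgroup hF, h⟩
  · rintro ⟨H, ⟨_, ⟨F, hF, rfl⟩, hle⟩, h⟩
    exact ⟨F, hF.1, fun g s hs => h g s (hle hs)⟩

theorem isLevelConstantS₂_iff (S : Finset Nat.Primes) {X : Type*} (f : Γ × Γ → X) :
    IsLevelConstantS₂ S f ↔ IsLC₂ (levelBasis S) f := by
  constructor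
  · rintro ⟨F, hF, h⟩
    exact ⟨F.fixingSubgroup, isOpen_fixingSubgroup hF, h⟩
  · rintro ⟨H, ⟨_, ⟨F, hF, rfl⟩, hle⟩, h⟩
    exact ⟨F, hF.1, fun g g' s s' hs hs' => h g g' s s' (hle hs) (hle hs')⟩

theorem isLevelConstant₁_iff {G : Type} [Group G] (r : G →* Γ) {X : Type*} (f : G → X) :
    IsLevelConstant₁ r f ↔ IsLC₁ (fullBasis.comap r) f := by
  constructor
  · rintro ⟨F, hF, h⟩
    have := hF
    exact ⟨F.fixingSubgroup.comap r, fullBasis.isOpen_comap r (isOpen_fullBasis_fixingSubgroup F),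
      fun g s hs => h g s hs⟩
  · rintro ⟨H, ⟨_, ⟨_, ⟨F, hF, rfl⟩, rfl⟩, hle⟩, h⟩
    exact ⟨F, hF.1, fun g s hs => h g s (hle hs)⟩

theorem isLevelConstant₂_iff {G : Type} [Group G] (r : G →* Γ) {X : Type*} (f : G × G → X) :
    IsLevelConstant₂ r f ↔ IsLC₂ (fullBasis.comap r) f := by
  constructor
  · rintro ⟨F, hF, h⟩
    have := hF
    exact ⟨F.fixingSubgroup.comap r, fullBasis.isOpen_comap r (isOpen_fullBasis_fixingSubgroup F),
      fun g g' s s' hs hs' => h g g' s s' hs hs'⟩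
  · rintro ⟨H, ⟨_, ⟨_, ⟨F, hF, rfl⟩, rfl⟩, hle⟩, h⟩
    exact ⟨F, hF.1, fun g g' s s' hs hs' => h g g' s s' (hle hs) (hle hs')⟩

end Fermat.Agent.CFT.Bridge
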