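/-
S55 / CFT (PT7, Prelude bridge) — helper6.
Smoothness of the coefficient modules of S55 for the basis `𝒰_S = levelBasis S`:
`hsm + hMur ⇒ IsSmooth 𝒰_S M`, and `M.dualTwist (cycloChar p)` is smooth when `p ∈ S`.
Also: `cycloChar p = chi p`, `ℚ(ζ_p)` is unramified outside `S ∋ p`, biduality for `dualTwist`.
-/
import Mathlib
import Fermat.Prelude.Def_GroupCohomology_ContinuousUnramified
import Fermat.Prelude.Def_ExtEndgame_ProductionDatum
import Fermat.Agent.CFT.Bridge.Bases_helper6
import Fermat.Agent.CFT.S14.Cyclo_helper5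

set_option autoImplicit false

open CategoryTheory groupCohomology ExtCitation

namespace Fermat.Agent.CFT.Bridge

open Fermat.Agent.CFT.Sm Fermat.Agent.CFT.Arith

/-- `Ω = AlgebraicClosure ℚ`. -/
local notation "Ω" => AlgebraicClosure ℚ
/-- `Γ = Gal(Ω/ℚ)`. -/
local notation "Γ" => (AlgebraicClosure ℚ ≃ₐ[ℚ] AlgebraicClosure ℚ)

/-! ### Smoothness from `hsm` and `hMur` -/

/-- A representation of `Γ` with open stabilisers (for the Krull topology) on which inertia
outside `S` acts trivially is smooth for `𝒰_S`. -/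
theorem isSmooth_of_unramified {k : Type} [CommRing k] (S : Finset Nat.Primes) (M : Rep.{0} k Γ)
    (hsm : ∀ m : M, ∃ F : IntermediateField ℚ Ω, FiniteDimensional ℚ F ∧
      ∀ s ∈ F.fixingSubgroup, M.ρ s m = m)
    (hMur : ∀ q : Nat.Primes, q ∉ S → ∀ A : ValuationSubring Ω,
      A.LiesOverPrime (q : ℕ) → ∀ g ∈ A.inertiaSubgroupIn ℚ, M.ρ g = 1) :
    IsSmooth (levelBasis S) M := by
  intro m
  obtain ⟨F, hFfin, hF⟩ := hsm m
  -- the stabiliser of `m`
  let H : Subgroup Γ :=
    { carrier := {g | M.ρ g m = m}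
      one_mem' := by simp
      mul_mem' := by
        intro a b ha hb
        change M.ρ a m = m at ha
        change M.ρ b m = m at hb
        change M.ρ (a * b) m = m
        rw [map_mul, Module.End.mul_apply, hb, ha]
      inv_mem' := by
        intro a ha
        change M.ρ a m = m at ha
        change M.ρ a⁻¹ m = m
        have h1 : M.ρ a⁻¹ (M.ρ a m) = m := by
          rw [← Module.End.mul_apply, ← map_mul, inv_mul_cancel, map_one, Module.End.one_apply]
        rwa [ha] at h1 }
  have hle : F.fixingSubgroup ≤ H := fun s hs => hF s hs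
  have hopen : IsOpen (H : Set Γ) :=
    Subgroup.isOpen_mono hle (IntermediateField.fixingSubgroup_isOpen F)
  have hclosed : IsClosed (H : Set Γ) := (⟨H, hopen⟩ : OpenSubgroup Γ).isClosed
  have hHeq : (IntermediateField.fixedField H).fixingSubgroup = H :=
    InfiniteGalois.fixingSubgroup_fixedField ⟨H, hclosed⟩
  have hEle : IntermediateField.fixedField H ≤ F := by
    have h1 := IntermediateField.fixedField_antitone hle
    rwa [InfiniteGalois.fixedField_fixingSubgroup] at h1
  have hEunr : (IntermediateField.fixedField H).IsUnramifiedOutside S := by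
    refine ⟨?_, fun q hq A hA g hg => ?_⟩
    · exact FiniteDimensional.of_injective (IntermediateField.inclusion hEle).toLinearMap
        (IntermediateField.inclusion_injective hEle)
    · rw [hHeq]
      change M.ρ g m = m
      rw [hMur q hq A hA g hg, Module.End.one_apply]
  obtain ⟨U, hU, hUH⟩ := isOpen_fixingSubgroup (S := S) hEunr
  refine ⟨U, hU, fun g hg => ?_⟩
  have : g ∈ H := by
    rw [← hHeq]
    exact hUH hg
  exact this

/-! ### The cyclotomic character -/

/-- the Prelude's mod `p` cyclotomic character is helper5's `chi p` -/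
theorem cycloChar_eq_chi (p : ℕ) [Fact p.Prime] : cycloChar p = S14.chi p := by
  ext σ
  rfl

/-- `ℚ(ζ_p)` is unramified outside `S` when `p ∈ S`. -/
theorem Kp_isUnramifiedOutside {p : ℕ} [Fact p.Prime] {S : Finset Nat.Primes}
    (hpS : pPrime p ∈ S) : (S14.Kp p).IsUnramifiedOutside S := by
  have : FiniteDimensional ℚ (S14.Kp p) := inferInstance
  apply isUnramifiedOutside_of_le_QS
  rw [S14.Kp, IntermediateField.adjoin_le_iff]
  rintro _ rfl
  have hζ := S14.zetaP_spec p
  have hp : p.Prime := Fact.out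
  have h0 : S14.zetaP p ≠ 0 := hζ.ne_zero hp.ne_zero
  have h1 : (Units.mk0 (S14.zetaP p) h0) ^ p = 1 := by
    apply Units.ext
    rw [Units.val_pow_eq_pow_val, Units.val_mk0, hζ.pow_eq_one, Units.val_one]
  exact (mem_ES_of_pow_eq_one (S := S) hp hpS h1).1

/-- the kernel of the cyclotomic character is open for `𝒰_S` when `p ∈ S`. -/
theorem isOpen_ker_cycloChar {p : ℕ} [Fact p.Prime] {S : Finset Nat.Primes}
    (hpS : pPrime p ∈ S) : (levelBasis S).IsOpen (cycloChar p).ker := by
  rw [cycloChar_eq_chi, ← S14.fixingSubgroup_Kp]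
  exact isOpen_fixingSubgroup (Kp_isUnramifiedOutside hpS)

/-! ### Smoothness of the twisted dual -/

section dualTwist

variable {k G : Type} [CommRing k] [Group G]

/-- A smooth finitely generated representation is fixed pointwise by a basic open subgroup. -/
theorem exists_mem_forall_ρ_eq_one (𝒰 : OpenBasis G) (A : Rep.{0} k G) [Module.Finite k A.V]
    (hA : IsSmooth 𝒰 A) : ∃ U ∈ 𝒰.sets, ∀ g ∈ U, A.ρ g = 1 := by
  obtain ⟨s, hs⟩ := (Module.finite_def (R := k) (M := A.V)).mp inferInstance
  obtain ⟨U, hU, hfix⟩ := hA.exists_mem_forall_fixed (fun i : s => (i : A.V))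
  refine ⟨U, hU, fun g hg => ?_⟩
  apply LinearMap.ext_on_range (v := fun i : s => (i : A.V))
  · rw [Subtype.range_coe_subtype]
    simpa using hs
  · intro i
    rw [hfix i g hg, Module.End.one_apply]

/-- The twisted dual of a finitely generated smooth representation by a character with open
kernel is smooth. -/
theorem isSmooth_dualTwist (𝒰 : OpenBasis G) (A : Rep.{0} k G) [Module.Finite k A.V]
    (hA : IsSmooth 𝒰 A) (χ : G →* kˣ) (hχ : 𝒰.IsOpen χ.ker) :
    IsSmooth 𝒰 (A.dualTwist χ) := by
  obtain ⟨U, hU, hUA⟩ := exists_mem_forall_ρ_eq_one 𝒰 A hA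
  obtain ⟨V, hV, hVχ⟩ := hχ
  obtain ⟨W, hW, hWUV⟩ := 𝒰.directed U hU V hV
  intro f
  refine ⟨W, hW, fun g hg => ?_⟩
  have hgU : g ∈ U := (hWUV hg).1
  have hgχ : χ g = 1 := hVχ (hWUV hg).2
  rw [Rep.dualTwist_ρ_apply, hgχ, Units.val_one, one_smul, hUA g⁻¹ (U.inv_mem hgU)]
  rfl

/-- biduality for the twisted dual: `A ≅ (A^∨(χ))^∨(χ)`, `a ↦ (f ↦ f a)`. -/
noncomputable def dualTwistDualTwistIso (A : Rep.{0} k G) [Module.IsReflexive k A.V]
    (χ : G →* kˣ) : A ≅ (A.dualTwist χ).dualTwist χ :=
  Rep.mkIso (Representation.Equiv.mk (Module.evalEquiv k A.V) (fun g => by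
    apply LinearMap.ext
    intro a
    apply LinearMap.ext
    intro f
    simp only [LinearMap.coe_comp, Function.comp_apply, LinearEquiv.coe_coe]
    change f (A.ρ g a) = (χ g : k) • (Module.evalEquiv k A.V a) ((A.dualTwist χ).ρ g⁻¹ f)
    rw [Rep.dualTwist_ρ_apply]
    simp only [Module.evalEquiv_apply, Module.Dual.eval_apply, LinearMap.smul_apply,
      LinearMap.comp_apply, inv_inv, smul_eq_mul]
    rw [← mul_assoc, map_inv, Units.mul_inv, one_mul]))

theorem dualTwistDualTwistIso_hom_apply (A : Rep.{0} k G) [Module.IsReflexive k A.V]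
    (χ : G →* kˣ) (a : A.V) (f : Module.Dual k A.V) :
    ((dualTwistDualTwistIso A χ).hom.hom a : Module.Dual k (Module.Dual k A.V)) f = f a := rfl

end dualTwist

/-- **Smoothness of the S55 dual module.** -/
theorem isSmooth_dualTwist_cycloChar {p : ℕ} [Fact p.Prime] {S : Finset Nat.Primes}
    (hpS : pPrime p ∈ S) (M : Rep.{0} (ZMod p) Γ) [Module.Finite (ZMod p) M.V]
    (hM : IsSmooth (levelBasis S) M) :
    IsSmooth (levelBasis S) (M.dualTwist (cycloChar p)) :=
  isSmooth_dualTwist (levelBasis S) M hM (cycloChar p) (isOpen_ker_cycloChar hpS)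

end Fermat.Agent.CFT.Bridge
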