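/-
S55 / CFT (PT7, Prelude bridge) — helper6.
The Prelude's `sha₁ S M`, `sha₂ S M` in terms of smooth cohomology `smH` of `(Γ, 𝒰_S)` and the
local groups `(G_q, 𝒰_q)`, and the final reduction of S55 to a duality statement in `smH`-language.
-/
import Mathlib
import Fermat.Prelude.Def_GroupCohomology_ContinuousUnramified
import Fermat.Prelude.Def_ExtEndgame_ProductionDatum
import Fermat.Agent.CFT.Bridge.Smooth_helper6
import Fermat.Agent.CFT.Bridge.Arch_helper6
import Fermat.Agent.CFT.Sm.Functors_helper9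

set_option autoImplicit false

open CategoryTheory groupCohomology ExtCitation

namespace Fermat.Agent.CFT.Bridge

open Fermat.Agent.CFT.Sm Fermat.Agent.CFT.Arith

/-- `Ω = AlgebraicClosure ℚ`. -/
local notation "Ω" => AlgebraicClosure ℚ
/-- `Γ = Gal(Ω/ℚ)`. -/
local notation "Γ" => (AlgebraicClosure ℚ ≃ₐ[ℚ] AlgebraicClosure ℚ)

/-- a smooth representation as an object of `SmRep` -/
abbrev mkSm {k G : Type} [CommRing k] [Group G] (𝒰 : OpenBasis G) (M : Rep.{0} k G)
    (hM : IsSmooth 𝒰 M) : SmRep k 𝒰 := ⟨M, (smoothProp_iff 𝒰 M).2 hM⟩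

/-! ### Local bases and localisation maps in smooth cohomology -/

/-- The local open basis at `q`: the pull-back of all finite Galois levels of `ℚ̄/ℚ` (this is the
level system of the Prelude's `continuousH2 (primeLocalToGlobal q)`). -/
noncomputable abbrev locBasis (q : Nat.Primes) : OpenBasis (primeLocalGaloisGroup q) :=
  fullBasis.comap (primeLocalToGlobal q)

theorem locBasis_finer (S : Finset Nat.Primes) (q : Nat.Primes) :
    (locBasis q).Finer ((levelBasis S).comap (primeLocalToGlobal q)) :=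
  comap_finer (fullBasis_finer_levelBasis S) _

variable {k : Type} [CommRing k] (S : Finset Nat.Primes)

/-- restriction of a smooth representation of `(Γ, 𝒰_S)` to the local group at `q` -/
noncomputable def locSm (q : Nat.Primes) (A : SmRep k (levelBasis S)) : SmRep k (locBasis q) :=
  mkSm (locBasis q) (Rep.res (primeLocalToGlobal q) A.obj)
    (isSmooth_res (primeLocalToGlobal q) (locBasis_finer S q) A.property)

/-- the localisation map in smooth cohomology -/
noncomputable def locSmH (q : Nat.Primes) (A : SmRep k (levelBasis S)) (n : ℕ) :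
    smH (levelBasis S) A n →ₗ[k] smH (locBasis q) (locSm S q A) n :=
  (smHMap (primeLocalToGlobal q) (locBasis_finer S q)
    (𝟙 (Rep.res (primeLocalToGlobal q) A.obj)) n).hom

/-- The Tate–Shafarevich groups in smooth cohomology: classes which are locally trivial at all
`q ∈ S`. -/
noncomputable def shaSm (A : SmRep k (levelBasis S)) (n : ℕ) :
    Submodule k (smH (levelBasis S) A n) :=
  ⨅ q : ↥S, LinearMap.ker (locSmH S q.1 A n)

theorem mem_shaSm_iff (A : SmRep k (levelBasis S)) (n : ℕ) (x : smH (levelBasis S) A n) :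
    x ∈ shaSm S A n ↔ ∀ q : ↥S, locSmH S q.1 A n x = 0 := by
  simp [shaSm, Submodule.mem_iInf]

/-! ### `sha₁` -/

section Sha1

variable {K : Type} [Field K] (M : Rep.{0} K Γ) (hM : IsSmooth (levelBasis S) M)

theorem mem_continuousH1S_iff' (x : H1 M) :
    x ∈ continuousH1S S M ↔ ∃ c : cocycles₁ M, IsLC₁ (levelBasis S) (c : Γ → M.V) ∧
      (H1π M).hom c = x := by
  rw [mem_continuousH1S_iff]
  constructor
  · rintro ⟨c, hc, h⟩
    exact ⟨c, (isLevelConstantS₁_iff S _).1 hc, h⟩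
  · rintro ⟨c, hc, h⟩
    exact ⟨c, (isLevelConstantS₁_iff S _).2 hc, h⟩

/-- smooth `H¹` of `(Γ, 𝒰_S)` is the Prelude's `continuousH1S`. -/
noncomputable def h1EquivS : smH (levelBasis S) (mkSm (levelBasis S) M hM) 1 ≃ₗ[K] continuousH1S S M :=
  h1Equiv (𝒰 := levelBasis S) (mkSm (levelBasis S) M hM) (continuousH1S S M) (mem_continuousH1S_iff' S M)

theorem locTotal_eq_zero_iff (x : H1 M) :
    locTotal (extArithLoc S) M x = 0 ↔ ∀ v, (locRes (extArithLoc S) M v).hom x = 0 := by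
  constructor
  · intro h v
    have := congrFun h v
    exact this
  · intro h
    funext v
    exact h v

theorem locRes_inl_eq_zero (h2 : IsUnit (2 : K)) (x : H1 M) (u : Unit) :
    (locRes (extArithLoc S) M (Sum.inl u)).hom x = 0 := by
  have h := H1_archimedean_eq_zero h2 (Rep.res archimedeanLoc M)
  exact h _

theorem locRes_inr_eq (x : H1 M) (q : ↥S) :
    (locRes (extArithLoc S) M (Sum.inr q)).hom x = (groupCohomology.map (primeLocalToGlobal q.1)
      (𝟙 (Rep.res (primeLocalToGlobal q.1) M)) 1).hom x := rfl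

theorem smHToH_locSmH (q : Nat.Primes) (n : ℕ) (y : smH (levelBasis S) (mkSm (levelBasis S) M hM) n) :
    smHToH (𝒰 := locBasis q) (locSm S q (mkSm (levelBasis S) M hM)) n (locSmH S q (mkSm (levelBasis S) M hM) n y) =
      (groupCohomology.map (primeLocalToGlobal q)
        (𝟙 (Rep.res (primeLocalToGlobal q) M)) n).hom
        (smHToH (𝒰 := levelBasis S) (mkSm (levelBasis S) M hM) n y) :=
  smHToH_natural (𝒰 := levelBasis S) (𝒰' := locBasis q) (mkSm (levelBasis S) M hM)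
    (primeLocalToGlobal q) (locBasis_finer S q) (locSm S q (mkSm (levelBasis S) M hM))
    (𝟙 (Rep.res (primeLocalToGlobal q) M)) n y

theorem smHToH_mem_sha₁_iff (h2 : (2 : K) ≠ 0) (y : smH (levelBasis S) (mkSm (levelBasis S) M hM) 1) :
    smHToH (𝒰 := levelBasis S) (mkSm (levelBasis S) M hM) 1 y ∈ sha₁ S M ↔ y ∈ shaSm S (mkSm (levelBasis S) M hM) 1 := by
  have hmem : smHToH (𝒰 := levelBasis S) (mkSm (levelBasis S) M hM) 1 y ∈ continuousH1S S M :=
    (mem_continuousH1S_iff' S M _).2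
      ((mem_range_smHToH_one_iff (𝒰 := levelBasis S) (mkSm (levelBasis S) M hM) _).1 ⟨y, rfl⟩)
  rw [sha₁, Submodule.mem_inf, mem_shaSm_iff, LinearMap.mem_ker, locTotal_eq_zero_iff]
  constructor
  · rintro ⟨-, h⟩ q
    have h1 := h (Sum.inr q)
    rw [locRes_inr_eq, ← smHToH_locSmH S M hM q.1 1 y] at h1
    exact smHToH_one_injective _ (h1.trans (map_zero _).symm)
  · intro h
    refine ⟨hmem, ?_⟩
    intro v
    rcases v with u | q
    · exact locRes_inl_eq_zero S M (isUnit_iff_ne_zero.mpr h2) _ u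
    · rw [locRes_inr_eq, ← smHToH_locSmH S M hM q.1 1 y, h q]
      exact map_zero _

/-- **`sha₁` in smooth cohomology.** -/
noncomputable def sha₁Equiv (h2 : (2 : K) ≠ 0) : shaSm S (mkSm (levelBasis S) M hM) 1 ≃ₗ[K] sha₁ S M :=
  LinearEquiv.ofBijective
    (LinearMap.codRestrict (sha₁ S M)
      ((smHToH (𝒰 := levelBasis S) (mkSm (levelBasis S) M hM) 1) ∘ₗ (shaSm S (mkSm (levelBasis S) M hM) 1).subtype)
      (fun y => (smHToH_mem_sha₁_iff S M hM h2 y.1).2 y.2))
    ⟨fun y y' h => Subtype.ext (smHToH_one_injective _ (congrArg Subtype.val h)), fun x => by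
      have hx : x.1 ∈ continuousH1S S M := x.2.1
      obtain ⟨y, hy⟩ := (mem_range_smHToH_one_iff (𝒰 := levelBasis S) (mkSm (levelBasis S) M hM) x.1).2
        ((mem_continuousH1S_iff' S M _).1 hx)
      have hy' : y ∈ shaSm S (mkSm (levelBasis S) M hM) 1 := by
        rw [← smHToH_mem_sha₁_iff S M hM h2, hy]
        exact x.2
      exact ⟨⟨y, hy'⟩, Subtype.ext hy⟩⟩

theorem sha₁Equiv_apply_coe (h2 : (2 : K) ≠ 0) (y : shaSm S (mkSm (levelBasis S) M hM) 1) :
    (sha₁Equiv S M hM h2 y : H1 M) = smHToH (𝒰 := levelBasis S) (mkSm (levelBasis S) M hM) 1 y.1 := rfl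

end Sha1

/-! ### `sha₂` -/

section Sha2

variable (M : Rep.{0} k Γ) (hM : IsSmooth (levelBasis S) M)

theorem mem_levelCocyclesS₂_iff' (f : Γ × Γ → M.V) :
    f ∈ levelCocyclesS₂ S M ↔ f ∈ cocycles₂ M ∧ IsLC₂ (levelBasis S) f := by
  rw [mem_levelCocyclesS₂_iff, isLevelConstantS₂_iff]

theorem mem_levelCoboundariesS₂_iff' (f : Γ × Γ → M.V) :
    f ∈ levelCoboundariesS₂ S M ↔ ∃ x : Γ → M.V, IsLC₁ (levelBasis S) x ∧ (d₁₂ M).hom x = f := by
  rw [mem_levelCoboundariesS₂_iff]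
  constructor
  · rintro ⟨x, hx, h⟩
    exact ⟨x, (isLevelConstantS₁_iff S x).1 hx, h⟩
  · rintro ⟨x, hx, h⟩
    exact ⟨x, (isLevelConstantS₁_iff S x).2 hx, h⟩

/-- the Prelude's `continuousH2S` is smooth `H²` of `(Γ, 𝒰_S)`. -/
noncomputable def h2EquivS : continuousH2S S M ≃ₗ[k] smH (levelBasis S) (mkSm (levelBasis S) M hM) 2 :=
  h2Equiv (𝒰 := levelBasis S) (mkSm (levelBasis S) M hM) (levelCocyclesS₂ S M) (levelCoboundariesS₂ S M)
    (mem_levelCocyclesS₂_iff' S M) (mem_levelCoboundariesS₂_iff' S M)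

theorem h2EquivS_mk (f : ↥(levelCocyclesS₂ S M)) :
    h2EquivS S M hM (Submodule.Quotient.mk f) =
      h2Map (𝒰 := levelBasis S) (mkSm (levelBasis S) M hM) (levelCocyclesS₂ S M) (mem_levelCocyclesS₂_iff' S M) f :=
  rfl

end Sha2

section Loc2

variable {G : Type} [Group G] (r : G →* Γ) (N : Rep.{0} k G)
  (hN : IsSmooth (fullBasis.comap r) N)

theorem mem_levelCocycles₂_iff' (f : G × G → N.V) :
    f ∈ levelCocycles₂ r N ↔ f ∈ cocycles₂ N ∧ IsLC₂ (fullBasis.comap r) f := by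
  rw [mem_levelCocycles₂_iff, isLevelConstant₂_iff]

theorem mem_levelCoboundaries₂_iff' (f : G × G → N.V) :
    f ∈ levelCoboundaries₂ r N ↔
      ∃ x : G → N.V, IsLC₁ (fullBasis.comap r) x ∧ (d₁₂ N).hom x = f := by
  rw [mem_levelCoboundaries₂_iff]
  constructor
  · rintro ⟨x, hx, h⟩
    exact ⟨x, (isLevelConstant₁_iff r x).1 hx, h⟩
  · rintro ⟨x, hx, h⟩
    exact ⟨x, (isLevelConstant₁_iff r x).2 hx, h⟩

/-- the Prelude's `continuousH2 r N` is smooth `H²` for the pulled-back basis of all levels. -/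
noncomputable def h2EquivLoc : continuousH2 r N ≃ₗ[k] smH (fullBasis.comap r) (mkSm (fullBasis.comap r) N hN) 2 :=
  h2Equiv (𝒰 := fullBasis.comap r) (mkSm (fullBasis.comap r) N hN) (levelCocycles₂ r N) (levelCoboundaries₂ r N)
    (mem_levelCocycles₂_iff' r N) (mem_levelCoboundaries₂_iff' r N)

theorem h2EquivLoc_mk (f : ↥(levelCocycles₂ r N)) :
    h2EquivLoc r N hN (Submodule.Quotient.mk f) =
      h2Map (𝒰 := fullBasis.comap r) (mkSm (fullBasis.comap r) N hN) (levelCocycles₂ r N)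
        (mem_levelCocycles₂_iff' r N) f :=
  rfl

end Loc2

section Sha2'

variable (M : Rep.{0} k Γ) (hM : IsSmooth (levelBasis S) M)

/-- localisation in the Prelude's continuous `H²` is localisation in smooth `H²`. -/
theorem h2EquivLoc_locRes₂S (q : Nat.Primes) (x : continuousH2S S M) :
    h2EquivLoc (primeLocalToGlobal q) (Rep.res (primeLocalToGlobal q) M)
        (locSm S q (mkSm (levelBasis S) M hM)).property (locRes₂S S M (primeLocalToGlobal q) x) =
      locSmH S q (mkSm (levelBasis S) M hM) 2 (h2EquivS S M hM x) := by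
  obtain ⟨f, rfl⟩ := Submodule.Quotient.mk_surjective _ x
  exact (smHMap_h2Map (𝒰 := levelBasis S) (𝒰' := locBasis q) (mkSm (levelBasis S) M hM)
    (levelCocyclesS₂ S M)
    (mem_levelCocyclesS₂_iff' S M) (primeLocalToGlobal q) (locBasis_finer S q)
    (locSm S q (mkSm (levelBasis S) M hM)) (𝟙 (Rep.res (primeLocalToGlobal q) M))
    (levelCocycles₂ (primeLocalToGlobal q) (Rep.res (primeLocalToGlobal q) M))
    (mem_levelCocycles₂_iff' (primeLocalToGlobal q) (Rep.res (primeLocalToGlobal q) M)) f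
    (levelCocycles₂Map (rH := MonoidHom.id _) (rG := primeLocalToGlobal q)
        (primeLocalToGlobal q) (fun _ => rfl)
        (LinearMap.id : M →ₗ[k] Rep.res (primeLocalToGlobal q) M) (fun _ _ => rfl)
        (levelCocyclesS₂ToLevelCocycles₂ S M f)) (fun a b => rfl)).symm

theorem locTotal₂S_eq_zero_iff (x : continuousH2S S M) :
    locTotal₂S S M x = 0 ↔ ∀ v, locRes₂S S M (extArithLoc S v) x = 0 := by
  constructor
  · intro h v
    have := congrFun h v
    exact this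
  · intro h
    funext v
    exact h v

theorem mem_sha₂_iff (h2 : IsUnit (2 : k)) (x : continuousH2S S M) :
    x ∈ sha₂ S M ↔ h2EquivS S M hM x ∈ shaSm S (mkSm (levelBasis S) M hM) 2 := by
  rw [sha₂, LinearMap.mem_ker, locTotal₂S_eq_zero_iff, mem_shaSm_iff]
  constructor
  · intro h q
    have h1 := h (Sum.inr q)
    change locRes₂S S M (primeLocalToGlobal q.1) x = 0 at h1
    rw [← h2EquivLoc_locRes₂S S M hM q.1 x, h1]
    exact map_zero _
  · intro h v
    rcases v with u | q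
    · exact continuousH2_archimedean_eq_zero h2 (Rep.res archimedeanLoc M) _
    · change locRes₂S S M (primeLocalToGlobal q.1) x = 0
      have h1 := h q
      rw [← h2EquivLoc_locRes₂S S M hM q.1 x] at h1
      exact (LinearEquiv.map_eq_zero_iff _).1 h1

theorem map_h2EquivS_sha₂ (h2 : IsUnit (2 : k)) :
    (sha₂ S M).map ((h2EquivS S M hM : continuousH2S S M ≃ₗ[k] _) :
      continuousH2S S M →ₗ[k] smH (levelBasis S) (mkSm (levelBasis S) M hM) 2) =
      shaSm S (mkSm (levelBasis S) M hM) 2 := by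
  ext y
  rw [Submodule.mem_map]
  constructor
  · rintro ⟨x, hx, rfl⟩
    exact (mem_sha₂_iff S M hM h2 x).1 hx
  · intro hy
    obtain ⟨x, rfl⟩ := (h2EquivS S M hM).surjective y
    exact ⟨x, (mem_sha₂_iff S M hM h2 x).2 hy, rfl⟩

/-- **`sha₂` in smooth cohomology.** -/
noncomputable def sha₂Equiv (h2 : IsUnit (2 : k)) :
    sha₂ S M ≃ₗ[k] shaSm S (mkSm (levelBasis S) M hM) 2 :=
  (h2EquivS S M hM).ofSubmodules (sha₂ S M) (shaSm S (mkSm (levelBasis S) M hM) 2)
    (map_h2EquivS_sha₂ S M hM h2)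

theorem sha₂Equiv_apply_coe (h2 : IsUnit (2 : k)) (x : sha₂ S M) :
    (sha₂Equiv S M hM h2 x : smH (levelBasis S) (mkSm (levelBasis S) M hM) 2) =
      h2EquivS S M hM x.1 := rfl

end Sha2'

/-! ### The final reduction of S55 -/

section Final

/-- an isomorphism with the dual gives a pairing which is non-degenerate on both sides -/
theorem exists_pairing_of_equiv_dual {K : Type*} [Field K] {X Y : Type*} [AddCommGroup X]
    [Module K X] [AddCommGroup Y] [Module K Y] (e : X ≃ₗ[K] Module.Dual K Y) :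
    ∃ B : X →ₗ[K] Y →ₗ[K] K,
      (∀ x, (∀ y, B x y = 0) → x = 0) ∧ (∀ y, (∀ x, B x y = 0) → y = 0) := by
  refine ⟨e.toLinearMap, fun x hx => ?_, fun y hy => ?_⟩
  · have h1 : e x = 0 := LinearMap.ext hx
    exact (LinearEquiv.map_eq_zero_iff e).1 h1
  · rw [← Module.forall_dual_apply_eq_zero_iff K y]
    intro φ
    have := hy (e.symm φ)
    simpa using this

/-- the same from an additive isomorphism with the group of additive characters -/
theorem exists_pairing_of_addEquiv {p : ℕ} [Fact p.Prime] {X Y : Type*} [AddCommGroup X]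
    [Module (ZMod p) X] [AddCommGroup Y] [Module (ZMod p) Y] (e : X ≃+ (Y →+ ZMod p)) :
    ∃ B : X →ₗ[ZMod p] Y →ₗ[ZMod p] ZMod p,
      (∀ x, (∀ y, B x y = 0) → x = 0) ∧ (∀ y, (∀ x, B x y = 0) → y = 0) := by
  let e' : X ≃+ (Y →ₗ[ZMod p] ZMod p) := e.trans (AddMonoidHom.toZModLinearMapEquiv p)
  exact exists_pairing_of_equiv_dual
    ({ e' with map_smul' := fun c x => ZMod.map_smul e'.toAddMonoidHom c x } :
      X ≃ₗ[ZMod p] Module.Dual (ZMod p) Y)

/-- transport of a two-sided non-degenerate pairing along linear equivalences -/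
theorem exists_pairing_of_equivs {K : Type*} [Field K] {X X' Y Y' : Type*} [AddCommGroup X]
    [Module K X] [AddCommGroup Y] [Module K Y] [AddCommGroup X'] [Module K X'] [AddCommGroup Y']
    [Module K Y'] (eX : X ≃ₗ[K] X') (eY : Y ≃ₗ[K] Y')
    (h : ∃ B : X' →ₗ[K] Y' →ₗ[K] K,
      (∀ x, (∀ y, B x y = 0) → x = 0) ∧ (∀ y, (∀ x, B x y = 0) → y = 0)) :
    ∃ B : X →ₗ[K] Y →ₗ[K] K,
      (∀ x, (∀ y, B x y = 0) → x = 0) ∧ (∀ y, (∀ x, B x y = 0) → y = 0) := by
  obtain ⟨B, hB1, hB2⟩ := h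
  refine ⟨B.compl₁₂ eX.toLinearMap eY.toLinearMap, fun x hx => ?_, fun y hy => ?_⟩
  · have h1 : eX x = 0 := hB1 (eX x) (fun y' => by
      have := hx (eY.symm y')
      simpa using this)
    exact (LinearEquiv.map_eq_zero_iff eX).1 h1
  · have h1 : eY y = 0 := hB2 (eY y) (fun x' => by
      have := hy (eX.symm x')
      simpa using this)
    exact (LinearEquiv.map_eq_zero_iff eY).1 h1

theorem exists_pairing_flip {K : Type*} [Field K] {X Y : Type*} [AddCommGroup X]
    [Module K X] [AddCommGroup Y] [Module K Y]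
    (h : ∃ B : X →ₗ[K] Y →ₗ[K] K,
      (∀ x, (∀ y, B x y = 0) → x = 0) ∧ (∀ y, (∀ x, B x y = 0) → y = 0)) :
    ∃ B : Y →ₗ[K] X →ₗ[K] K,
      (∀ y, (∀ x, B y x = 0) → y = 0) ∧ (∀ x, (∀ y, B y x = 0) → x = 0) := by
  obtain ⟨B, hB1, hB2⟩ := h
  exact ⟨B.flip, fun y hy => hB2 y hy, fun x hx => hB1 x hx⟩

theorem two_ne_zero_zmod {p : ℕ} [Fact p.Prime] (hp2 : p ≠ 2) : (2 : ZMod p) ≠ 0 := by
  intro h
  have h1 : ((2 : ℕ) : ZMod p) = 0 := by exact_mod_cast h
  rw [ZMod.natCast_eq_zero_iff] at h1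
  exact hp2 ((Nat.prime_dvd_prime_iff_eq Fact.out Nat.prime_two).mp h1)

variable {p : ℕ} [Fact p.Prime] (hp2 : p ≠ 2) (S : Finset Nat.Primes) (hpS : pPrime p ∈ S)
  (M : Rep.{0} (ZMod p) Γ) [FiniteDimensional (ZMod p) M.V]
  (hsm : ∀ m : M, ∃ F : IntermediateField ℚ Ω, FiniteDimensional ℚ F ∧
      ∀ s ∈ F.fixingSubgroup, M.ρ s m = m)
  (hMur : ∀ q : Nat.Primes, q ∉ S → ∀ A : ValuationSubring Ω,
      A.LiesOverPrime (q : ℕ) → ∀ g ∈ A.inertiaSubgroupIn ℚ, M.ρ g = 1)

include hp2 hpS hsm hMur in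
/-- **S55 from a duality in smooth cohomology, linear form.** -/
theorem S55_of_pairing_shaSm
    (h : ∀ (hM : IsSmooth (levelBasis S) M)
      (hM' : IsSmooth (levelBasis S) (M.dualTwist (cycloChar p))),
      ∃ B : shaSm S (mkSm (levelBasis S) (M.dualTwist (cycloChar p)) hM') 1 →ₗ[ZMod p]
        shaSm S (mkSm (levelBasis S) M hM) 2 →ₗ[ZMod p] ZMod p,
        (∀ y, (∀ x, B y x = 0) → y = 0) ∧ (∀ x, (∀ y, B y x = 0) → x = 0)) :
    ∃ B : sha₁ S (M.dualTwist (cycloChar p)) →ₗ[ZMod p] sha₂ S M →ₗ[ZMod p] ZMod p,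
      (∀ y, (∀ x, B y x = 0) → y = 0) ∧ (∀ x, (∀ y, B y x = 0) → x = 0) := by
  have hM : IsSmooth (levelBasis S) M := isSmooth_of_unramified S M hsm hMur
  have hM' : IsSmooth (levelBasis S) (M.dualTwist (cycloChar p)) :=
    isSmooth_dualTwist_cycloChar hpS M hM
  have h2 : (2 : ZMod p) ≠ 0 := two_ne_zero_zmod hp2
  exact exists_pairing_of_equivs
    (sha₁Equiv S (M.dualTwist (cycloChar p)) hM' h2).symm
    (sha₂Equiv S M hM (isUnit_iff_ne_zero.mpr h2)) (h hM hM')

include hp2 hpS hsm hMur in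
/-- **S55 from `Ш¹(M') ≃+ Hom(Ш²(M), 𝔽_p)` in smooth cohomology.** -/
theorem S55_of_addEquiv_sha₁
    (h : ∀ (hM : IsSmooth (levelBasis S) M)
      (hM' : IsSmooth (levelBasis S) (M.dualTwist (cycloChar p))),
      Nonempty (shaSm S (mkSm (levelBasis S) (M.dualTwist (cycloChar p)) hM') 1 ≃+
        (shaSm S (mkSm (levelBasis S) M hM) 2 →+ ZMod p))) :
    ∃ B : sha₁ S (M.dualTwist (cycloChar p)) →ₗ[ZMod p] sha₂ S M →ₗ[ZMod p] ZMod p,
      (∀ y, (∀ x, B y x = 0) → y = 0) ∧ (∀ x, (∀ y, B y x = 0) → x = 0) :=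
  S55_of_pairing_shaSm hp2 S hpS M hsm hMur (fun hM hM' => by
    obtain ⟨e⟩ := h hM hM'
    exact exists_pairing_of_addEquiv e)

include hp2 hpS hsm hMur in
/-- **S55 from `Ш²(M) ≃+ Hom(Ш¹(M'), 𝔽_p)` in smooth cohomology.** -/
theorem S55_of_addEquiv_sha₂
    (h : ∀ (hM : IsSmooth (levelBasis S) M)
      (hM' : IsSmooth (levelBasis S) (M.dualTwist (cycloChar p))),
      Nonempty (shaSm S (mkSm (levelBasis S) M hM) 2 ≃+
        (shaSm S (mkSm (levelBasis S) (M.dualTwist (cycloChar p)) hM') 1 →+ ZMod p))) :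
    ∃ B : sha₁ S (M.dualTwist (cycloChar p)) →ₗ[ZMod p] sha₂ S M →ₗ[ZMod p] ZMod p,
      (∀ y, (∀ x, B y x = 0) → y = 0) ∧ (∀ x, (∀ y, B y x = 0) → x = 0) :=
  S55_of_pairing_shaSm hp2 S hpS M hsm hMur (fun hM hM' => by
    obtain ⟨e⟩ := h hM hM'
    exact exists_pairing_flip (exists_pairing_of_addEquiv e))

end Final

end Fermat.Agent.CFT.Bridge
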