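/-
S55 / CFT (PT7, Prelude bridge) — helper6.
Change of scalars `k → ℤ` for smooth cohomology: a smooth `k`-linear representation `A` has an
underlying smooth `ℤ`-linear representation `intSm A`, with the same level-constant cocycles and
coboundaries, hence `smH 𝒰 A (n+1) ≃+ smH 𝒰 (intSm A) (n+1)`, compatibly with change of group;
consequence for the Tate–Shafarevich groups `shaSm`.
-/
import Mathlib
import Fermat.Agent.CFT.Bridge.Sha_helper6

set_option autoImplicit false

open CategoryTheory groupCohomology ExtCitation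

namespace Fermat.Agent.CFT.Bridge

open Fermat.Agent.CFT.Sm Fermat.Agent.CFT.Arith

/-! ### A generic lemma on quotients -/

section Generic

variable {X X' H H' : Type*} [AddCommGroup X] [AddCommGroup X'] [AddCommGroup H] [AddCommGroup H']

/-- the map induced on the targets of two surjections with corresponding kernels -/
noncomputable def homOfSurjective (f : X →+ H) (f' : X' →+ H')
    (hf : Function.Surjective f) (e : X →+ X')
    (h : ∀ x, f x = 0 → f' (e x) = 0) : H →+ H' :=
  (QuotientAddGroup.lift f.ker (f'.comp e) (fun x hx => by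
      rw [AddMonoidHom.mem_ker] at hx
      exact h x hx)).comp
    (QuotientAddGroup.quotientKerEquivOfSurjective f hf).symm.toAddMonoidHom

theorem homOfSurjective_apply (f : X →+ H) (f' : X' →+ H')
    (hf : Function.Surjective f) (e : X →+ X')
    (h : ∀ x, f x = 0 → f' (e x) = 0) (x : X) :
    homOfSurjective f f' hf e h (f x) = f' (e x) := by
  have h1 : (QuotientAddGroup.quotientKerEquivOfSurjective f hf).symm (f x) =
      (x : X ⧸ f.ker) := by
    rw [AddEquiv.symm_apply_eq]
    rfl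
  unfold homOfSurjective
  rw [AddMonoidHom.comp_apply, AddEquiv.coe_toAddMonoidHom, h1]
  rfl

/-- Two surjections with corresponding kernels have isomorphic targets. -/
noncomputable def addEquivOfSurjective (f : X →+ H) (f' : X' →+ H')
    (hf : Function.Surjective f) (hf' : Function.Surjective f') (e : X ≃+ X')
    (h : ∀ x, f x = 0 ↔ f' (e x) = 0) : H ≃+ H' :=
  have h' : ∀ x, f x = 0 → f' (e.toAddMonoidHom x) = 0 := fun x hx => by
    rw [AddEquiv.coe_toAddMonoidHom]
    exact (h x).1 hx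
  AddEquiv.ofBijective (homOfSurjective f f' hf e.toAddMonoidHom h')
    (by
      constructor
      · rw [injective_iff_map_eq_zero]
        intro y hy
        obtain ⟨x, rfl⟩ := hf y
        have h2 := homOfSurjective_apply f f' hf e.toAddMonoidHom h' x
        rw [hy, AddEquiv.coe_toAddMonoidHom] at h2
        exact (h x).2 h2.symm
      · intro y'
        obtain ⟨x', rfl⟩ := hf' y'
        refine ⟨f (e.symm x'), ?_⟩
        have h2 := homOfSurjective_apply f f' hf e.toAddMonoidHom h' (e.symm x')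
        rw [AddEquiv.coe_toAddMonoidHom, AddEquiv.apply_symm_apply] at h2
        exact h2)

theorem addEquivOfSurjective_apply (f : X →+ H) (f' : X' →+ H')
    (hf : Function.Surjective f) (hf' : Function.Surjective f') (e : X ≃+ X')
    (h : ∀ x, f x = 0 ↔ f' (e x) = 0) (x : X) :
    addEquivOfSurjective f f' hf hf' e h (f x) = f' (e x) := by
  have h' : ∀ x, f x = 0 → f' (e.toAddMonoidHom x) = 0 := fun x hx => by
    rw [AddEquiv.coe_toAddMonoidHom]
    exact (h x).1 hx
  have h2 := homOfSurjective_apply f f' hf e.toAddMonoidHom h' x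
  rw [AddEquiv.coe_toAddMonoidHom] at h2
  exact h2

end Generic

/-! ### The underlying `ℤ`-representation -/

section IntRep

variable {k G : Type} [CommRing k] [Group G]

/-- the underlying `ℤ`-linear representation -/
def intRepresentation (A : Rep.{0} k G) : Representation ℤ G A.V where
  toFun g := (A.ρ g).toAddMonoidHom.toIntLinearMap
  map_one' := by
    ext a
    simp
  map_mul' g h := by
    ext a
    simp

/-- the underlying `ℤ`-linear representation, as an object of `Rep ℤ G` -/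
noncomputable def intRep (A : Rep.{0} k G) : Rep.{0} ℤ G := Rep.of (intRepresentation A)

theorem intRep_ρ_apply (A : Rep.{0} k G) (g : G) (a : A.V) :
    ((intRep A).ρ g : A.V →ₗ[ℤ] A.V) a = A.ρ g a := rfl

theorem isSmooth_intRep {𝒰 : OpenBasis G} {A : Rep.{0} k G} (hA : IsSmooth 𝒰 A) :
    IsSmooth 𝒰 (intRep A) := fun a => hA a

/-- the underlying smooth `ℤ`-linear representation -/
noncomputable def intSm {𝒰 : OpenBasis G} (A : SmRep k 𝒰) : SmRep ℤ 𝒰 :=
  mkSm 𝒰 (intRep A.obj) (isSmooth_intRep A.property)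

theorem neg_one_pow_smul_eq {V : Type*} [AddCommGroup V] [Module k V] (m : ℕ) (x : V) :
    ((-1 : ℤ) ^ m) • x = ((-1 : k) ^ m) • x := by
  rw [← Int.cast_smul_eq_zsmul k]
  push_cast
  rfl

/-- the inhomogeneous differentials of `A` and `intRep A` agree -/
theorem d_intRep (A : Rep.{0} k G) (n : ℕ) (f : (Fin n → G) → A.V) :
    (inhomogeneousCochains.d (intRep A) n).hom f = (inhomogeneousCochains.d A n).hom f := by
  funext g
  have h1 : (inhomogeneousCochains.d (intRep A) n).hom f g =
      A.ρ (g 0) (f fun i => g i.succ) + Finset.univ.sum fun j : Fin (n + 1) =>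
        (-1 : ℤ) ^ ((j : ℕ) + 1) • f (Fin.contractNth j (· * ·) g) := rfl
  rw [h1, inhomogeneousCochains.d_hom_apply]
  congr 1
  refine Finset.sum_congr rfl (fun j _ => ?_)
  exact neg_one_pow_smul_eq (k := k) _ _

/-- the underlying `ℤ`-linear morphism -/
noncomputable def intHom {A B : Rep.{0} k G} (φ : A ⟶ B) : intRep A ⟶ intRep B :=
  Rep.ofHom ⟨φ.hom.toLinearMap.toAddMonoidHom.toIntLinearMap, fun g => by
    apply LinearMap.ext
    intro a
    exact Rep.hom_comm_apply φ g a⟩

theorem intHom_hom_apply {A B : Rep.{0} k G} (φ : A ⟶ B) (a : A.V) :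
    (intHom φ).hom a = φ.hom a := rfl

theorem intHom_id (A : Rep.{0} k G) : intHom (𝟙 A) = 𝟙 (intRep A) := by
  apply Rep.hom_ext
  ext a
  rfl

end IntRep

/-! ### Smooth cohomology -/

section SmH

variable {k G : Type} [CommRing k] [Group G] {𝒰 : OpenBasis G} (A : SmRep k 𝒰)

/-- level-constant cocycles of `A` and of `intSm A` are the same functions -/
noncomputable def lcCocyclesInt (n : ℕ) : lcCocycles 𝒰 A n ≃+ lcCocycles 𝒰 (intSm A) n where
  toFun f := ⟨⟨f.1.1, f.1.2⟩, (mem_lcCocycles_iff _).2 (by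
    have h := (mem_lcCocycles_iff _).1 f.2
    exact (d_intRep A.obj n f.1.1).trans h)⟩
  invFun f := ⟨⟨f.1.1, f.1.2⟩, (mem_lcCocycles_iff _).2 (by
    have h := (mem_lcCocycles_iff _).1 f.2
    exact (d_intRep A.obj n f.1.1).symm.trans h)⟩
  left_inv _ := rfl
  right_inv _ := rfl
  map_add' _ _ := rfl

theorem lcCocyclesInt_apply_coe (n : ℕ) (f : lcCocycles 𝒰 A n) :
    (lcCocyclesInt A n f).1.1 = f.1.1 := rfl

theorem smHmk_eq_zero_iff_int (n : ℕ) (f : lcCocycles 𝒰 A (n + 1)) :
    smHmk A (n + 1) f = 0 ↔ smHmk (intSm A) (n + 1) (lcCocyclesInt A (n + 1) f) = 0 := by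
  rw [smHmk_succ_eq_zero_iff, smHmk_succ_eq_zero_iff]
  constructor
  · rintro ⟨y, hy⟩
    refine ⟨⟨y.1, y.2⟩, ?_⟩
    apply Subtype.ext
    have h1 : (inhomogeneousCochains.d A.obj n).hom y.1 = f.1.1 := congrArg Subtype.val hy
    exact (d_intRep A.obj n y.1).trans h1
  · rintro ⟨y, hy⟩
    refine ⟨⟨y.1, y.2⟩, ?_⟩
    apply Subtype.ext
    have h1 : (inhomogeneousCochains.d (intRep A.obj) n).hom y.1 = f.1.1 :=
      congrArg Subtype.val hy
    exact (d_intRep A.obj n y.1).symm.trans h1

/-- the class map as an additive map -/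
noncomputable def smHmkAdd (n : ℕ) : ↥(lcCocycles 𝒰 A n) →+ ↑(smH 𝒰 A n) :=
  (smHmk A n).toAddMonoidHom

theorem smHmkAdd_apply (n : ℕ) (f : lcCocycles 𝒰 A n) : smHmkAdd A n f = smHmk A n f := rfl

set_option synthInstance.maxHeartbeats 200000 in
/-- **Change of scalars for smooth cohomology** (positive degrees). -/
noncomputable def smHInt (n : ℕ) : ↑(smH 𝒰 A (n + 1)) ≃+ ↑(smH 𝒰 (intSm A) (n + 1)) :=
  addEquivOfSurjective (smHmkAdd A (n + 1)) (smHmkAdd (intSm A) (n + 1))
    (smHmk_surjective A (n + 1)) (smHmk_surjective (intSm A) (n + 1)) (lcCocyclesInt A (n + 1))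
    (smHmk_eq_zero_iff_int A n)

set_option synthInstance.maxHeartbeats 200000 in
theorem smHInt_smHmk (n : ℕ) (f : lcCocycles 𝒰 A (n + 1)) :
    smHInt A n (smHmk A (n + 1) f) = smHmk (intSm A) (n + 1) (lcCocyclesInt A (n + 1) f) := by
  exact addEquivOfSurjective_apply (X := ↥(lcCocycles 𝒰 A (n + 1)))
    (X' := ↥(lcCocycles 𝒰 (intSm A) (n + 1))) (H := ↑(smH 𝒰 A (n + 1)))
    (H' := ↑(smH 𝒰 (intSm A) (n + 1))) (smHmkAdd A (n + 1)) (smHmkAdd (intSm A) (n + 1))
    (smHmk_surjective A (n + 1)) (smHmk_surjective (intSm A) (n + 1)) (lcCocyclesInt A (n + 1))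
    (smHmk_eq_zero_iff_int A n) f

/-- naturality of the change of scalars with respect to change of group and coefficients -/
theorem smHInt_natural' {G' : Type} [Group G'] {𝒰' : OpenBasis G'} (ψ : G' →* G)
    (hψ : 𝒰'.Finer (𝒰.comap ψ)) (B : SmRep k 𝒰') (φ : Rep.res ψ A.obj ⟶ B.obj)
    (φ' : Rep.res ψ (intSm A).obj ⟶ (intSm B).obj) (hφ : ∀ a : A.obj.V, φ'.hom a = φ.hom a)
    (n : ℕ) (x : smH 𝒰 A (n + 1)) :
    smHInt B n ((smHMap ψ hψ φ (n + 1)).hom x) =
      (smHMap (A := intSm A) (B := intSm B) ψ hψ φ' (n + 1)).hom (smHInt A n x) := by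
  obtain ⟨f, rfl⟩ := exists_smHmk_eq x
  rw [smHMap_smHmk, smHInt_smHmk, smHInt_smHmk]
  have h1 : lcCocyclesInt B (n + 1) (lcCocyclesMap ψ hψ φ (n + 1) f) =
      lcCocyclesMap (A := intSm A) (B := intSm B) ψ hψ φ' (n + 1)
        (lcCocyclesInt A (n + 1) f) := by
    apply Subtype.ext
    apply Subtype.ext
    funext g
    exact (hφ _).symm
  rw [h1]
  exact (smHMap_smHmk (A := intSm A) (B := intSm B) ψ hψ φ' (n + 1)
    (lcCocyclesInt A (n + 1) f)).symm

theorem smHInt_natural {G' : Type} [Group G'] {𝒰' : OpenBasis G'} (ψ : G' →* G)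
    (hψ : 𝒰'.Finer (𝒰.comap ψ)) (B : SmRep k 𝒰') (φ : Rep.res ψ A.obj ⟶ B.obj) (n : ℕ)
    (x : smH 𝒰 A (n + 1)) :
    smHInt B n ((smHMap ψ hψ φ (n + 1)).hom x) =
      (smHMap (A := intSm A) (B := intSm B) ψ hψ (intHom φ) (n + 1)).hom (smHInt A n x) :=
  smHInt_natural' A ψ hψ B φ (intHom φ) (fun _ => rfl) n x

end SmH

/-! ### Tate–Shafarevich groups -/

section ShaInt

variable {k : Type} [CommRing k] (S : Finset Nat.Primes) (A : SmRep k (levelBasis S))

theorem locSmH_smHInt (q : Nat.Primes) (n : ℕ) (x : smH (levelBasis S) A (n + 1)) :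
    locSmH S q (intSm A) (n + 1) (smHInt A n x) =
      smHInt (locSm S q A) n (locSmH S q A (n + 1) x) :=
  (smHInt_natural' A (primeLocalToGlobal q) (locBasis_finer S q) (locSm S q A)
    (𝟙 (Rep.res (primeLocalToGlobal q) A.obj))
    (𝟙 (Rep.res (primeLocalToGlobal q) (intSm A).obj)) (fun _ => rfl) n x).symm

theorem smHInt_mem_shaSm_iff (n : ℕ) (x : smH (levelBasis S) A (n + 1)) :
    smHInt A n x ∈ shaSm S (intSm A) (n + 1) ↔ x ∈ shaSm S A (n + 1) := by
  rw [mem_shaSm_iff, mem_shaSm_iff]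
  refine forall_congr' (fun q => ?_)
  rw [locSmH_smHInt]
  exact (AddEquiv.map_eq_zero_iff _)

/-- **`shaSm` does not depend on the ring of scalars.** -/
noncomputable def shaSmInt (n : ℕ) : shaSm S A (n + 1) ≃+ shaSm S (intSm A) (n + 1) where
  toFun x := ⟨smHInt A n x.1, (smHInt_mem_shaSm_iff S A n x.1).2 x.2⟩
  invFun y := ⟨(smHInt A n).symm y.1, by
    rw [← smHInt_mem_shaSm_iff, AddEquiv.apply_symm_apply]
    exact y.2⟩
  left_inv x := Subtype.ext ((smHInt A n).symm_apply_apply x.1)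
  right_inv y := Subtype.ext ((smHInt A n).apply_symm_apply y.1)
  map_add' x y := Subtype.ext (map_add (smHInt A n) x.1 y.1)

theorem shaSmInt_apply_coe (n : ℕ) (x : shaSm S A (n + 1)) :
    (shaSmInt S A n x : smH (levelBasis S) (intSm A) (n + 1)) = smHInt A n x.1 := rfl

end ShaInt

end Fermat.Agent.CFT.Bridge
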