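/-
S55 / CFT (PT7, Prelude bridge) — helper6.
Glue: functoriality of `shaSm` in the coefficients, and the identification of the Pontryagin dual
`CharacterModule Y` of a `p`-torsion group with `Y →+ ZMod p`.
-/
import Mathlib
import Fermat.Agent.CFT.Bridge.Scalars_helper6
import Fermat.Agent.CFT.Sm.Compare_helper5_Delta

set_option autoImplicit false

open CategoryTheory groupCohomology ExtCitation

namespace Fermat.Agent.CFT.Bridge

open Fermat.Agent.CFT.Sm Fermat.Agent.CFT.Arith

/-! ### Functoriality of `shaSm` -/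

section Functoriality

variable {k : Type} [CommRing k] (S : Finset Nat.Primes)

theorem locSm_eq_resSm (q : Nat.Primes) (A : SmRep k (levelBasis S)) :
    locSm S q A = (resSm k (primeLocalToGlobal q) (locBasis_finer S q)).obj A := rfl

theorem locSmH_eq_smHRes (q : Nat.Primes) (A : SmRep k (levelBasis S)) (n : ℕ) :
    locSmH S q A n = (smHRes (primeLocalToGlobal q) (locBasis_finer S q) A n).hom := rfl

variable {S}

/-- the map induced on smooth cohomology by a morphism of coefficients -/
noncomputable def smHCoeff {A B : SmRep k (levelBasis S)} (f : A ⟶ B) (n : ℕ) :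
    smH (levelBasis S) A n →ₗ[k] smH (levelBasis S) B n :=
  ((smHFunctor k (levelBasis S) n).map f).hom

theorem smHCoeff_id (A : SmRep k (levelBasis S)) (n : ℕ) (x : smH (levelBasis S) A n) :
    smHCoeff (𝟙 A) n x = x := by
  unfold smHCoeff
  rw [CategoryTheory.Functor.map_id]
  rfl

theorem smHCoeff_comp {A B C : SmRep k (levelBasis S)} (f : A ⟶ B) (g : B ⟶ C) (n : ℕ)
    (x : smH (levelBasis S) A n) :
    smHCoeff (f ≫ g) n x = smHCoeff g n (smHCoeff f n x) := by
  unfold smHCoeff
  rw [CategoryTheory.Functor.map_comp]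
  rfl

/-- localisation is natural in the coefficients -/
theorem locSmH_smHCoeff {A B : SmRep k (levelBasis S)} (f : A ⟶ B) (q : Nat.Primes) (n : ℕ)
    (x : smH (levelBasis S) A n) :
    locSmH S q B n (smHCoeff f n x) =
      ((smHFunctor k (locBasis q) n).map
        ((resSm k (primeLocalToGlobal q) (locBasis_finer S q)).map f)).hom (locSmH S q A n x) := by
  have h := congrArg (fun t => t.hom x)
    (smHRes_naturality (primeLocalToGlobal q) (locBasis_finer S q) f n)
  exact h.symm

theorem smHCoeff_mem_shaSm {A B : SmRep k (levelBasis S)} (f : A ⟶ B) (n : ℕ)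
    {x : smH (levelBasis S) A n} (hx : x ∈ shaSm S A n) :
    smHCoeff f n x ∈ shaSm S B n := by
  rw [mem_shaSm_iff] at hx ⊢
  intro q
  rw [locSmH_smHCoeff, hx q]
  exact map_zero _

/-- the map induced on `shaSm` by a morphism of coefficients -/
noncomputable def shaSmMap {A B : SmRep k (levelBasis S)} (f : A ⟶ B) (n : ℕ) :
    shaSm S A n →ₗ[k] shaSm S B n :=
  ((smHCoeff f n).comp (shaSm S A n).subtype).codRestrict
    (shaSm S B n) (fun x => smHCoeff_mem_shaSm f n x.2)

theorem shaSmMap_apply_coe {A B : SmRep k (levelBasis S)} (f : A ⟶ B) (n : ℕ)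
    (x : shaSm S A n) :
    (shaSmMap f n x : smH (levelBasis S) B n) = smHCoeff f n x.1 := rfl

/-- isomorphic coefficients have isomorphic `shaSm` -/
noncomputable def shaSmCongr {A B : SmRep k (levelBasis S)} (e : A ≅ B) (n : ℕ) :
    shaSm S A n ≃ₗ[k] shaSm S B n :=
  LinearEquiv.ofLinearMap (shaSmMap e.hom n) (shaSmMap e.inv n)
    (by
      apply LinearMap.ext
      intro x
      apply Subtype.ext
      rw [LinearMap.comp_apply, shaSmMap_apply_coe, shaSmMap_apply_coe, ← smHCoeff_comp,
        e.inv_hom_id, smHCoeff_id]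
      rfl)
    (by
      apply LinearMap.ext
      intro x
      apply Subtype.ext
      rw [LinearMap.comp_apply, shaSmMap_apply_coe, shaSmMap_apply_coe, ← smHCoeff_comp,
        e.hom_inv_id, smHCoeff_id]
      rfl)

theorem shaSmCongr_apply_coe {A B : SmRep k (levelBasis S)} (e : A ≅ B) (n : ℕ)
    (x : shaSm S A n) :
    (shaSmCongr e n x : smH (levelBasis S) B n) = smHCoeff e.hom n x.1 := rfl

end Functoriality

/-! ### Characters of `p`-torsion groups -/

section Character

variable (p : ℕ) [Fact p.Prime]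

/-- `a ↦ a/p`, `ZMod p →+ ℚ/ℤ` -/
noncomputable def zmodToCircle : ZMod p →+ AddCircle (1 : ℚ) :=
  ZMod.lift p ⟨zmultiplesHom (AddCircle (1 : ℚ)) (((1 : ℚ) / p : ℚ) : AddCircle (1 : ℚ)), by
    have hp : (p : ℚ) ≠ 0 := Nat.cast_ne_zero.mpr (Fact.out : p.Prime).ne_zero
    rw [zmultiplesHom_apply, natCast_zsmul, ← AddCircle.coe_nsmul, nsmul_eq_mul,
      mul_one_div_cancel hp]
    exact AddCircle.coe_period 1⟩

theorem zmodToCircle_intCast (n : ℤ) :
    zmodToCircle p (n : ZMod p) = n • (((1 : ℚ) / p : ℚ) : AddCircle (1 : ℚ)) := by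
  unfold zmodToCircle
  rw [ZMod.lift_coe]
  rfl

theorem zmodToCircle_injective : Function.Injective (zmodToCircle p) := by
  have hp : (p : ℚ) ≠ 0 := Nat.cast_ne_zero.mpr (Fact.out : p.Prime).ne_zero
  have hp0 : 0 < p := (Fact.out : p.Prime).pos
  rw [injective_iff_map_eq_zero]
  intro a ha
  obtain ⟨n, rfl⟩ := ZMod.intCast_surjective a
  rw [zmodToCircle_intCast, ← AddCircle.coe_zsmul, AddCircle.coe_eq_zero_iff] at ha
  obtain ⟨m, hm⟩ := ha
  rw [ZMod.intCast_zmod_eq_zero_iff_dvd]
  refine ⟨m, ?_⟩
  have h1 : (n : ℚ) = (p : ℚ) * (m : ℚ) := by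
    have h2 : (m : ℚ) = (n : ℚ) * (1 / p) := by
      simpa [zsmul_eq_mul] using hm
    rw [h2]
    field_simp
  exact_mod_cast h1

theorem exists_zmodToCircle_eq {u : AddCircle (1 : ℚ)} (hu : p • u = 0) :
    ∃ a : ZMod p, zmodToCircle p a = u := by
  have hp : (p : ℚ) ≠ 0 := Nat.cast_ne_zero.mpr (Fact.out : p.Prime).ne_zero
  obtain ⟨x, rfl⟩ := QuotientAddGroup.mk_surjective u
  change p • ((x : ℚ) : AddCircle (1 : ℚ)) = 0 at hu
  rw [← AddCircle.coe_nsmul, AddCircle.coe_eq_zero_iff] at hu
  obtain ⟨m, hm⟩ := hu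
  refine ⟨(m : ZMod p), ?_⟩
  rw [zmodToCircle_intCast, ← AddCircle.coe_zsmul]
  congr 1
  have h2 : (m : ℚ) = (p : ℚ) * x := by
    simpa [zsmul_eq_mul, nsmul_eq_mul] using hm
  rw [zsmul_eq_mul, h2]
  field_simp

/-- For a `p`-torsion group the Pontryagin dual is `Hom(Y, ZMod p)`. -/
noncomputable def characterEquiv {Y : Type*} [AddCommGroup Y] (hY : ∀ y : Y, p • y = 0) :
    (Y →+ ZMod p) ≃+ CharacterModule Y :=
  AddEquiv.ofBijective
    ({ toFun := fun f => (zmodToCircle p).comp f
       map_zero' := by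
        ext y
        simp
       map_add' := fun f g => by
        ext y
        simp } : (Y →+ ZMod p) →+ (Y →+ AddCircle (1 : ℚ)))
    (by
      constructor
      · intro f g hfg
        ext y
        apply zmodToCircle_injective p
        exact congrArg (fun c : Y →+ AddCircle (1 : ℚ) => c y) hfg
      · intro c
        have hc : ∀ y, ∃ a : ZMod p, zmodToCircle p a = c y := fun y =>
          exists_zmodToCircle_eq p (by
            have : p • c y = c (p • y) := (map_nsmul c p y).symm
            rw [this, hY, map_zero])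
        choose f hf using hc
        refine ⟨AddMonoidHom.mk' f (fun y y' => ?_), ?_⟩
        · apply zmodToCircle_injective p
          rw [map_add, hf, hf, hf]
          exact map_add c y y'
        · ext y
          exact hf y)

theorem characterEquiv_apply {Y : Type*} [AddCommGroup Y] (hY : ∀ y : Y, p • y = 0)
    (f : Y →+ ZMod p) (y : Y) :
    (show Y →+ AddCircle (1 : ℚ) from characterEquiv p hY f) y = zmodToCircle p (f y) := rfl

end Character

end Fermat.Agent.CFT.Bridge
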