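/-
S55 / CFT (PT7, Prelude bridge) — helper6.
`μ_p ⊆ E_S` (for `p ∈ S`) as the image of `ZMod p`, with its Galois action through the cyclotomic
character; the isomorphism `M ≅ Hom_ℤ(M^∨(χ), E_S)` of smooth `ℤ[Γ]`-modules for a finite
`𝔽_p[Γ]`-module `M`.
-/
import Mathlib
import Fermat.Agent.CFT.Bridge.Glue_helper6
import Fermat.Agent.CFT.Arith.SmObjects_helper7
import Fermat.Agent.CFT.Sm.Compare_helper5_Hom

set_option autoImplicit false

open CategoryTheory groupCohomology ExtCitation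

namespace Fermat.Agent.CFT.Bridge

open Fermat.Agent.CFT.Sm Fermat.Agent.CFT.Arith

/-- `Ω = AlgebraicClosure ℚ`. -/
local notation "Ω" => AlgebraicClosure ℚ
/-- `Γ = Gal(Ω/ℚ)`. -/
local notation "Γ" => (AlgebraicClosure ℚ ≃ₐ[ℚ] AlgebraicClosure ℚ)

/-! ### `μ_p ⊆ E_S` -/

section Mu

variable {p : ℕ} [Fact p.Prime] {S : Finset Nat.Primes} (hpS : pPrime p ∈ S)

theorem zetaP_ne_zero (p : ℕ) [Fact p.Prime] : S14.zetaP p ≠ 0 :=
  (S14.zetaP_spec p).ne_zero (Fact.out : p.Prime).ne_zero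

/-- `ζ_p` as a unit of `Ω` -/
noncomputable def zetaUnit (p : ℕ) [Fact p.Prime] : Ωˣ := Units.mk0 (S14.zetaP p) (zetaP_ne_zero p)

theorem zetaUnit_pow (p : ℕ) [Fact p.Prime] : zetaUnit p ^ p = 1 := by
  apply Units.ext
  rw [Units.val_pow_eq_pow_val, zetaUnit, Units.val_mk0, (S14.zetaP_spec p).pow_eq_one,
    Units.val_one]

include hpS in
theorem zetaUnit_mem_ES : zetaUnit p ∈ ES S :=
  mem_ES_of_pow_eq_one (Fact.out : p.Prime) hpS (zetaUnit_pow p)

/-- `ζ_p` as an element of (the additive group of) `E_S` -/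
noncomputable def zetaE : (ESRep S).V := Additive.ofMul (⟨zetaUnit p, zetaUnit_mem_ES hpS⟩ : ES S)

theorem nsmul_zetaE : p • zetaE hpS = 0 :=
  congrArg Additive.ofMul (Subtype.ext (zetaUnit_pow p))

/-- `a ↦ ζ_p^a`, `ZMod p →+ E_S` -/
noncomputable def zmodToE : ZMod p →+ (ESRep S).V :=
  ZMod.lift p ⟨zmultiplesHom (ESRep S).V (zetaE hpS), by
    rw [zmultiplesHom_apply, natCast_zsmul]
    exact nsmul_zetaE hpS⟩

theorem zmodToE_intCast (n : ℤ) : zmodToE hpS (n : ZMod p) = n • zetaE hpS := by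
  unfold zmodToE
  rw [ZMod.lift_coe]
  rfl

theorem zmodToE_natCast (n : ℕ) : zmodToE hpS (n : ZMod p) = n • zetaE hpS := by
  have := zmodToE_intCast hpS (n : ℤ)
  rwa [Int.cast_natCast, natCast_zsmul] at this

/-- the underlying element of `Ω` -/
theorem coe_nsmul_zetaE (n : ℕ) :
    (((Additive.toMul (α := ES S) (n • zetaE hpS) : ES S) : Ωˣ) : Ω) = S14.zetaP p ^ n := rfl

theorem zmodToE_injective : Function.Injective (zmodToE hpS) := by
  rw [injective_iff_map_eq_zero]
  intro a ha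
  obtain ⟨n, rfl⟩ := ZMod.natCast_zmod_surjective a
  rw [zmodToE_natCast] at ha
  have h1 : S14.zetaP p ^ n = 1 := by
    rw [← coe_nsmul_zetaE hpS n, ha]
    rfl
  rw [ZMod.natCast_eq_zero_iff]
  exact (S14.zetaP_spec p).dvd_of_pow_eq_one n h1

theorem exists_zmodToE_eq {a : (ESRep S).V} (ha : p • a = 0) : ∃ c : ZMod p, zmodToE hpS c = a := by
  have h1 : ((Additive.toMul (α := ES S) a : ES S) : Ωˣ) ^ p = 1 := (ESRep_torsion_iff a).1 ha
  have h2 : (((Additive.toMul (α := ES S) a : ES S) : Ωˣ) : Ω) ^ p = 1 := by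
    rw [← Units.val_pow_eq_pow_val, h1, Units.val_one]
  obtain ⟨i, -, hi⟩ := (S14.zetaP_spec p).eq_pow_of_pow_eq_one h2
  refine ⟨(i : ZMod p), ?_⟩
  rw [zmodToE_natCast]
  apply (Additive.toMul (α := ES S)).injective
  apply Subtype.ext
  apply Units.ext
  exact (coe_nsmul_zetaE hpS i).trans hi

/-- the Galois action on `μ_p` is through the cyclotomic character -/
theorem ρ_zetaE (g : Γ) :
    (ESRep S).ρ g (zetaE hpS) = zmodToE hpS ((cycloChar p g : (ZMod p)ˣ) : ZMod p) := by
  have : NeZero p := ⟨(Fact.out : p.Prime).ne_zero⟩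
  have h1 : (((cycloChar p g : (ZMod p)ˣ) : ZMod p)) =
      ((((cycloChar p g : (ZMod p)ˣ) : ZMod p).val : ℕ) : ZMod p) := by
    rw [ZMod.natCast_val, ZMod.cast_id]
  rw [h1, zmodToE_natCast]
  apply (Additive.toMul (α := ES S)).injective
  apply Subtype.ext
  apply Units.ext
  rw [coe_nsmul_zetaE, cycloChar_eq_chi]
  exact S14.chi_apply_zetaP p g

theorem ρ_zmodToE (g : Γ) (c : ZMod p) :
    (ESRep S).ρ g (zmodToE hpS c) =
      zmodToE hpS (((cycloChar p g : (ZMod p)ˣ) : ZMod p) * c) := by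
  obtain ⟨n, rfl⟩ := ZMod.natCast_zmod_surjective c
  rw [zmodToE_natCast, map_nsmul, ρ_zetaE, ← map_nsmul, nsmul_eq_mul, mul_comm]

end Mu

/-! ### `M ≅ Hom_ℤ(M^∨(χ), E_S)` -/

section Theta

variable {p : ℕ} [Fact p.Prime] {S : Finset Nat.Primes} (hpS : pPrime p ∈ S)
  (M : Rep.{0} (ZMod p) Γ)

/-- `m ↦ (f ↦ ζ_p^{f m})` -/
noncomputable def thetaFun (m : M.V) :
    (M.dualTwist (cycloChar p)).V →ₗ[ℤ] (ESRep S).V :=
  ((zmodToE hpS).comp
    ((LinearMap.applyₗ (R := ZMod p) (M₂ := ZMod p) m).toAddMonoidHom)).toIntLinearMap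

theorem thetaFun_apply (m : M.V) (f : Module.Dual (ZMod p) M.V) :
    thetaFun hpS M m f = zmodToE hpS (f m) := rfl

/-- `θ` as a `ℤ`-linear map -/
noncomputable def thetaLin :
    M.V →ₗ[ℤ] ((M.dualTwist (cycloChar p)).V →ₗ[ℤ] (ESRep S).V) :=
  AddMonoidHom.toIntLinearMap
    { toFun := thetaFun hpS M
      map_zero' := by
        apply LinearMap.ext
        intro f
        rw [thetaFun_apply, map_zero, map_zero]
        rfl
      map_add' := fun m m' => by
        apply LinearMap.ext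
        intro f
        rw [LinearMap.add_apply, thetaFun_apply, thetaFun_apply, thetaFun_apply, map_add,
          map_add] }

theorem thetaLin_apply (m : M.V) (f : Module.Dual (ZMod p) M.V) :
    thetaLin hpS M m f = zmodToE hpS (f m) := rfl

theorem thetaLin_injective : Function.Injective (thetaLin hpS M) := by
  rw [injective_iff_map_eq_zero]
  intro m hm
  rw [← Module.forall_dual_apply_eq_zero_iff (ZMod p) m]
  intro f
  apply zmodToE_injective hpS
  rw [map_zero, ← thetaLin_apply, hm]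
  rfl

theorem nsmul_dual_eq_zero (f : Module.Dual (ZMod p) M.V) : p • f = 0 := by
  rw [← Nat.cast_smul_eq_nsmul (ZMod p), ZMod.natCast_self, zero_smul]

theorem thetaLin_surjective [FiniteDimensional (ZMod p) M.V] :
    Function.Surjective (thetaLin hpS M) := by
  intro φ
  have h1 : ∀ f : Module.Dual (ZMod p) M.V, ∃ c : ZMod p, zmodToE hpS c = φ f := fun f =>
    exists_zmodToE_eq hpS (by
      have h2 : p • φ f = φ (p • f) := (map_nsmul φ p f).symm
      rw [h2, nsmul_dual_eq_zero, map_zero])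
  choose a ha using h1
  let a' : Module.Dual (ZMod p) M.V →+ ZMod p := AddMonoidHom.mk' a (fun f f' => by
    apply zmodToE_injective hpS
    rw [map_add, ha, ha, ha]
    exact map_add φ f f')
  obtain ⟨m, hm⟩ := (Module.evalEquiv (ZMod p) M.V).surjective (a'.toZModLinearMap p)
  refine ⟨m, ?_⟩
  apply LinearMap.ext
  intro f
  rw [thetaLin_apply, ← ha f]
  congr 1
  have h3 := congrArg (fun t : Module.Dual (ZMod p) (Module.Dual (ZMod p) M.V) => t f) hm
  exact h3

/-- `θ` is `Γ`-equivariant -/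
theorem thetaLin_equivariant (g : Γ) (m : M.V) :
    thetaLin hpS M (M.ρ g m) =
      (Representation.linHom (intRepresentation (M.dualTwist (cycloChar p))) (ESRep S).ρ) g
        (thetaLin hpS M m) := by
  apply LinearMap.ext
  intro f
  rw [thetaLin_apply]
  change _ = (ESRep S).ρ g (thetaLin hpS M m ((M.dualTwist (cycloChar p)).ρ g⁻¹ f))
  rw [thetaLin_apply, ρ_zmodToE, Rep.dualTwist_ρ_apply]
  congr 1
  rw [LinearMap.smul_apply, LinearMap.comp_apply, inv_inv, smul_eq_mul, ← mul_assoc, map_inv,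
    Units.mul_inv, one_mul]

/-- `θ` as an equivalence of representations over `ℤ` -/
noncomputable def thetaEquiv [FiniteDimensional (ZMod p) M.V] :
    Representation.Equiv (intRepresentation M)
      (Representation.linHom (intRepresentation (M.dualTwist (cycloChar p))) (ESRep S).ρ) :=
  Representation.Equiv.mk
    (LinearEquiv.ofBijective (thetaLin hpS M)
      ⟨thetaLin_injective hpS M, thetaLin_surjective hpS M⟩)
    (fun g => LinearMap.ext fun m => thetaLin_equivariant hpS M g m)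

/-- `M ≅ Hom_ℤ(M^∨(χ), E_S)` in `Rep ℤ Γ` -/
noncomputable def thetaIso [FiniteDimensional (ZMod p) M.V] :
    intRep M ≅ (Rep.ihom (intRep (M.dualTwist (cycloChar p)))).obj (ESRep S) :=
  Rep.mkIso (thetaEquiv hpS M)

theorem thetaIso_hom_apply [FiniteDimensional (ZMod p) M.V] (m : M.V)
    (f : Module.Dual (ZMod p) M.V) :
    (show (M.dualTwist (cycloChar p)).V →ₗ[ℤ] (ESRep S).V from (thetaIso hpS M).hom.hom m) f =
      zmodToE hpS (f m) := rfl

theorem finite_int_of_finiteDimensional (V : Type*) [AddCommGroup V] [Module (ZMod p) V]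
    [FiniteDimensional (ZMod p) V] : Module.Finite ℤ V := by
  have : Finite V := Module.finite_of_finite (ZMod p)
  exact Module.Finite.of_finite

variable (hM : IsSmooth (levelBasis S) M)
  (hM' : IsSmooth (levelBasis S) (M.dualTwist (cycloChar p)))

/-- the twisted dual `M^∨(χ)` as a smooth `ℤ[Γ]`-module -/
noncomputable def twistDualSm : SmRep ℤ (levelBasis S) :=
  intSm (mkSm (levelBasis S) (M.dualTwist (cycloChar p)) hM')

instance instFiniteTwistDualSm [FiniteDimensional (ZMod p) M.V] :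
    @Module.Finite ℤ (twistDualSm M hM').obj.V _ _ (twistDualSm M hM').obj.hV2 := by
  have : Finite (twistDualSm M hM').obj.V :=
    Module.finite_of_finite (ZMod p) (M := Module.Dual (ZMod p) M.V)
  exact Module.Finite.of_finite

theorem nsmul_twistDualSm (x : (twistDualSm M hM').obj.V) : p • x = 0 :=
  nsmul_dual_eq_zero M x

/-- **`M ≅ Hom_ℤ(M^∨(χ), E_S)` in `SmRep ℤ 𝒰_S`.** -/
noncomputable def thetaSmIso [FiniteDimensional (ZMod p) M.V] :
    intSm (mkSm (levelBasis S) M hM) ≅ (homSm (twistDualSm M hM')).obj (ESSm S) :=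
  ObjectProperty.isoMk _ (thetaIso hpS M)

end Theta

end Fermat.Agent.CFT.Bridge
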