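/-
S55 / CFT (PT7, Prelude bridge) — helper6.
The boundary between the Poitou–Tate engine (everything over `ℤ`, `Hom(X, E_S)` coefficients,
Pontryagin duals) and the frozen statement S55: `PTEngine p S → S55`.
-/
import Mathlib
import Fermat.Agent.CFT.Bridge.Dual_helper6

set_option autoImplicit false

open CategoryTheory groupCohomology ExtCitation

namespace Fermat.Agent.CFT.Bridge

open Fermat.Agent.CFT.Sm Fermat.Agent.CFT.Arith

/-- `Ω = AlgebraicClosure ℚ`. -/
local notation "Ω" => AlgebraicClosure ℚ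
/-- `Γ = Gal(Ω/ℚ)`. -/
local notation "Γ" => (AlgebraicClosure ℚ ≃ₐ[ℚ] AlgebraicClosure ℚ)

/-- **What the Poitou–Tate engine has to deliver**: for every finite `p`-torsion smooth
`ℤ[Γ]`-module `X` (for the basis `𝒰_S`), `Ш²(Hom(X, E_S))` is the Pontryagin dual of `Ш¹(X)`,
where `Ш` is the kernel of the restrictions to the local groups `G_q`, `q ∈ S` (with their fine
bases). -/
def PTEngine (p : ℕ) (S : Finset Nat.Primes) : Prop :=
  ∀ (X : SmRep ℤ (levelBasis S)) [@Module.Finite ℤ X.obj.V _ _ X.obj.hV2],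
    (∀ x : X.obj.V, p • x = 0) →
    Nonempty (shaSm S ((homSm X).obj (ESSm S)) 2 ≃+ CharacterModule (shaSm S X 1))

variable {p : ℕ} [Fact p.Prime] (hp2 : p ≠ 2) (S : Finset Nat.Primes) (hpS : pPrime p ∈ S)
  (M : Rep.{0} (ZMod p) Γ) [FiniteDimensional (ZMod p) M.V]
  (hsm : ∀ m : M, ∃ F : IntermediateField ℚ Ω, FiniteDimensional ℚ F ∧
      ∀ s ∈ F.fixingSubgroup, M.ρ s m = m)
  (hMur : ∀ q : Nat.Primes, q ∉ S → ∀ A : ValuationSubring Ω,
      A.LiesOverPrime (q : ℕ) → ∀ g ∈ A.inertiaSubgroupIn ℚ, M.ρ g = 1)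

theorem nsmul_eq_zero_of_zmod {Y : Type*} [AddCommGroup Y] [Module (ZMod p) Y] (y : Y) :
    p • y = 0 := by
  rw [← Nat.cast_smul_eq_nsmul (ZMod p), ZMod.natCast_self, zero_smul]

include hpS in
/-- the duality of `PTEngine`, transported to `𝔽_p`-coefficients -/
theorem nonempty_addEquiv_of_PTEngine (hE : PTEngine p S)
    (hM : IsSmooth (levelBasis S) M)
    (hM' : IsSmooth (levelBasis S) (M.dualTwist (cycloChar p))) :
    Nonempty (shaSm S (mkSm (levelBasis S) M hM) 2 ≃+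
      (shaSm S (mkSm (levelBasis S) (M.dualTwist (cycloChar p)) hM') 1 →+ ZMod p)) := by
  obtain ⟨e⟩ := hE (twistDualSm M hM') (nsmul_twistDualSm M hM')
  -- scalars and `θ` on the `Ш²` side
  let e1 : shaSm S (mkSm (levelBasis S) M hM) 2 ≃+
      shaSm S (intSm (mkSm (levelBasis S) M hM)) 2 := shaSmInt S _ 1
  let e2 : shaSm S (intSm (mkSm (levelBasis S) M hM)) 2 ≃+
      shaSm S ((homSm (twistDualSm M hM')).obj (ESSm S)) 2 :=
    { (shaSmCongr (thetaSmIso hpS M hM hM') 2).toEquiv with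
      map_add' := fun x y => map_add (shaSmCongr (thetaSmIso hpS M hM hM') 2) x y }
  -- scalars on the `Ш¹` side
  let e4 : shaSm S (mkSm (levelBasis S) (M.dualTwist (cycloChar p)) hM') 1 ≃+
      shaSm S (twistDualSm M hM') 1 := shaSmInt S _ 0
  have htors : ∀ y : shaSm S (twistDualSm M hM') 1, p • y = 0 := by
    intro y
    obtain ⟨y', rfl⟩ := e4.surjective y
    rw [← map_nsmul, nsmul_eq_zero_of_zmod, map_zero]
  let e5 : CharacterModule (shaSm S (twistDualSm M hM') 1) ≃+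
      (shaSm S (twistDualSm M hM') 1 →+ ZMod p) := (characterEquiv p htors).symm
  let e6 : (shaSm S (twistDualSm M hM') 1 →+ ZMod p) ≃+
      (shaSm S (mkSm (levelBasis S) (M.dualTwist (cycloChar p)) hM') 1 →+ ZMod p) :=
    AddEquiv.addMonoidHomCongrLeft e4.symm
  exact ⟨(((e1.trans e2).trans e).trans e5).trans e6⟩

include hp2 hpS hsm hMur in
/-- **S55 from the Poitou–Tate engine.** -/
theorem S55_of_PTEngine (hE : PTEngine p S) :
    ∃ B : sha₁ S (M.dualTwist (cycloChar p)) →ₗ[ZMod p] sha₂ S M →ₗ[ZMod p] ZMod p,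
      (∀ y, (∀ x, B y x = 0) → y = 0) ∧ (∀ x, (∀ y, B y x = 0) → x = 0) :=
  S55_of_addEquiv_sha₂ hp2 S hpS M hsm hMur
    (fun hM hM' => nonempty_addEquiv_of_PTEngine S hpS M hE hM hM')

end Fermat.Agent.CFT.Bridge
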