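/-
S55 / CFT (PT7, Prelude bridge) — helper6.
(G3) The comparison `E_S → B_ℓ` (`B_ℓ` = helper4's fine local units `levelUnits ℓ`) induced by the
fixed embedding `Ω → PadicAlgCl ℓ`: it is `G_ℓ`-equivariant, injective, and bijective on `p`-torsion
(`p ∈ S`). Consequently `Res_ℓ Hom_ℤ(X, E_S) ≅ Hom_ℤ(Res_ℓ X, B_ℓ)` for `p`-torsion `X`.
-/
import Mathlib
import Fermat.Agent.CFT.Bridge.Dual_helper6
import Fermat.Agent.CFT.Local.PadicLevels
import Fermat.Agent.CFT.Sm.ExtTorsion_helper5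

set_option autoImplicit false

open CategoryTheory groupCohomology ExtCitation

namespace Fermat.Agent.CFT.Bridge

open Fermat.Agent.CFT.Sm Fermat.Agent.CFT.Arith Fermat.Agent.CFT.Local

/-- `Ω = AlgebraicClosure ℚ`. -/
local notation "Ω" => AlgebraicClosure ℚ
/-- `Γ = Gal(Ω/ℚ)`. -/
local notation "Γ" => (AlgebraicClosure ℚ ≃ₐ[ℚ] AlgebraicClosure ℚ)

section EsToB

variable (S : Finset Nat.Primes) (ℓ : ℕ) [Fact ℓ.Prime]

/-- the fixed embedding on units -/
noncomputable def embUnits : Ωˣ →* (PadicAlgCl ℓ)ˣ :=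
  Units.map ((padicEmbedding ℓ : Ω →ₐ[ℚ] PadicAlgCl ℓ) : Ω →* PadicAlgCl ℓ)

theorem coe_embUnits (x : Ωˣ) :
    ((embUnits ℓ x : (PadicAlgCl ℓ)ˣ) : PadicAlgCl ℓ) = padicEmbedding ℓ (x : Ω) := rfl

theorem embUnits_injective : Function.Injective (embUnits ℓ) := by
  intro x y h
  apply Units.ext
  have h1 : padicEmbedding ℓ (x : Ω) = padicEmbedding ℓ (y : Ω) := by
    rw [← coe_embUnits, ← coe_embUnits, h]
  exact (padicEmbedding ℓ).injective h1

theorem embUnits_mem_levelUnits (x : Ωˣ) : embUnits ℓ x ∈ levelUnits ℓ := by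
  have hint : IsIntegral ℚ (x : Ω) := ((AlgebraicClosure.isAlgebraic ℚ).isAlgebraic _).isIntegral
  refine ⟨IntermediateField.adjoin ℚ {(x : Ω)}, IntermediateField.adjoin.finiteDimensional hint, ?_⟩
  rw [coe_embUnits]
  exact padicEmbedding_mem_localLevel (IntermediateField.mem_adjoin_simple_self ℚ (x : Ω))

theorem embUnits_smul (τ : PadicAlgCl ℓ ≃ₐ[ℚ_[ℓ]] PadicAlgCl ℓ) (x : Ωˣ) :
    embUnits ℓ (localGaloisToGlobal ℓ τ • x) = τ • embUnits ℓ x := by
  apply Units.ext
  rw [coe_embUnits]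
  exact padicEmbedding_localGaloisToGlobal ℓ τ (x : Ω)

/-- `E_S → B_ℓ` -/
noncomputable def esToB : ES S →* levelUnits ℓ where
  toFun x := ⟨embUnits ℓ (x : Ωˣ), embUnits_mem_levelUnits ℓ _⟩
  map_one' := Subtype.ext (map_one (embUnits ℓ))
  map_mul' x y := Subtype.ext (map_mul (embUnits ℓ) (x : Ωˣ) (y : Ωˣ))

theorem coe_esToB (x : ES S) :
    (((esToB S ℓ x : levelUnits ℓ) : (PadicAlgCl ℓ)ˣ) : PadicAlgCl ℓ) =
      padicEmbedding ℓ ((x : Ωˣ) : Ω) := rfl

theorem esToB_injective : Function.Injective (esToB S ℓ) := by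
  intro x y h
  apply Subtype.ext
  apply embUnits_injective ℓ
  exact congrArg (fun z : levelUnits ℓ => (z : (PadicAlgCl ℓ)ˣ)) h

theorem esToB_smul (τ : PadicAlgCl ℓ ≃ₐ[ℚ_[ℓ]] PadicAlgCl ℓ) (x : ES S) :
    esToB S ℓ (localGaloisToGlobal ℓ τ • x) = τ • esToB S ℓ x := by
  apply Subtype.ext
  exact embUnits_smul ℓ τ (x : Ωˣ)

/-- `E_S → B_ℓ` as a morphism of representations of `G_ℓ` -/
noncomputable def esToBHom :
    Rep.res (localGaloisToGlobal ℓ) (ESRep S) ⟶ levelUnitsRep ℓ :=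
  Rep.ofHom
    { toLinearMap := (MonoidHom.toAdditive (esToB S ℓ)).toIntLinearMap
      isIntertwining' := fun τ => LinearMap.ext fun x => by
        change Additive.ofMul (esToB S ℓ (localGaloisToGlobal ℓ τ •
          (Additive.toMul (α := ES S) x : ES S))) =
          Additive.ofMul (τ • esToB S ℓ (Additive.toMul (α := ES S) x : ES S))
        rw [esToB_smul] }

theorem esToBHom_apply (a : (ESRep S).V) :
    (esToBHom S ℓ).hom a = Additive.ofMul (esToB S ℓ (Additive.toMul (α := ES S) a)) := rfl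

theorem esToBHom_injective : Function.Injective (esToBHom S ℓ).hom := by
  intro a b h
  have h1 := esToB_injective S ℓ (Additive.ofMul.injective h)
  exact Additive.toMul.injective h1

variable {S ℓ}

/-- `E_S → B_ℓ` is onto the `p`-torsion of `B_ℓ` when `p ∈ S` -/
theorem exists_esToBHom_eq {p : ℕ} [Fact p.Prime] (hpS : pPrime p ∈ S)
    {b : (levelUnitsRep ℓ).V} (hb : p • b = 0) :
    ∃ a : (ESRep S).V, p • a = 0 ∧ (esToBHom S ℓ).hom a = b := by
  have hp : p.Prime := Fact.out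
  have hζ : IsPrimitiveRoot (padicEmbedding ℓ (S14.zetaP p)) p :=
    (S14.zetaP_spec p).map_of_injective (padicEmbedding ℓ).injective
  have h1 : ((toB b : levelUnits ℓ) : (PadicAlgCl ℓ)ˣ) ^ p = 1 :=
    congrArg (fun z : levelUnits ℓ => (z : (PadicAlgCl ℓ)ˣ)) (congrArg toB hb)
  have h2 : (((toB b : levelUnits ℓ) : (PadicAlgCl ℓ)ˣ) : PadicAlgCl ℓ) ^ p = 1 := by
    rw [← Units.val_pow_eq_pow_val, h1, Units.val_one]
  obtain ⟨i, -, hi⟩ := hζ.eq_pow_of_pow_eq_one h2
  refine ⟨i • zetaE hpS, ?_, ?_⟩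
  · rw [smul_comm, nsmul_zetaE, smul_zero]
  · apply toB_injective
    apply Subtype.ext
    apply Units.ext
    refine Eq.trans ?_ hi
    change padicEmbedding ℓ (S14.zetaP p ^ i) = _
    rw [map_pow]

end EsToB

/-! ### `Hom` into the `p`-torsion -/

section HomIso

variable {k G H : Type} [CommRing k] [Group G] [Group H]

/-- restriction commutes with the internal `Hom` (identity on the underlying maps) -/
noncomputable def resIhomIso (ι : H →* G) (X E : Rep.{0} k G) :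
    Rep.res ι ((Rep.ihom X).obj E) ≅ (Rep.ihom (Rep.res ι X)).obj (Rep.res ι E) :=
  Rep.mkIso (Representation.Equiv.mk (LinearEquiv.refl k (X.V →ₗ[k] E.V)) (fun h => by
    apply LinearMap.ext
    intro φ
    apply LinearMap.ext
    intro x
    have hφ : ∃ φ' : X.V →ₗ[k] E.V, φ' = φ := ⟨φ, rfl⟩
    obtain ⟨φ', rfl⟩ := hφ
    change E.ρ (ι h) (φ' (X.ρ ((ι h)⁻¹) x)) = E.ρ (ι h) (φ' (X.ρ (ι (h⁻¹)) x))
    rw [map_inv ι h]))

theorem resIhomIso_hom_apply (ι : H →* G) (X E : Rep.{0} k G) (φ : X.V →ₗ[k] E.V) :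
    (show X.V →ₗ[k] E.V from (resIhomIso ι X E).hom.hom φ) = φ := rfl

variable (p : ℕ) (X E B : Rep.{0} k G) (f : E ⟶ B)

/-- the underlying linear map of an element of the internal `Hom` -/
def ihomFun (φ : ((Rep.ihom X).obj E).V) : X.V →ₗ[k] E.V := φ

theorem ihomFun_map (φ : ((Rep.ihom X).obj E).V) (x : X.V) :
    ihomFun X B (((Rep.ihom X).map f).hom φ) x = f.hom (ihomFun X E φ x) := rfl

theorem ihom_map_bijective (hX : ∀ x : X.V, p • x = 0)
    (hinj : Function.Injective f.hom)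
    (hsurj : ∀ b : B.V, p • b = 0 → ∃ a : E.V, f.hom a = b) :
    Function.Bijective ((Rep.ihom X).map f).hom := by
  constructor
  · intro φ ψ h
    apply LinearMap.ext
    intro x
    apply hinj
    exact congrArg (fun t => ihomFun X B t x) h
  · intro ψ
    have h1 : ∀ x : X.V, ∃ a : E.V, f.hom a = ihomFun X B ψ x := fun x =>
      hsurj _ (by
        have h2 : p • ihomFun X B ψ x = ihomFun X B ψ (p • x) := (map_nsmul _ p x).symm
        rw [h2, hX, map_zero])
    choose a ha using h1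
    let a' : X.V →ₗ[k] E.V :=
      { toFun := a
        map_add' := fun x y => by
          apply hinj
          rw [map_add, ha, ha, ha]
          exact map_add (ihomFun X B ψ) x y
        map_smul' := fun c x => by
          apply hinj
          rw [RingHom.id_apply, map_smul, ha, ha]
          exact map_smul (ihomFun X B ψ) c x }
    refine ⟨a', ?_⟩
    apply LinearMap.ext
    intro x
    exact ha x

/-- post-composition with an injective morphism which is onto the `p`-torsion is bijective on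
`Hom(X, −)` for `p`-torsion `X` -/
noncomputable def ihomCongrOfTorsion (hX : ∀ x : X.V, p • x = 0)
    (hinj : Function.Injective f.hom)
    (hsurj : ∀ b : B.V, p • b = 0 → ∃ a : E.V, f.hom a = b) :
    (Rep.ihom X).obj E ≅ (Rep.ihom X).obj B :=
  Rep.mkIso (Representation.Equiv.mk
    (LinearEquiv.ofBijective ((Rep.ihom X).map f).hom.toLinearMap
      (ihom_map_bijective p X E B f hX hinj hsurj))
    (fun g => ((Rep.ihom X).map f).hom.isIntertwining' g))

theorem ihomCongrOfTorsion_hom_apply (hX : ∀ x : X.V, p • x = 0)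
    (hinj : Function.Injective f.hom)
    (hsurj : ∀ b : B.V, p • b = 0 → ∃ a : E.V, f.hom a = b) (φ : ((Rep.ihom X).obj E).V)
    (x : X.V) :
    ihomFun X B ((ihomCongrOfTorsion p X E B f hX hinj hsurj).hom.hom φ) x =
      f.hom (ihomFun X E φ x) := rfl

end HomIso

/-! ### `Res_ℓ Hom(X, E_S) ≅ Hom(Res_ℓ X, B_ℓ)` -/

section LocalHom

variable {p : ℕ} [Fact p.Prime] {S : Finset Nat.Primes} (hpS : pPrime p ∈ S)
  (ℓ : ℕ) [Fact ℓ.Prime] (X : Rep.{0} ℤ Γ) (hX : ∀ x : X.V, p • x = 0)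

/-- **(G3)** for `p`-torsion `X`: `Res_ℓ Hom_ℤ(X, E_S) ≅ Hom_ℤ(Res_ℓ X, B_ℓ)`, `φ ↦ (E_S → B_ℓ) ∘ φ`. -/
noncomputable def locHomIso :
    Rep.res (localGaloisToGlobal ℓ) ((Rep.ihom X).obj (ESRep S)) ≅
      (Rep.ihom (Rep.res (localGaloisToGlobal ℓ) X)).obj (levelUnitsRep ℓ) :=
  resIhomIso (localGaloisToGlobal ℓ) X (ESRep S) ≪≫
    ihomCongrOfTorsion p (Rep.res (localGaloisToGlobal ℓ) X)
      (Rep.res (localGaloisToGlobal ℓ) (ESRep S)) (levelUnitsRep ℓ) (esToBHom S ℓ) hX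
      (esToBHom_injective S ℓ)
      (fun b hb => by
        obtain ⟨a, -, ha⟩ := exists_esToBHom_eq hpS hb
        exact ⟨a, ha⟩)

theorem locHomIso_hom_apply (φ : ((Rep.ihom X).obj (ESRep S)).V) (x : X.V) :
    ihomFun (Rep.res (localGaloisToGlobal ℓ) X) (levelUnitsRep ℓ)
      ((locHomIso hpS ℓ X hX).hom.hom φ) x = (esToBHom S ℓ).hom (ihomFun X (ESRep S) φ x) := rfl

end LocalHom

/-! ### The `SmRep` level -/

section SmLevel

variable (q : Nat.Primes)

/-- `B_q` (helper4's fine local units) as a representation of `primeLocalGaloisGroup q` -/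
noncomputable def BRep : Rep.{0} ℤ (primeLocalGaloisGroup q) :=
  letI : Fact (q : ℕ).Prime := ⟨q.2⟩
  levelUnitsRep (q : ℕ)

theorem isSmooth_BRep : IsSmooth (locBasis q) (BRep q) := by
  have : Fact (q : ℕ).Prime := ⟨q.2⟩
  intro b
  have hb : ∃ b' : (levelUnitsRep (q : ℕ)).V, b' = b := ⟨b, rfl⟩
  obtain ⟨b', rfl⟩ := hb
  obtain ⟨F, hF, hx⟩ := (toB b').2
  obtain ⟨F', hF', hle⟩ := exists_isFullLevel_ge F
  refine ⟨F'.fixingSubgroup.comap (primeLocalToGlobal q), ⟨_, ⟨F', hF', rfl⟩, rfl⟩, ?_⟩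
  intro τ hτ
  have hτ' : ∃ τ' : PadicAlgCl (q : ℕ) ≃ₐ[ℚ_[(q : ℕ)]] PadicAlgCl (q : ℕ), τ' = τ := ⟨τ, rfl⟩
  obtain ⟨τ', rfl⟩ := hτ'
  have h1 : localGaloisToGlobal (q : ℕ) τ' ∈ F'.fixingSubgroup := hτ
  have h2 : τ' ∈ (localLevel (q : ℕ) F).fixingSubgroup :=
    (mem_fixingSubgroup_localLevel_iff F τ').2
      (IntermediateField.fixingSubgroup_antitone hle h1)
  apply toB_injective
  apply Subtype.ext
  apply Units.ext
  change τ' (((toB b' : levelUnits (q : ℕ)) : (PadicAlgCl (q : ℕ))ˣ) : PadicAlgCl (q : ℕ)) = _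
  exact (IntermediateField.mem_fixingSubgroup_iff _ _).1 h2 _ hx

/-- `B_q` as a smooth representation of `(G_q, locBasis q)` -/
noncomputable def BSm : SmRep ℤ (locBasis q) := mkSm (locBasis q) (BRep q) (isSmooth_BRep q)

/-- the natural map `Res_q E_S → B_q` of smooth representations of `(G_q, locBasis q)`
(the `κE_q` of the Poitou–Tate engine) -/
noncomputable def esToBSm (S : Finset Nat.Primes) (q : Nat.Primes) :
    locSm S q (ESSm S) ⟶ BSm q :=
  letI : Fact (q : ℕ).Prime := ⟨q.2⟩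
  ObjectProperty.homMk (esToBHom S (q : ℕ))

theorem esToBSm_injective (S : Finset Nat.Primes) (q : Nat.Primes) :
    Function.Injective (esToBSm S q).hom.hom :=
  letI : Fact (q : ℕ).Prime := ⟨q.2⟩
  esToBHom_injective S (q : ℕ)

end SmLevel

/-! ### `Res_q Hom(X, E_S) ≅ Hom(Res_q X, B_q)` in `SmRep` -/

section SmIso

variable {k : Type} [CommRing k] (S : Finset Nat.Primes) (q : Nat.Primes)

instance instFiniteLocSm (X : SmRep k (levelBasis S)) [Module.Finite k X.obj.V] :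
    Module.Finite k (locSm S q X).obj.V := ‹Module.Finite k X.obj.V›

/-- restriction to the local group commutes with `homSm` (identity on the underlying maps) -/
noncomputable def locHomSm (X A : SmRep k (levelBasis S)) [Module.Finite k X.obj.V] :
    locSm S q ((homSm X).obj A) ≅ (homSm (locSm S q X)).obj (locSm S q A) :=
  ObjectProperty.isoMk _ (resIhomIso (primeLocalToGlobal q) X.obj A.obj)

theorem locHomSm_hom_apply (X A : SmRep k (levelBasis S)) [Module.Finite k X.obj.V]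
    (φ : ((homSm X).obj A).obj.V) :
    homSmFun (locSm S q X) ((locHomSm S q X A).hom.hom.hom φ) = homSmFun X φ := rfl

variable {G : Type} [Group G] {𝒰 : OpenBasis G}

/-- post-composition with an injective morphism which is onto the `p`-torsion is an isomorphism
on `homSm X` for `p`-torsion `X` -/
theorem isIso_homSm_map_of_torsion (p : ℕ) (X : SmRep k 𝒰) [Module.Finite k X.obj.V]
    {E B : SmRep k 𝒰} (f : E ⟶ B) (hX : ∀ x : X.obj.V, p • x = 0)
    (hinj : Function.Injective f.hom.hom)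
    (hsurj : ∀ b : B.obj.V, p • b = 0 → ∃ a : E.obj.V, f.hom.hom a = b) :
    IsIso ((homSm X).map f) :=
  smRep_isIso_of_bijective _ (ihom_map_bijective p X.obj E.obj B.obj f.hom hX hinj hsurj)

end SmIso

section G3

variable {p : ℕ} [Fact p.Prime] {S : Finset Nat.Primes} (hpS : pPrime p ∈ S) (q : Nat.Primes)
  (X : SmRep ℤ (levelBasis S)) [@Module.Finite ℤ X.obj.V _ _ X.obj.hV2]
  (hX : ∀ x : X.obj.V, p • x = 0)

include hpS hX in
theorem isIso_homSm_map_esToBSm : IsIso ((homSm (locSm S q X)).map (esToBSm S q)) := by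
  have : Fact (q : ℕ).Prime := ⟨q.2⟩
  refine isIso_homSm_map_of_torsion p (locSm S q X) (esToBSm S q) hX (esToBSm_injective S q) ?_
  intro b hb
  obtain ⟨a, -, ha⟩ := exists_esToBHom_eq (ℓ := (q : ℕ)) hpS (b := b) hb
  exact ⟨a, ha⟩

/-- **(G3)** `Res_q Hom_ℤ(X, E_S) ≅ Hom_ℤ(Res_q X, B_q)` for `p`-torsion `X` (`p ∈ S`), as smooth
representations of `(G_q, locBasis q)`: `φ ↦ (E_S → B_q) ∘ φ`. -/
noncomputable def locHomSmIso :
    locSm S q ((homSm X).obj (ESSm S)) ≅ (homSm (locSm S q X)).obj (BSm q) :=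
  haveI := isIso_homSm_map_esToBSm hpS q X hX
  locHomSm S q X (ESSm S) ≪≫ asIso ((homSm (locSm S q X)).map (esToBSm S q))

theorem locHomSmIso_hom :
    (locHomSmIso hpS q X hX).hom =
      (locHomSm S q X (ESSm S)).hom ≫ (homSm (locSm S q X)).map (esToBSm S q) := rfl

theorem locHomSmIso_hom_apply (φ : ((homSm X).obj (ESSm S)).obj.V) (x : X.obj.V) :
    homSmFun (locSm S q X) ((locHomSmIso hpS q X hX).hom.hom.hom φ) x =
      (esToBSm S q).hom.hom (homSmFun X φ x) := rfl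

end G3

end Fermat.Agent.CFT.Bridge
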