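/-
S55 / CFT (PT7, Prelude bridge) — helper6.
Final assembly: the `Ext`-form of the Poitou–Tate engine (`ExtEngine`, the output of helper9's
engine in the arithmetic situation) together with the comparison `Ext²(X, E_S) ≃ H²(Hom(X, E_S))`
(helper5's (U3)) gives `PTEngine`, hence S55.
-/
import Mathlib
import Fermat.Agent.CFT.Bridge.Engine_helper6
import Fermat.Agent.CFT.Bridge.LocalMu_helper6
import Fermat.Agent.CFT.Sm.Compare_helper9
import Fermat.Agent.CFT.Sm.Transfer_helper5_Epi

set_option autoImplicit false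

open CategoryTheory CategoryTheory.Abelian groupCohomology ExtCitation

namespace Fermat.Agent.CFT.Bridge

open Fermat.Agent.CFT.Sm Fermat.Agent.CFT.Arith

/-- `Ω = AlgebraicClosure ℚ`. -/
local notation "Ω" => AlgebraicClosure ℚ
/-- `Γ = Gal(Ω/ℚ)`. -/
local notation "Γ" => (AlgebraicClosure ℚ ≃ₐ[ℚ] AlgebraicClosure ℚ)

/-! ### Generalities -/

/-- an additive equivalence restricts to an equivalence between corresponding subgroups -/
noncomputable def addEquivOfMemIff {A B : Type*} [AddCommGroup A] [AddCommGroup B] (c : A ≃+ B)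
    (T : AddSubgroup A) (T' : AddSubgroup B) (h : ∀ a, a ∈ T ↔ c a ∈ T') : T ≃+ T' where
  toFun a := ⟨c (a : A), (h a).1 a.2⟩
  invFun b := ⟨c.symm (b : B), (h _).2 (by rw [c.apply_symm_apply]; exact b.2)⟩
  left_inv a := Subtype.ext (c.symm_apply_apply (a : A))
  right_inv b := Subtype.ext (c.apply_symm_apply (b : B))
  map_add' a b := Subtype.ext (map_add c (a : A) (b : A))

section Generic

variable {k G : Type} [CommRing k] [Group G] {𝒰 : OpenBasis G}

theorem smHCoeff_id' (A : SmRep k 𝒰) (n : ℕ) (x : smH 𝒰 A n) : Sm.smHCoeff (𝟙 A) n x = x := by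
  unfold Sm.smHCoeff
  rw [CategoryTheory.Functor.map_id]
  rfl

theorem smHCoeff_injective_of_iso {A B : SmRep k 𝒰} (e : A ≅ B) (n : ℕ) :
    Function.Injective (Sm.smHCoeff e.hom n) := by
  intro x y h
  have h1 := congrArg (Sm.smHCoeff e.inv n) h
  rw [← Sm.smHCoeff_comp, ← Sm.smHCoeff_comp, e.hom_inv_id, smHCoeff_id', smHCoeff_id'] at h1
  exact h1

end Generic

/-! ### The `Ext`-form of the engine -/

section ExtEngine

variable (S : Finset Nat.Primes)

/-- the localisation at `q` of an `Ext`-class with values in `E_S`, pushed into the fine local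
module `B_q` -/
noncomputable def locExt (q : Nat.Primes) (X : SmRep ℤ (levelBasis S)) (n : ℕ) :
    Ext X (ESSm S) n →+ Ext (locSm S q X) (BSm q) n :=
  ((Ext.mk₀ (esToBSm S q)).postcomp (locSm S q X) (add_zero n)).comp
    ((resSm ℤ (primeLocalToGlobal q) (locBasis_finer S q)).mapExtAddHom X (ESSm S) n)

theorem locExt_apply (q : Nat.Primes) (X : SmRep ℤ (levelBasis S)) (n : ℕ)
    (e : Ext X (ESSm S) n) :
    locExt S q X n e =
      (e.mapExactFunctor (resSm ℤ (primeLocalToGlobal q) (locBasis_finer S q))).comp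
        (Ext.mk₀ (esToBSm S q)) (add_zero n) := rfl

/-- the locally trivial classes in `Ext²(X, E_S)` -/
noncomputable def extSha (X : SmRep ℤ (levelBasis S)) (n : ℕ) : AddSubgroup (Ext X (ESSm S) n) :=
  ⨅ q : ↥S, (locExt S q.1 X n).ker

theorem mem_extSha_iff (X : SmRep ℤ (levelBasis S)) (n : ℕ) (e : Ext X (ESSm S) n) :
    e ∈ extSha S X n ↔ ∀ q : ↥S, locExt S q.1 X n e = 0 := by
  simp [extSha, AddSubgroup.mem_iInf, AddMonoidHom.mem_ker]

/-- **The `Ext`-form of the Poitou–Tate engine** (the output of the abstract engine in the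
arithmetic situation): for every finite `p`-torsion smooth `X`, the locally trivial classes in
`Ext²(X, E_S)` are dual to the locally trivial classes in `H¹(X)`. -/
def ExtEngine (p : ℕ) (S : Finset Nat.Primes) : Prop :=
  ∀ (X : SmRep ℤ (levelBasis S)) [@Module.Finite ℤ X.obj.V _ _ X.obj.hV2],
    (∀ x : X.obj.V, p • x = 0) →
      Nonempty (extSha S X 2 ≃+ CharacterModule (shaSm S X 1))

/-- **The comparison datum** (helper5's (U3) in the arithmetic situation): an isomorphism
`Ext²(X, E_S) ≃ H²(Hom(X, E_S))` under which local triviality corresponds. -/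
def HomCompare (p : ℕ) (S : Finset Nat.Primes) : Prop :=
  ∀ (X : SmRep ℤ (levelBasis S)) [@Module.Finite ℤ X.obj.V _ _ X.obj.hV2],
    (∀ x : X.obj.V, p • x = 0) →
      ∃ c : Ext X (ESSm S) 2 ≃+ smH (levelBasis S) ((homSm X).obj (ESSm S)) 2,
        ∀ (q : ↥S) (e : Ext X (ESSm S) 2),
          locExt S q.1 X 2 e = 0 ↔ locSmH S q.1 ((homSm X).obj (ESSm S)) 2 (c e) = 0

variable {S}

theorem PTEngine_of_ExtEngine {p : ℕ} (hE : ExtEngine p S) (hC : HomCompare p S) :
    PTEngine p S := by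
  intro X _ hX
  obtain ⟨c, hc⟩ := hC X hX
  obtain ⟨d⟩ := hE X hX
  have h : ∀ e : Ext X (ESSm S) 2, e ∈ extSha S X 2 ↔
      c e ∈ (shaSm S ((homSm X).obj (ESSm S)) 2).toAddSubgroup := by
    intro e
    rw [mem_extSha_iff, Submodule.mem_toAddSubgroup, mem_shaSm_iff]
    exact forall_congr' fun q => hc q e
  exact ⟨(addEquivOfMemIff c _ _ h).symm.trans d⟩

end ExtEngine

/-! ### `HomCompare` from a natural, restriction-compatible comparison -/

section FromU3

variable {p : ℕ} [Fact p.Prime] {S : Finset Nat.Primes} (hpS : pPrime p ∈ S)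

include hpS in
/-- The criterion: for each `X` a global comparison `c`, local comparisons `cB` (into `B_q`,
injective) and `cE` (into `Res_q E_S`), such that `cB` and `cE` are compatible with
`E_S → B_q` (naturality in the coefficients) and `c`, `cE` with restriction. -/
theorem homCompare_of_natural
    (h : ∀ (X : SmRep ℤ (levelBasis S)) [@Module.Finite ℤ X.obj.V _ _ X.obj.hV2],
      (∀ x : X.obj.V, p • x = 0) →
      ∃ (c : Ext X (ESSm S) 2 ≃+ smH (levelBasis S) ((homSm X).obj (ESSm S)) 2)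
        (cB : ∀ q : ↥S, Ext (locSm S q.1 X) (BSm q.1) 2 →
          smH (locBasis q.1) ((homSm (locSm S q.1 X)).obj (BSm q.1)) 2)
        (cE : ∀ q : ↥S, Ext (locSm S q.1 X) (locSm S q.1 (ESSm S)) 2 →
          smH (locBasis q.1) ((homSm (locSm S q.1 X)).obj (locSm S q.1 (ESSm S))) 2),
        (∀ (q : ↥S) (e), cB q e = 0 ↔ e = 0) ∧
        (∀ (q : ↥S) (e : Ext (locSm S q.1 X) (locSm S q.1 (ESSm S)) 2),
          cB q (e.comp (Ext.mk₀ (esToBSm S q.1)) (add_zero 2)) =
            Sm.smHCoeff ((homSm (locSm S q.1 X)).map (esToBSm S q.1)) 2 (cE q e)) ∧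
        (∀ (q : ↥S) (e : Ext X (ESSm S) 2),
          cE q (e.mapExactFunctor (resSm ℤ (primeLocalToGlobal q.1) (locBasis_finer S q.1))) =
            Sm.smHCoeff (locHomSm S q.1 X (ESSm S)).hom 2
              (locSmH S q.1 ((homSm X).obj (ESSm S)) 2 (c e)))) :
    HomCompare p S := by
  intro X _ hX
  obtain ⟨c, cB, cE, hB, hnat, hres⟩ := h X hX
  refine ⟨c, fun q e => ?_⟩
  have h1 : cB q (locExt S q.1 X 2 e) =
      Sm.smHCoeff (locHomSmIso hpS q.1 X hX).hom 2
        (locSmH S q.1 ((homSm X).obj (ESSm S)) 2 (c e)) :=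
    (hnat q (e.mapExactFunctor (resSm ℤ (primeLocalToGlobal q.1) (locBasis_finer S q.1)))).trans
      ((congrArg (Sm.smHCoeff ((homSm (locSm S q.1 X)).map (esToBSm S q.1)) 2) (hres q e)).trans
        (Sm.smHCoeff_comp (locHomSm S q.1 X (ESSm S)).hom
          ((homSm (locSm S q.1 X)).map (esToBSm S q.1)) 2
          (locSmH S q.1 ((homSm X).obj (ESSm S)) 2 (c e))).symm)
  rw [← hB q, h1]
  constructor
  · intro h0
    apply smHCoeff_injective_of_iso (locHomSmIso hpS q.1 X hX) 2
    rw [h0]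
    exact (map_zero _).symm
  · intro h0
    rw [h0]
    exact map_zero _

end FromU3

/-! ### S55 from the `Ext`-form of the engine -/

section S55

variable {p : ℕ} [Fact p.Prime] (hp2 : p ≠ 2) (S : Finset Nat.Primes) (hpS : pPrime p ∈ S)
  (M : Rep.{0} (ZMod p) Γ) [FiniteDimensional (ZMod p) M.V]
  (hsm : ∀ m : M, ∃ F : IntermediateField ℚ Ω, FiniteDimensional ℚ F ∧
      ∀ s ∈ F.fixingSubgroup, M.ρ s m = m)
  (hMur : ∀ q : Nat.Primes, q ∉ S → ∀ A : ValuationSubring Ω,
      A.LiesOverPrime (q : ℕ) → ∀ g ∈ A.inertiaSubgroupIn ℚ, M.ρ g = 1)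

include hp2 hpS hsm hMur in
/-- **S55 from the `Ext`-form of the engine and the comparison datum.** -/
theorem S55_of_ExtEngine (hE : ExtEngine p S) (hC : HomCompare p S) :
    ∃ B : sha₁ S (M.dualTwist (cycloChar p)) →ₗ[ZMod p] sha₂ S M →ₗ[ZMod p] ZMod p,
      (∀ y, (∀ x, B y x = 0) → y = 0) ∧ (∀ x, (∀ y, B y x = 0) → x = 0) :=
  S55_of_PTEngine hp2 S hpS M hsm hMur (PTEngine_of_ExtEngine hE hC)

end S55

end Fermat.Agent.CFT.Bridge
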