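/-
S55 / CFT — helper6.
Pure abelian-group lemmas for the last step of Poitou–Tate ("the count"): the cokernel of the dual
of a map is the dual of its kernel, and the resulting description of a kernel in an exact sequence
whose middle terms are identified with Pontryagin duals.
-/
import Mathlib

set_option autoImplicit false

namespace Fermat.Agent.CFT.Bridge

section Dual

variable {H L : Type*} [AddCommGroup H] [AddCommGroup L]

/-- every character of a subgroup extends to the whole group (`ℚ/ℤ` is injective) -/
theorem exists_character_extension (T : AddSubgroup H) (χ : CharacterModule T) :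
    ∃ ψ : CharacterModule H, ∀ t : T, ψ (t : H) = χ t := by
  obtain ⟨ψ, hψ⟩ := CharacterModule.dual_surjective_of_injective (R := ℤ)
    (T.subtype.toIntLinearMap) (fun x y h => Subtype.ext h) χ
  exact ⟨ψ, fun t => congrArg (fun c : CharacterModule T => c t) hψ⟩

/-- a character of `H` vanishing on the kernel of `f : H → L` is of the form `ψ ∘ f` -/
theorem exists_character_comp_eq (f : H →+ L) (χ : CharacterModule H)
    (hχ : ∀ x, f x = 0 → χ x = 0) : ∃ ψ : CharacterModule L, ∀ x, ψ (f x) = χ x := by
  -- define the character on the range of `f`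
  have hwd : ∀ x y : H, f x = f y → χ x = χ y := by
    intro x y hxy
    have h1 : χ (x - y) = 0 := hχ _ (by rw [map_sub, hxy, sub_self])
    have h2 : χ (x - y) = χ x - χ y := map_sub χ x y
    rw [h2] at h1
    exact sub_eq_zero.1 h1
  have hch : ∀ t : f.range, ∃ x : H, f x = (t : L) := fun t => t.2
  choose s hs using hch
  let χ' : CharacterModule f.range :=
    AddMonoidHom.mk' (fun t => χ (s t)) (fun t t' => by
      have h1 : f (s (t + t')) = f (s t + s t') := by
        rw [map_add, hs, hs, hs]
        rfl
      exact (hwd _ _ h1).trans (map_add χ _ _))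
  obtain ⟨ψ, hψ⟩ := exists_character_extension f.range χ'
  refine ⟨ψ, fun x => ?_⟩
  have h1 := hψ ⟨f x, x, rfl⟩
  refine h1.trans ?_
  exact hwd _ _ (hs ⟨f x, x, rfl⟩)

end Dual

section Pi

variable {ι : Type*} [Fintype ι] [DecidableEq ι] {L : ι → Type*} [∀ i, AddCommGroup (L i)]

/-- the character of a finite product attached to a family of characters -/
noncomputable def sumCharacter (χ : ∀ i, CharacterModule (L i)) : CharacterModule (∀ i, L i) :=
  AddMonoidHom.mk' (fun x => ∑ i, χ i (x i)) (fun x y => by
    rw [← Finset.sum_add_distrib]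
    exact Finset.sum_congr rfl fun i _ => map_add (χ i) (x i) (y i))

omit [DecidableEq ι] in
theorem sumCharacter_apply (χ : ∀ i, CharacterModule (L i)) (x : ∀ i, L i) :
    sumCharacter χ x = ∑ i, χ i (x i) := rfl

/-- every character of a finite product is a sum of characters of the factors -/
theorem sumCharacter_surjective :
    Function.Surjective (sumCharacter (L := L)) := by
  intro ψ
  let ψ' : (∀ i, L i) →+ AddCircle (1 : ℚ) := ψ
  let χ : ∀ i, CharacterModule (L i) := fun i => ψ'.comp (AddMonoidHom.single L i)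
  have hχ : ∀ i (y : L i), χ i y = ψ' (Pi.single i y) := fun i y => rfl
  refine ⟨χ, ?_⟩
  apply CharacterModule.ext
  intro x
  refine (sumCharacter_apply χ x).trans ?_
  rw [Finset.sum_congr rfl fun i _ => hχ i (x i)]
  have h2 : ψ' (∑ i, Pi.single i (x i)) = ∑ i, ψ' (Pi.single i (x i)) := map_sum ψ' _ _
  rw [← h2, Finset.univ_sum_single]
  rfl

end Pi

section Count

variable {J1 C1 E2 J2 H1 L1 : Type*} [AddCommGroup J1] [AddCommGroup C1] [AddCommGroup E2]
  [AddCommGroup J2] [AddCommGroup H1] [AddCommGroup L1]

/-- **The Poitou–Tate count.** Let `J1 --b--> C1 --δ--> E2 --a--> J2` be exact at `C1` and `E2`,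
let `loc : H1 → L1`, and suppose `C1 ≃ H1^∨`, `J1 ↠ L1^∨` such that `b` becomes the dual of `loc`.
Then `ker a ≃ (ker loc)^∨`. -/
theorem nonempty_ker_addEquiv_character_ker
    (b : J1 →+ C1) (δ : C1 →+ E2) (a : E2 →+ J2)
    (hbδ : ∀ c, δ c = 0 ↔ ∃ j, b j = c)
    (hδa : ∀ e, a e = 0 ↔ ∃ c, δ c = e)
    (loc : H1 →+ L1)
    (φC : C1 ≃+ CharacterModule H1)
    (φJ : J1 → CharacterModule L1) (hφJ : Function.Surjective φJ)
    (hcomm : ∀ j x, φC (b j) x = φJ j (loc x)) :
    Nonempty (a.ker ≃+ CharacterModule loc.ker) := by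
  -- restriction of characters to `ker loc`
  let r : C1 →+ CharacterModule loc.ker :=
    AddMonoidHom.mk' (fun c => (φC c).comp loc.ker.subtype) (fun c c' => by
      apply CharacterModule.ext
      intro x
      change φC (c + c') (x : H1) = φC c (x : H1) + φC c' (x : H1)
      rw [map_add]
      rfl)
  have hr : ∀ c (x : loc.ker), r c x = φC c (x : H1) := fun c x => rfl
  have hrsurj : Function.Surjective r := by
    intro χ
    obtain ⟨ψ, hψ⟩ := exists_character_extension loc.ker χ
    refine ⟨φC.symm ψ, ?_⟩
    apply CharacterModule.ext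
    intro x
    refine (hr _ x).trans ?_
    rw [φC.apply_symm_apply]
    exact hψ x
  have hker : r.ker = δ.ker := by
    ext c
    rw [AddMonoidHom.mem_ker, AddMonoidHom.mem_ker, hbδ]
    constructor
    · intro hc
      have h1 : ∀ x, loc x = 0 → φC c x = 0 := fun x hx => by
        have h2 := congrArg (fun χ : CharacterModule loc.ker => χ ⟨x, hx⟩) hc
        exact h2
      obtain ⟨ψ, hψ⟩ := exists_character_comp_eq loc (φC c) h1
      obtain ⟨j, hj⟩ := hφJ ψ
      refine ⟨j, φC.injective ?_⟩
      apply CharacterModule.ext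
      intro x
      refine (hcomm j x).trans ?_
      rw [hj]
      exact hψ x
    · rintro ⟨j, rfl⟩
      apply CharacterModule.ext
      intro x
      refine (hr _ x).trans ((hcomm j (x : H1)).trans ?_)
      have h1 : loc (x : H1) = 0 := x.2
      rw [h1]
      exact map_zero (φJ j)
  have hrange : δ.range = a.ker := by
    ext e
    rw [AddMonoidHom.mem_range, AddMonoidHom.mem_ker, hδa]
  let e1 : C1 ⧸ r.ker ≃+ CharacterModule loc.ker :=
    QuotientAddGroup.quotientKerEquivOfSurjective r hrsurj
  let e2 : C1 ⧸ δ.ker ≃+ δ.range := QuotientAddGroup.quotientKerEquivRange δ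
  let e3 : C1 ⧸ r.ker ≃+ C1 ⧸ δ.ker := QuotientAddGroup.quotientAddEquivOfEq hker
  let e4 : δ.range ≃+ a.ker := AddEquiv.addSubgroupCongr hrange
  exact ⟨((e4.symm.trans e2.symm).trans e3.symm).trans e1⟩

end Count

end Fermat.Agent.CFT.Bridge
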