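/-
S55 / CFT (PT7, Prelude bridge) — helper6.
The arithmetic instance of helper9's `PTDatum`: `E_S → J_S → C` over `(Γ, 𝒰_S)`, local groups
`G_q` (`q ∈ S`) with their fine bases, `B_q` (fine local units), `J_v` (coarse local units),
`J_S ≅ ⊕ coindSm J_v` (helper7's Shapiro), as a function of the class-formation inputs; and the
passage from the main theorem of the engine to `ExtEngine p S`.
-/
import Mathlib
import Fermat.Agent.CFT.Bridge.Assemble_helper6
import Fermat.Agent.CFT.Sm.PTDatum_helper9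
import Fermat.Agent.CFT.Arith.SmObjects_helper7
import Fermat.Agent.CFT.Arith.DSm_helper7

set_option autoImplicit false

open CategoryTheory CategoryTheory.Abelian groupCohomology ExtCitation

namespace Fermat.Agent.CFT.Bridge

open Fermat.Agent.CFT.Sm Fermat.Agent.CFT.Arith Fermat.Agent.CFT.Local

/-- `Ω = AlgebraicClosure ℚ`. -/
local notation "Ω" => AlgebraicClosure ℚ
/-- `Γ = Gal(Ω/ℚ)`. -/
local notation "Γ" => (AlgebraicClosure ℚ ≃ₐ[ℚ] AlgebraicClosure ℚ)

/-! ### (CO) the comparison `J_v → B_ℓ` -/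

section CO

variable (S : Finset Nat.Primes) (ℓ : ℕ) [Fact ℓ.Prime]

/-- the inclusion `J_v = (ℚ_S ℚ_ℓ)ˣ ⊆ B_ℓ` -/
noncomputable def jvToB : levelUnitsS S ℓ →* levelUnits ℓ :=
  Subgroup.inclusion levelUnitsS_le_levelUnits

theorem coe_jvToB (x : levelUnitsS S ℓ) :
    ((jvToB S ℓ x : levelUnits ℓ) : (PadicAlgCl ℓ)ˣ) = (x : (PadicAlgCl ℓ)ˣ) := rfl

/-- the inclusion `J_v ⊆ B_ℓ` as a morphism of representations of `G_ℓ` -/
noncomputable def jvToBHom : levelUnitsSRep S ℓ ⟶ levelUnitsRep ℓ :=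
  Rep.ofHom
    { toLinearMap := (MonoidHom.toAdditive (jvToB S ℓ)).toIntLinearMap
      isIntertwining' := fun _ => LinearMap.ext fun _ => rfl }

theorem jvToBHom_apply (x : (levelUnitsSRep S ℓ).V) :
    (jvToBHom S ℓ).hom x =
      Additive.ofMul (jvToB S ℓ (Additive.toMul (α := levelUnitsS S ℓ) x)) := rfl

theorem jvToBHom_injective : Function.Injective (jvToBHom S ℓ).hom := by
  intro x y h
  have h1 : jvToB S ℓ (Additive.toMul (α := levelUnitsS S ℓ) x) =
      jvToB S ℓ (Additive.toMul (α := levelUnitsS S ℓ) y) := Additive.ofMul.injective h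
  have h2 := Subgroup.inclusion_injective levelUnitsS_le_levelUnits h1
  exact Additive.toMul.injective h2

/-- the image of `J_v → B_ℓ` consists of the coarse-smooth vectors -/
theorem exists_jvToBHom_eq (b : (levelUnitsRep ℓ).V)
    (hb : ∃ U ∈ ((levelBasis S).comap (localGaloisToGlobal ℓ)).sets,
      ∀ g ∈ U, (levelUnitsRep ℓ).ρ g b = b) :
    ∃ j : (levelUnitsSRep S ℓ).V, (jvToBHom S ℓ).hom j = b := by
  obtain ⟨U, ⟨V, ⟨F, hF, rfl⟩, rfl⟩, hfix⟩ := hb
  have h1 : ∀ τ ∈ (localLevel ℓ F).fixingSubgroup, τ • (toB b) = toB b := by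
    intro τ hτ
    have h2 := hfix τ ((mem_fixingSubgroup_localLevel_iff F τ).1 hτ)
    exact congrArg toB h2
  have h3 := (levelUnits_fixed_iff F (toB b)).1 h1
  have h4 : ((toB b : levelUnits ℓ) : (PadicAlgCl ℓ)ˣ) ∈ levelUnitsS S ℓ := ⟨F, hF, h3⟩
  refine ⟨Additive.ofMul ⟨_, h4⟩, ?_⟩
  apply toB_injective
  apply Subtype.ext
  rfl

end CO

/-! ### The datum -/

section Datum

variable {p : ℕ} [Fact p.Prime] (S : Finset Nat.Primes)

/-- the local groups -/
abbrev locGroup (v : ↥S) : Type := primeLocalGaloisGroup v.1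

/-- the localisation homomorphisms -/
noncomputable abbrev locHom (v : ↥S) : locGroup S v →* Γ := primeLocalToGlobal v.1

/-- the fine local bases -/
noncomputable abbrev locFine (v : ↥S) : OpenBasis (locGroup S v) := locBasis v.1

/-- the coarse local module `J_v` -/
noncomputable def JvSm' (v : ↥S) : SmRep ℤ ((levelBasis S).comap (locHom S v)) :=
  letI : Fact ((v.1 : Nat.Primes) : ℕ).Prime := ⟨v.1.2⟩
  JvSm S ((v.1 : Nat.Primes) : ℕ)

/-- `κ_v : J_v → B_v` -/
noncomputable def kappa (v : ↥S) : (JvSm' S v).obj ⟶ (BSm v.1).obj :=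
  letI : Fact ((v.1 : Nat.Primes) : ℕ).Prime := ⟨v.1.2⟩
  jvToBHom S ((v.1 : Nat.Primes) : ℕ)

theorem kappa_injective (v : ↥S) : Function.Injective (kappa S v).hom :=
  letI : Fact ((v.1 : Nat.Primes) : ℕ).Prime := ⟨v.1.2⟩
  jvToBHom_injective S ((v.1 : Nat.Primes) : ℕ)

theorem kappa_range (v : ↥S) (b : (BSm v.1).obj.V)
    (hb : ∃ U ∈ ((levelBasis S).comap (locHom S v)).sets, ∀ g ∈ U, (BSm v.1).obj.ρ g b = b) :
    ∃ j : (JvSm' S v).obj.V, (kappa S v).hom j = b :=
  letI : Fact ((v.1 : Nat.Primes) : ℕ).Prime := ⟨v.1.2⟩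
  exists_jvToBHom_eq S ((v.1 : Nat.Primes) : ℕ) b hb

/-- the Shapiro isomorphism for `v` -/
noncomputable def shapiroSmIso' (v : ↥S) :
    JSlSm S ((v.1 : Nat.Primes) : ℕ) ≅
      (coindSm ℤ (levelBasis S) ((levelBasis S).comap (locHom S v)) (locHom S v)).obj (JvSm' S v) :=
  letI : Fact ((v.1 : Nat.Primes) : ℕ).Prime := ⟨v.1.2⟩
  shapiroSmIso S ((v.1 : Nat.Primes) : ℕ)

/-- inclusion of the `v`-component -/
noncomputable def inclV (v : ↥S) :
    (coindSm ℤ (levelBasis S) ((levelBasis S).comap (locHom S v)) (locHom S v)).obj (JvSm' S v) ⟶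
      JSSm S :=
  (shapiroSmIso' S v).inv ≫ inclJSlSm S v

/-- projection onto the `v`-component -/
noncomputable def projV (v : ↥S) :
    JSSm S ⟶
      (coindSm ℤ (levelBasis S) ((levelBasis S).comap (locHom S v)) (locHom S v)).obj (JvSm' S v) :=
  projJSlSm S v ≫ (shapiroSmIso' S v).hom

theorem sum_projV_inclV : ∑ v : ↥S, projV S v ≫ inclV S v = 𝟙 (JSSm S) := by
  have h : ∀ v : ↥S, projV S v ≫ inclV S v = projJSlSm S v ≫ inclJSlSm S v := by
    intro v
    unfold projV inclV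
    rw [Category.assoc, Iso.hom_inv_id_assoc]
  rw [Finset.sum_congr rfl fun v _ => h v]
  exact sum_projJSlSm_inclJSlSm

/-- `E_S → B_v` is `E_S → J_S → coindSm J_v → J_v → B_v` (evaluation at `1`) -/
theorem esToBSm_eq_kappa (v : ↥S) (e : (ESSm S).obj.V) :
    (esToBSm S v.1).hom.hom e =
      (kappa S v).hom (coindSmFun (locHom S v)
        ((projV S v).hom.hom ((diagESSm S).hom.hom e)) 1) := by
  let _ : Fact ((v.1 : Nat.Primes) : ℕ).Prime := ⟨v.1.2⟩
  apply toB_injective (q := ((v.1 : Nat.Primes) : ℕ))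
  apply Subtype.ext
  apply Units.ext
  change padicEmbedding ((v.1 : Nat.Primes) : ℕ) (((Additive.toMul (α := ES S) e : ES S) : Ωˣ) : Ω) =
    (((shapiroFun S ((v.1 : Nat.Primes) : ℕ) (diagES S (Additive.toMul (α := ES S) e) v) 1 :
      levelUnitsS S ((v.1 : Nat.Primes) : ℕ)) : (PadicAlgCl ((v.1 : Nat.Primes) : ℕ))ˣ) :
        PadicAlgCl ((v.1 : Nat.Primes) : ℕ))
  rw [coe_shapiroFun, one_smul]
  exact (coe_toPadicUnits_ofUnits ((v.1 : Nat.Primes) : ℕ)
    ((Additive.toMul (α := ES S) e : ES S) : Ωˣ)).symm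

omit [Fact p.Prime] in
/-- (LG') for the coinduced module from (LG') for `(ℚ_ℓ ⊗ ℚ_S)ˣ` -/
theorem lg_of_JSl {C : SmRep ℤ (levelBasis S)} (π : JSSm S ⟶ C) (v : ↥S)
    (h : ∀ z : smH (levelBasis S) (JSlSm S ((v.1 : Nat.Primes) : ℕ)) 2, p • z = 0 →
      Sm.smHCoeff (inclJSlSm S v ≫ π) 2 z = 0 → z = 0)
    (z : smH (levelBasis S)
      ((coindSm ℤ (levelBasis S) ((levelBasis S).comap (locHom S v)) (locHom S v)).obj
        (JvSm' S v)) 2)
    (hz : p • z = 0)
    (hz' : ((smHFunctor ℤ (levelBasis S) 2).map (inclV S v ≫ π)).hom z = 0) : z = 0 := by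
  have h1 : Sm.smHCoeff (shapiroSmIso' S v).inv 2 z = 0 := by
    apply h
    · rw [← map_nsmul, hz, map_zero]
    · rw [← Sm.smHCoeff_comp]
      have h2 : (shapiroSmIso' S v).inv ≫ inclJSlSm S v ≫ π = inclV S v ≫ π := by
        unfold inclV
        rw [Category.assoc]
      rw [h2]
      exact hz'
  apply smHCoeff_injective_of_iso (shapiroSmIso' S v).symm 2
  exact h1.trans (map_zero _).symm

variable (p)

/-- **The arithmetic Poitou–Tate datum**, as a function of the global `p`-class formation on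
`𝔻 = DSm S`, the fine local formations on `B_v`, local Hilbert 90 and (LG'). -/
noncomputable def arithDatum (hpS : pPrime p ∈ S)
    (form : PClassFormation (levelBasis S) p (DSm S)) (U₀ : Subgroup Γ)
    (hU₀ : (levelBasis S).IsOpen U₀) (glob : form.IsGlobalBelow U₀)
    (locForm : ∀ v : ↥S, PClassFormation (locFine S v) p (BSm v.1))
    (h90 : ∀ (v : ↥S) (W : Subgroup (locGroup S v)), (locFine S v).IsOpen W →
      ∀ x : smH ((locFine S v).sub W) (resSub (BSm v.1) W) 1, x = 0)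
    (lg : ∀ (v : ↥S) (z : smH (levelBasis S) (JSlSm S ((v.1 : Nat.Primes) : ℕ)) 2), p • z = 0 →
      Sm.smHCoeff (inclJSlSm S v ≫ piSm S) 2 z = 0 → z = 0) :
    PTDatum (levelBasis S) p (locHom S) (locFine S) where
  E := ESSm S
  J := JSSm S
  C := DSm S
  i := diagESSm S
  π := piSm S
  i_inj := diagESHom_injective ⟨_, hpS⟩
  comp_zero := fun e => (diagESHom_piHom_exact (S := S) _).2 ⟨e, rfl⟩
  exact := fun j hj => (diagESHom_piHom_exact (S := S) j).1 hj
  coker_div := exists_eq_piHom_add_nsmul (Fact.out : p.Prime) hpS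
  coker_tor := exists_piHom_eq_of_nsmul (Fact.out : p.Prime) hpS
  form := form
  U₀ := U₀
  hU₀ := hU₀
  glob := glob
  fine := fun v => locBasis_finer S v.1
  Jv := JvSm' S
  B := fun v => BSm v.1
  locForm := locForm
  h90 := h90
  κ := kappa S
  κ_inj := kappa_injective S
  κ_range := kappa_range S
  incl := inclV S
  proj := projV S
  sum := sum_projV_inclV S
  lg := fun v z hz hz' => lg_of_JSl S (piSm S) v (lg v) z hz hz'
  κE := fun v => esToBSm S v.1
  hκE := esToBSm_eq_kappa S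

section Main

variable {S p}
variable (hpS : pPrime p ∈ S)
    (form : PClassFormation (levelBasis S) p (DSm S)) (U₀ : Subgroup Γ)
    (hU₀ : (levelBasis S).IsOpen U₀) (glob : form.IsGlobalBelow U₀)
    (locForm : ∀ v : ↥S, PClassFormation (locFine S v) p (BSm v.1))
    (h90 : ∀ (v : ↥S) (W : Subgroup (locGroup S v)), (locFine S v).IsOpen W →
      ∀ x : smH ((locFine S v).sub W) (resSub (BSm v.1) W) 1, x = 0)
    (lg : ∀ (v : ↥S) (z : smH (levelBasis S) (JSlSm S ((v.1 : Nat.Primes) : ℕ)) 2), p • z = 0 →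
      Sm.smHCoeff (inclJSlSm S v ≫ piSm S) 2 z = 0 → z = 0)

theorem arithDatum_extSha (X : SmRep ℤ (levelBasis S)) (n : ℕ) :
    (arithDatum p S hpS form U₀ hU₀ glob locForm h90 lg).extSha X n = extSha S X n := rfl

theorem arithDatum_shaOne (X : SmRep ℤ (levelBasis S)) :
    (arithDatum p S hpS form U₀ hU₀ glob locForm h90 lg).shaOne X =
      (shaSm S X 1).toAddSubgroup := by
  ext x
  rw [Submodule.mem_toAddSubgroup, mem_shaSm_iff, PTDatum.shaOne, AddSubgroup.mem_iInf]
  exact Iff.rfl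

/-- **`ExtEngine` from the main theorem of the engine** applied to the arithmetic datum. -/
theorem extEngine_of_main
    (hmain : ∀ (X : SmRep ℤ (levelBasis S)) [@Module.Finite ℤ X.obj.V _ _ X.obj.hV2],
      (∀ x : X.obj.V, p • x = 0) →
      Nonempty ((arithDatum p S hpS form U₀ hU₀ glob locForm h90 lg).extSha X 2 ≃+
        CharacterModule ((arithDatum p S hpS form U₀ hU₀ glob locForm h90 lg).shaOne X))) :
    ExtEngine p S := by
  intro X _ hX
  obtain ⟨e⟩ := hmain X hX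
  have h1 := arithDatum_shaOne hpS form U₀ hU₀ glob locForm h90 lg X
  let e2 : (arithDatum p S hpS form U₀ hU₀ glob locForm h90 lg).shaOne X ≃+ shaSm S X 1 :=
    AddEquiv.addSubgroupCongr h1
  let e3 : CharacterModule ((arithDatum p S hpS form U₀ hU₀ glob locForm h90 lg).shaOne X) ≃+
      CharacterModule (shaSm S X 1) := AddEquiv.addMonoidHomCongrLeft e2
  exact ⟨e.trans e3⟩

end Main

end Datum

end Fermat.Agent.CFT.Bridge
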