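/-
S55 / CFT (PT7, Prelude bridge) — helper6.
`HomCompare p S` from helper5's `p`-divisible comparison (U3).
-/
import Mathlib
import Fermat.Agent.CFT.Bridge.Assemble_helper6
import Fermat.Agent.CFT.Sm.HomCompare_helper5

set_option autoImplicit false

open CategoryTheory CategoryTheory.Abelian groupCohomology ExtCitation

namespace Fermat.Agent.CFT.Bridge

open Fermat.Agent.CFT.Sm Fermat.Agent.CFT.Arith Fermat.Agent.CFT.Local

/-- `Ω = AlgebraicClosure ℚ`. -/
local notation "Ω" => AlgebraicClosure ℚ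
/-- `Γ = Gal(Ω/ℚ)`. -/
local notation "Γ" => (AlgebraicClosure ℚ ≃ₐ[ℚ] AlgebraicClosure ℚ)

variable {p : ℕ} [Fact p.Prime] {S : Finset Nat.Primes}

/-- `E_S` is `p`-divisible (`p ∈ S`) -/
theorem pDiv_ESSm (hpS : pPrime p ∈ S) : pDivProp (levelBasis S) p (ESSm S) :=
  fun a => ESRep_divisible (Fact.out : p.Prime) hpS a

/-- the restriction of `E_S` to `G_q` is `p`-divisible -/
theorem pDiv_locSm_ESSm (hpS : pPrime p ∈ S) (q : Nat.Primes) :
    pDivProp (locBasis q) p (locSm S q (ESSm S)) :=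
  fun a => ESRep_divisible (Fact.out : p.Prime) hpS a

/-- `B_q` is `p`-divisible -/
theorem pDiv_BSm (p : ℕ) [Fact p.Prime] (q : Nat.Primes) : pDivProp (locBasis q) p (BSm q) := by
  have : Fact ((q : Nat.Primes) : ℕ).Prime := ⟨q.2⟩
  intro b
  have hb : ∃ b' : (levelUnitsRep (q : ℕ)).V, b' = b := ⟨b, rfl⟩
  obtain ⟨b', rfl⟩ := hb
  obtain ⟨y, hy⟩ := exists_pow_eq_levelUnits (q := (q : ℕ)) p (Fact.out : p.Prime) (toB b')
  exact ⟨ofB y, congrArg ofB hy⟩

theorem locHomSm_hom_eq (q : Nat.Primes) (X A : SmRep ℤ (levelBasis S))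
    [@Module.Finite ℤ X.obj.V _ _ X.obj.hV2] :
    (locHomSm S q X A).hom = resHomSmHom (primeLocalToGlobal q) (locBasis_finer S q) X A := by
  apply ObjectProperty.hom_ext
  rfl

/-- **`HomCompare p S`** (from helper5's (U3)). -/
theorem homCompare (hpS : pPrime p ∈ S) : HomCompare p S := by
  apply homCompare_of_natural hpS
  intro X _ hX
  refine ⟨smHomCompare p X hX (ESSm S) (pDiv_ESSm hpS) 2,
    fun q => smHomCompare p (locSm S q.1 X) hX (BSm q.1) (pDiv_BSm p q.1) 2,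
    fun q => smHomCompare p (locSm S q.1 X) hX (locSm S q.1 (ESSm S)) (pDiv_locSm_ESSm hpS q.1) 2,
    ?_, ?_, ?_⟩
  · intro q e
    exact AddEquiv.map_eq_zero_iff _
  · intro q e
    exact smHomCompare_naturality p (locSm S q.1 X) hX (pDiv_locSm_ESSm hpS q.1)
      (pDiv_BSm p q.1) (esToBSm S q.1) 2 e
  · intro q e
    have h := smHomCompare_res (primeLocalToGlobal q.1) (locBasis_finer S q.1) p X hX (ESSm S)
      (pDiv_ESSm hpS) 2 e
    rw [locHomSm_hom_eq]
    exact h

end Fermat.Agent.CFT.Bridge
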