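/-
S55 / CFT — helper6.
Hilbert's Theorem 90 for smooth cocycles (cocycle form, infinite level): a `1`-cocycle
`f : W → Pˣ` of a group `W` of automorphisms of a field `P` which is constant on the cosets of a
subgroup `V` of finite index, `V` being "closed" (the full stabiliser of its fixed field),
is the coboundary of a `V`-fixed element.
-/
import Mathlib

set_option autoImplicit false

namespace Fermat.Agent.CFT.Bridge

section Hilbert90

variable {P : Type*} [Field P] {W : Type*} [Group W] [MulSemiringAction W P]

/-- the multiplicative monoid of `V`-fixed elements -/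
def fixedSubmonoid (V : Subgroup W) : Submonoid P where
  carrier := {x | ∀ v ∈ V, v • x = x}
  mul_mem' := fun {x y} hx hy v hv => by rw [smul_mul', hx v hv, hy v hv]
  one_mem' := fun v _ => smul_one v

theorem mem_fixedSubmonoid_iff (V : Subgroup W) (x : P) :
    x ∈ fixedSubmonoid (P := P) V ↔ ∀ v ∈ V, v • x = x := Iff.rfl

variable (V : Subgroup W)

/-- the character `x ↦ g • x` of the monoid of `V`-fixed elements -/
def fixedChar (g : W) : fixedSubmonoid (P := P) V →* P where
  toFun x := g • (x : P)
  map_one' := smul_one g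
  map_mul' x y := smul_mul' g (x : P) (y : P)

theorem fixedChar_apply (g : W) (x : fixedSubmonoid (P := P) V) :
    fixedChar V g x = g • (x : P) := rfl

theorem fixedChar_mul_of_mem (g : W) {v : W} (hv : v ∈ V) :
    fixedChar (P := P) V (g * v) = fixedChar V g := by
  apply MonoidHom.ext
  intro x
  rw [fixedChar_apply, fixedChar_apply, mul_smul, x.2 v hv]

variable [V.FiniteIndex]

/-- **Hilbert 90 for smooth cocycles.** -/
theorem exists_smul_eq_of_smooth_cocycle
    (hV : ∀ g : W, (∀ x : P, (∀ v ∈ V, v • x = x) → g • x = x) → g ∈ V)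
    (f : W → P) (hf0 : ∀ g, f g ≠ 0) (hf : ∀ g h, f (g * h) = f g * g • f h)
    (hfV : ∀ g, ∀ v ∈ V, f (g * v) = f g) :
    ∃ b : P, b ≠ 0 ∧ (∀ v ∈ V, v • b = b) ∧ ∀ g, f g * g • b = b := by
  classical
  have : Fintype (W ⧸ V) := Subgroup.fintypeQuotientOfFiniteIndex
  -- the characters attached to the cosets are pairwise distinct
  have hinj : Function.Injective
      (fun h : W ⧸ V => fixedChar (P := P) V (Quotient.out h)) := by
    intro h h' hh
    have h1 : (Quotient.out h)⁻¹ * Quotient.out h' ∈ V := by
      apply hV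
      intro x hx
      have h2 := congrArg (fun χ : fixedSubmonoid (P := P) V →* P => χ ⟨x, hx⟩) hh
      have h3 : Quotient.out h • x = Quotient.out h' • x := h2
      rw [mul_smul, ← h3, inv_smul_smul]
    have h4 : ((Quotient.out h : W) : W ⧸ V) = ((Quotient.out h' : W) : W ⧸ V) :=
      QuotientGroup.eq.2 h1
    rw [QuotientGroup.out_eq', QuotientGroup.out_eq'] at h4
    exact h4
  have hli : LinearIndependent P
      (fun h : W ⧸ V => (fixedChar (P := P) V (Quotient.out h) : fixedSubmonoid (P := P) V → P)) :=
    LinearIndependent.comp (linearIndependent_monoidHom (fixedSubmonoid (P := P) V) P)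
      (fun h : W ⧸ V => fixedChar (P := P) V (Quotient.out h)) hinj
  -- hence some value of `∑ f(h) h(z)` is nonzero
  have hex : ∃ z : fixedSubmonoid (P := P) V,
      ∑ h : W ⧸ V, f (Quotient.out h) * fixedChar V (Quotient.out h) z ≠ 0 := by
    by_contra hcon0
    have hcon : ∀ z : fixedSubmonoid (P := P) V,
        ∑ h : W ⧸ V, f (Quotient.out h) * fixedChar V (Quotient.out h) z = 0 := fun z => by
      by_contra h
      exact hcon0 ⟨z, h⟩
    have h0 : ∑ h : W ⧸ V, f (Quotient.out h) •
        (fixedChar (P := P) V (Quotient.out h) : fixedSubmonoid (P := P) V → P) = 0 := by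
      funext z
      rw [Finset.sum_apply]
      exact hcon z
    have h1 := (Fintype.linearIndependent_iff.1 hli) (fun h => f (Quotient.out h)) h0
      ((1 : W) : W ⧸ V)
    exact hf0 _ h1
  obtain ⟨z, hz⟩ := hex
  set b : P := ∑ h : W ⧸ V, f (Quotient.out h) * fixedChar V (Quotient.out h) z with hb
  have hf1 : f 1 = 1 := by
    have h1 := hf 1 1
    rw [mul_one, one_smul] at h1
    have h2 : f 1 * 1 = f 1 * f 1 := by rw [mul_one]; exact h1
    exact (mul_left_cancel₀ (hf0 1) h2).symm
  -- the key identity
  have hkey : ∀ g : W, f g * g • b = b := by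
    intro g
    have hterm : ∀ h : W ⧸ V, f g * g • (f (Quotient.out h) * fixedChar V (Quotient.out h) z) =
        f (Quotient.out (g • h)) * fixedChar V (Quotient.out (g • h)) z := by
      intro h
      have h1 : (g * Quotient.out h)⁻¹ * Quotient.out (g • h) ∈ V := by
        apply QuotientGroup.eq.1
        rw [QuotientGroup.out_eq']
        have h2 : ((g * Quotient.out h : W) : W ⧸ V) = g • ((Quotient.out h : W) : W ⧸ V) := rfl
        rw [h2, QuotientGroup.out_eq']
      obtain ⟨v, hv, hv'⟩ : ∃ v ∈ V, Quotient.out (g • h) = g * Quotient.out h * v :=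
        ⟨_, h1, by rw [mul_inv_cancel_left]⟩
      rw [hv', hfV _ v hv, fixedChar_mul_of_mem V _ hv, hf g (Quotient.out h), smul_mul',
        fixedChar_apply, fixedChar_apply, mul_smul, mul_assoc]
    rw [hb, Finset.smul_sum, Finset.mul_sum, Finset.sum_congr rfl fun h _ => hterm h]
    exact Fintype.sum_equiv (MulAction.toPerm g) _ _ (fun h => rfl)
  refine ⟨b, hz, fun v hv => ?_, hkey⟩
  have h1 := hkey v
  have h2 : f v = 1 := by
    have h3 := hfV 1 v hv
    rw [one_mul] at h3
    rw [h3, hf1]
  rw [h2, one_mul] at h1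
  exact h1

end Hilbert90

end Fermat.Agent.CFT.Bridge
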