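/-
S55 / CFT (PT7, Prelude bridge) — helper6.
(B-H90) Local Hilbert 90 at infinite level: `H¹(W, B_q) = 0` in smooth cohomology for every open
subgroup `W` of `G_q` (with the fine basis `locBasis q`), `B_q = BSm q` the fine local units.
-/
import Mathlib
import Fermat.Agent.CFT.Bridge.Hilbert90_helper6
import Fermat.Agent.CFT.Bridge.LocalMu_helper6
import Fermat.Agent.CFT.Sm.ClassFormation_helper9

set_option autoImplicit false

open CategoryTheory groupCohomology ExtCitation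

namespace Fermat.Agent.CFT.Bridge

open Fermat.Agent.CFT.Sm Fermat.Agent.CFT.Arith Fermat.Agent.CFT.Local

/-- `Ω = AlgebraicClosure ℚ`. -/
local notation "Ω" => AlgebraicClosure ℚ
/-- `Γ = Gal(Ω/ℚ)`. -/
local notation "Γ" => (AlgebraicClosure ℚ ≃ₐ[ℚ] AlgebraicClosure ℚ)

section Fine

variable (ℓ : ℕ) [Fact ℓ.Prime]

/-- the fine basis of `G_ℓ` -/
noncomputable abbrev fineBasis : OpenBasis (PadicAlgCl ℓ ≃ₐ[ℚ_[ℓ]] PadicAlgCl ℓ) :=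
  fullBasis.comap (localGaloisToGlobal ℓ)

variable {ℓ}

/-- **Hilbert 90 for level-constant cocycles with values in `B_ℓ`**, cocycle form. -/
theorem exists_coboundary_levelUnits (W : Subgroup (PadicAlgCl ℓ ≃ₐ[ℚ_[ℓ]] PadicAlgCl ℓ))
    (hW : (fineBasis ℓ).IsOpen W) (c : W → (levelUnitsRep ℓ).V)
    (hc : ∀ g h : W, c (g * h) =
      (levelUnitsRep ℓ).ρ (g : PadicAlgCl ℓ ≃ₐ[ℚ_[ℓ]] PadicAlgCl ℓ) (c h) + c g)
    (hlc : ∃ H : Subgroup W, ((fineBasis ℓ).sub W).IsOpen H ∧ ∀ g s, s ∈ H → c (g * s) = c g) :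
    ∃ b : (levelUnitsRep ℓ).V, ∀ g : W,
      c g = (levelUnitsRep ℓ).ρ (g : PadicAlgCl ℓ ≃ₐ[ℚ_[ℓ]] PadicAlgCl ℓ) b - b := by
  obtain ⟨H, ⟨U', ⟨U, ⟨V₀, ⟨F, hF, rfl⟩, rfl⟩, rfl⟩, hU'H⟩, hH⟩ := hlc
  obtain ⟨U₁, ⟨V₁, ⟨F₁, hF₁, rfl⟩, rfl⟩, hU₁W⟩ := hW
  -- a common finer level
  have hF₂ : IsFullLevel (F ⊔ F₁) := hF.sup hF₁
  set F₂ : IntermediateField ℚ Ω := F ⊔ F₁ with hF₂def
  set U₂ : Subgroup (PadicAlgCl ℓ ≃ₐ[ℚ_[ℓ]] PadicAlgCl ℓ) := (localLevel ℓ F₂).fixingSubgroup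
    with hU₂
  have hU₂F : U₂ ≤ F.fixingSubgroup.comap (localGaloisToGlobal ℓ) := by
    intro τ hτ
    have h1 := (mem_fixingSubgroup_localLevel_iff F₂ τ).1 hτ
    exact IntermediateField.fixingSubgroup_antitone (le_sup_left : F ≤ F₂) h1
  have hU₂W : U₂ ≤ W := by
    intro τ hτ
    apply hU₁W
    have h1 := (mem_fixingSubgroup_localLevel_iff F₂ τ).1 hτ
    exact IntermediateField.fixingSubgroup_antitone (le_sup_right : F₁ ≤ F₂) h1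
  set V : Subgroup W := U₂.subgroupOf W with hV
  have hfin : U₂.FiniteIndex := by
    rw [hU₂, fixingSubgroup_localLevel]
    exact (fineBasis ℓ).finiteIndex _ ⟨_, ⟨F₂, hF₂, rfl⟩, rfl⟩
  have : V.FiniteIndex := by
    refine ⟨fun h0 => hfin.index_ne_zero ?_⟩
    have h1 : U₂.relIndex W = 0 := h0
    exact Subgroup.index_eq_zero_of_relIndex_eq_zero h1
  have hVH : V ≤ H := by
    intro g hg
    apply hU'H
    exact hU₂F hg
  -- the multiplicative cocycle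
  let f : W → PadicAlgCl ℓ := fun g => (((toB (c g) : levelUnits ℓ) : (PadicAlgCl ℓ)ˣ) : PadicAlgCl ℓ)
  have hf0 : ∀ g, f g ≠ 0 := fun g => Units.ne_zero _
  have hf : ∀ g h : W, f (g * h) = f g * g • f h := by
    intro g h
    have h1 := congrArg (fun t => (((toB t : levelUnits ℓ) : (PadicAlgCl ℓ)ˣ) : PadicAlgCl ℓ))
      (hc g h)
    refine h1.trans ?_
    rw [mul_comm]
    rfl
  have hfV : ∀ g, ∀ v ∈ V, f (g * v) = f g := by
    intro g v hv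
    exact congrArg (fun t => (((toB t : levelUnits ℓ) : (PadicAlgCl ℓ)ˣ) : PadicAlgCl ℓ))
      (hH g v (hVH hv))
  have hVcl : ∀ g : W, (∀ x : PadicAlgCl ℓ, (∀ v ∈ V, v • x = x) → g • x = x) → g ∈ V := by
    intro g hg
    change (g : PadicAlgCl ℓ ≃ₐ[ℚ_[ℓ]] PadicAlgCl ℓ) ∈ U₂
    rw [hU₂, IntermediateField.mem_fixingSubgroup_iff]
    intro x hx
    apply hg
    intro v hv
    have hv' : (v : PadicAlgCl ℓ ≃ₐ[ℚ_[ℓ]] PadicAlgCl ℓ) ∈ U₂ := hv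
    rw [hU₂, IntermediateField.mem_fixingSubgroup_iff] at hv'
    exact hv' x hx
  obtain ⟨b, hb0, hbV, hb⟩ := exists_smul_eq_of_smooth_cocycle V hVcl f hf0 hf hfV
  -- `b` lies in the level `F₂`
  have hbmem : b ∈ localLevel ℓ F₂ := by
    apply mem_of_fixed
    intro τ hτ
    exact hbV ⟨τ, hU₂W hτ⟩ hτ
  have hbinv : (Units.mk0 b hb0)⁻¹ ∈ levelUnits ℓ := by
    refine ⟨F₂, hF₂.1, ?_⟩
    rw [Units.val_inv_eq_inv_val]
    exact inv_mem hbmem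
  refine ⟨ofB ⟨(Units.mk0 b hb0)⁻¹, hbinv⟩, fun g => ?_⟩
  apply eq_sub_of_add_eq
  apply toB_injective
  apply Subtype.ext
  apply Units.ext
  have h1 : f g * (g : PadicAlgCl ℓ ≃ₐ[ℚ_[ℓ]] PadicAlgCl ℓ) b = b := hb g
  change f g * b⁻¹ = (g : PadicAlgCl ℓ ≃ₐ[ℚ_[ℓ]] PadicAlgCl ℓ) (b⁻¹)
  rw [map_inv₀]
  have hgb : (g : PadicAlgCl ℓ ≃ₐ[ℚ_[ℓ]] PadicAlgCl ℓ) b ≠ 0 := by
    intro h0
    rw [h0, mul_zero] at h1
    exact hb0 h1.symm
  rw [eq_comm, inv_eq_iff_eq_inv, mul_inv, inv_inv]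
  have h2 : (f g)⁻¹ * b = (f g)⁻¹ * (f g * (g : PadicAlgCl ℓ ≃ₐ[ℚ_[ℓ]] PadicAlgCl ℓ) b) := by
    rw [h1]
  rw [h2, ← mul_assoc, inv_mul_cancel₀ (hf0 g), one_mul]

/-- **local Hilbert 90 in smooth cohomology** (for the fine basis and any open subgroup) -/
theorem smH_one_eq_zero_fine (hsm : IsSmooth (fineBasis ℓ) (levelUnitsRep ℓ))
    (W : Subgroup (PadicAlgCl ℓ ≃ₐ[ℚ_[ℓ]] PadicAlgCl ℓ)) (hW : (fineBasis ℓ).IsOpen W)
    (x : smH ((fineBasis ℓ).sub W) (resSub (mkSm (fineBasis ℓ) (levelUnitsRep ℓ) hsm) W) 1) :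
    x = 0 := by
  apply smHToH_one_injective (resSub (mkSm (fineBasis ℓ) (levelUnitsRep ℓ) hsm) W)
  rw [map_zero]
  obtain ⟨c, hc, hcx⟩ := (mem_range_smHToH_one_iff
    (resSub (mkSm (fineBasis ℓ) (levelUnitsRep ℓ) hsm) W) _).1 ⟨x, rfl⟩
  rw [← hcx]
  apply (H1π_eq_zero_iff c).2
  obtain ⟨b, hb⟩ := exists_coboundary_levelUnits W hW (c : W → (levelUnitsRep ℓ).V)
    ((mem_cocycles₁_iff _).1 c.2) hc
  refine ⟨b, ?_⟩
  funext g
  exact (hb g).symm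

end Fine

/-- **(B-H90)** Hilbert 90 for `BSm q` in the literal shape of the field `h90` of `PTDatum`. -/
theorem h90_BSm (q : Nat.Primes) (W : Subgroup (primeLocalGaloisGroup q))
    (hW : (locBasis q).IsOpen W)
    (x : smH ((locBasis q).sub W) (resSub (BSm q) W) 1) : x = 0 :=
  letI : Fact ((q : Nat.Primes) : ℕ).Prime := ⟨q.2⟩
  smH_one_eq_zero_fine (ℓ := ((q : Nat.Primes) : ℕ)) (isSmooth_BRep q) W hW x

end Fermat.Agent.CFT.Bridge
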