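/-
S55 / CFT (PT7, Prelude bridge) — helper6.
The input `lg` of the arithmetic `PTDatum` from helper2's (LG') theorem, helper9's local
invariant `lamH` (I1), the fine local formations and the global formation on `𝔻 = DSm S`.
-/
import Mathlib
import Fermat.Agent.CFT.Bridge.Datum_helper6
import Fermat.Agent.CFT.Bridge.LocalH90_helper6
import Fermat.Agent.CFT.Sm.LocalCompare_helper9
import Fermat.Agent.CFT.Global.LG_helper2_Main

set_option autoImplicit false

open CategoryTheory CategoryTheory.Abelian groupCohomology ExtCitation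

namespace Fermat.Agent.CFT.Bridge

open Fermat.Agent.CFT.Sm Fermat.Agent.CFT.Arith Fermat.Agent.CFT.Local Fermat.Agent.CFT.PT4

/-- `Ω = AlgebraicClosure ℚ`. -/
local notation "Ω" => AlgebraicClosure ℚ
/-- `Γ = Gal(Ω/ℚ)`. -/
local notation "Γ" => (AlgebraicClosure ℚ ≃ₐ[ℚ] AlgebraicClosure ℚ)

variable {p : ℕ} [Fact p.Prime] (S : Finset Nat.Primes)

/-- the local comparison datum at `v ∈ S` -/
noncomputable def localDatum (v : ↥S) :
    PTLocalDatum (levelBasis S) (locHom S v) (locFine S v) where
  fine := locBasis_finer S v.1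
  Jv := JvSm' S v
  B := BSm v.1
  h90 := fun W hW x => h90_BSm v.1 W hW x
  κ := kappa S v
  κ_inj := kappa_injective S v
  κ_range := kappa_range S v

/-- the invariant map on `H²(Γ, (ℚ_ℓ ⊗ ℚ_S)ˣ)` induced by the fine local formation -/
noncomputable def invJSl (v : ↥S) (Fv : PClassFormation (locFine S v) p (BSm v.1)) :
    smH (levelBasis S) (JSlSm S ((v.1 : Nat.Primes) : ℕ)) 2 →+ AddCircle (1 : ℚ) :=
  ((localDatum S v).lamH p Fv).comp
    (Sm.smHCoeff (shapiroSmIso' S v).hom 2).toAddMonoidHom

theorem invJSl_inj (v : ↥S) (Fv : PClassFormation (locFine S v) p (BSm v.1))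
    (x : smH (levelBasis S) (JSlSm S ((v.1 : Nat.Primes) : ℕ)) 2) (hx : p • x = 0)
    (h : invJSl S v Fv x = 0) : x = 0 := by
  have h1 : Sm.smHCoeff (shapiroSmIso' S v).hom 2 x = 0 := by
    apply (localDatum S v).lamH_inj p Fv
    · have h2 := (map_nsmul (Sm.smHCoeff (shapiroSmIso' S v).hom 2) p x).symm
      exact h2.trans ((congrArg _ hx).trans (map_zero _))
    · exact h
  apply smHCoeff_injective_of_iso (shapiroSmIso' S v) 2
  exact h1.trans (map_zero _).symm

variable {S}

/-- **The input `lg` of `arithDatum`** from the global formation on `DSm S`, the fine local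
formations and the finite-level data `LevelClassData` (helper3's (E-LCD)). -/
theorem lg_of_levelClassData (hp2 : p ≠ 2) (hpS : pPrime p ∈ S)
    (form : PClassFormation (levelBasis S) p (DSm S))
    (locForm : ∀ v : ↥S, PClassFormation (locFine S v) p (BSm v.1))
    (hD : ∀ (v : ↥S) (F : IntermediateField ℚ Ω) [NumberField F] [IsGalois ℚ F]
      [(F.fixingSubgroup).Normal] (hF : IsLevel S F),
      Nonempty (LevelClassData S v.1 (inclJSlSm S v ≫ piSm S) F hF.1))
    (v : ↥S) (z : smH (levelBasis S) (JSlSm S ((v.1 : Nat.Primes) : ℕ)) 2) (hz : p • z = 0)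
    (hz' : Sm.smHCoeff (inclJSlSm S v ≫ piSm S) 2 z = 0) : z = 0 := by
  refine smH_two_map_JSl_eq_zero_imp hp2 hpS v.1 (inclJSlSm S v ≫ piSm S)
    (invJSl S v (locForm v)) (invJSl_inj S v (locForm v)) (hD v) ?_ z hz hz'
  intro V hV x hx
  have h1 := (form.baseU V hV).h1_bij.1
  apply h1
  change p • x = p • 0
  rw [hx, smul_zero]

end Fermat.Agent.CFT.Bridge
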