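/-
S55 / CFT (PT7, Prelude bridge) — helper6.
The last mile: S55 from (A) the global `p`-class formation on `𝔻 = DSm S`, (B) the fine local
formations on `B_q`, (C) the finite-level data `LevelClassData` for (LG'), and the main theorem of
the Poitou–Tate engine (for an arbitrary `PTDatum`).
-/
import Mathlib
import Fermat.Agent.CFT.Bridge.LG_helper6
import Fermat.Agent.CFT.Bridge.HomCompare_helper6
import Fermat.Agent.CFT.LocForm.Main_helper4

set_option autoImplicit false

open CategoryTheory CategoryTheory.Abelian groupCohomology ExtCitation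

namespace Fermat.Agent.CFT.Bridge

open Fermat.Agent.CFT.Sm Fermat.Agent.CFT.Arith Fermat.Agent.CFT.Local Fermat.Agent.CFT.PT4

/-- `Ω = AlgebraicClosure ℚ`. -/
local notation "Ω" => AlgebraicClosure ℚ
/-- `Γ = Gal(Ω/ℚ)`. -/
local notation "Γ" => (AlgebraicClosure ℚ ≃ₐ[ℚ] AlgebraicClosure ℚ)

variable {p : ℕ} [Fact p.Prime] (hp2 : p ≠ 2) (S : Finset Nat.Primes) (hpS : pPrime p ∈ S)

include hp2 hpS in
/-- `ExtEngine p S` from the class-formation inputs and the main theorem of the engine. -/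
theorem extEngine_of_inputs
    (form : PClassFormation (levelBasis S) p (DSm S)) (U₀ : Subgroup Γ)
    (hU₀ : (levelBasis S).IsOpen U₀) (glob : form.IsGlobalBelow U₀)
    (locForm : ∀ v : ↥S, PClassFormation (locFine S v) p (BSm v.1))
    (hD : ∀ (v : ↥S) (F : IntermediateField ℚ Ω) [NumberField F] [IsGalois ℚ F]
      [(F.fixingSubgroup).Normal] (hF : IsLevel S F),
      Nonempty (LevelClassData S v.1 (inclJSlSm S v ≫ piSm S) F hF.1))
    (hmain : ∀ (D : PTDatum (levelBasis S) p (locHom S) (locFine S))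
      (X : SmRep ℤ (levelBasis S)) [@Module.Finite ℤ X.obj.V _ _ X.obj.hV2],
      (∀ x : X.obj.V, p • x = 0) → Nonempty (D.extSha X 2 ≃+ CharacterModule (D.shaOne X))) :
    ExtEngine p S :=
  extEngine_of_main hpS form U₀ hU₀ glob locForm (fun v W hW x => h90_BSm v.1 W hW x)
    (lg_of_levelClassData hp2 hpS form locForm hD)
    (fun X _ hX => hmain _ X hX)

variable (M : Rep.{0} (ZMod p) Γ) [FiniteDimensional (ZMod p) M.V]
  (hsm : ∀ m : M, ∃ F : IntermediateField ℚ Ω, FiniteDimensional ℚ F ∧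
      ∀ s ∈ F.fixingSubgroup, M.ρ s m = m)
  (hMur : ∀ q : Nat.Primes, q ∉ S → ∀ A : ValuationSubring Ω,
      A.LiesOverPrime (q : ℕ) → ∀ g ∈ A.inertiaSubgroupIn ℚ, M.ρ g = 1)

include hp2 hpS hsm hMur in
/-- **S55 from the remaining inputs.** -/
theorem S55_of_inputs
    (form : PClassFormation (levelBasis S) p (DSm S)) (U₀ : Subgroup Γ)
    (hU₀ : (levelBasis S).IsOpen U₀) (glob : form.IsGlobalBelow U₀)
    (locForm : ∀ v : ↥S, PClassFormation (locFine S v) p (BSm v.1))
    (hD : ∀ (v : ↥S) (F : IntermediateField ℚ Ω) [NumberField F] [IsGalois ℚ F]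
      [(F.fixingSubgroup).Normal] (hF : IsLevel S F),
      Nonempty (LevelClassData S v.1 (inclJSlSm S v ≫ piSm S) F hF.1))
    (hmain : ∀ (D : PTDatum (levelBasis S) p (locHom S) (locFine S))
      (X : SmRep ℤ (levelBasis S)) [@Module.Finite ℤ X.obj.V _ _ X.obj.hV2],
      (∀ x : X.obj.V, p • x = 0) → Nonempty (D.extSha X 2 ≃+ CharacterModule (D.shaOne X))) :
    ∃ B : sha₁ S (M.dualTwist (cycloChar p)) →ₗ[ZMod p] sha₂ S M →ₗ[ZMod p] ZMod p,
      (∀ y, (∀ x, B y x = 0) → y = 0) ∧ (∀ x, (∀ y, B y x = 0) → x = 0) :=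
  S55_of_ExtEngine hp2 S hpS M hsm hMur
    (extEngine_of_inputs hp2 S hpS form U₀ hU₀ glob locForm hD hmain) (homCompare hpS)

include hp2 hpS hsm hMur in
/-- **S55 from (A) the global formation on `DSm S`, (C) the finite-level data for (LG') and (M) the
main theorem of the engine** (the local formations (B) are helper4's `locPClassFormation`). -/
theorem S55_of_global
    (form : PClassFormation (levelBasis S) p (DSm S)) (U₀ : Subgroup Γ)
    (hU₀ : (levelBasis S).IsOpen U₀) (glob : form.IsGlobalBelow U₀)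
    (hD : ∀ (v : ↥S) (F : IntermediateField ℚ Ω) [NumberField F] [IsGalois ℚ F]
      [(F.fixingSubgroup).Normal] (hF : IsLevel S F),
      Nonempty (LevelClassData S v.1 (inclJSlSm S v ≫ piSm S) F hF.1))
    (hmain : ∀ (D : PTDatum (levelBasis S) p (locHom S) (locFine S))
      (X : SmRep ℤ (levelBasis S)) [@Module.Finite ℤ X.obj.V _ _ X.obj.hV2],
      (∀ x : X.obj.V, p • x = 0) → Nonempty (D.extSha X 2 ≃+ CharacterModule (D.shaOne X))) :
    ∃ B : sha₁ S (M.dualTwist (cycloChar p)) →ₗ[ZMod p] sha₂ S M →ₗ[ZMod p] ZMod p,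
      (∀ y, (∀ x, B y x = 0) → y = 0) ∧ (∀ x, (∀ y, B y x = 0) → x = 0) :=
  S55_of_inputs hp2 S hpS M hsm hMur form U₀ hU₀ glob
    (fun v => LocForm.locPClassFormation v.1 p) hD hmain

end Fermat.Agent.CFT.Bridge
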